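import Fermat.Agent.Corollaries.CFTP.Defs

set_option autoImplicit false

/-!
# Values from zero sets

`η` a function on the places of `K`, `ψ` a character of `G_K` of order `p`, with `η + c θ_j` matched
with a character in the line `ψ κ_j ^ d` for all `c` and for two auxiliary characters `κ_j`, where
`θ_j` is the function of values of `κ_j` at the Frobenius elements. Then a power of `ψ` takes the
value `η v` at the Frobenius elements at `v` with `θ₁ v ≠ 0`.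
-/

namespace Fermat.Agent.Cor.CFTP

open IsDedekindDomain NumberField
open Fermat.Agent.Frob Fermat.Agent.FrobDensity Fermat.Agent.Minkowski
open Fermat.Agent.LT.Tower.Fr
open Fermat.Agent.Cor.Diff (GK FrobAt exists_frobAt exists_nat_mem exists_nat_mem'
  finite_natCast_mem exists_emb)

variable {K : Type*} [Field K] [NumberField K] {p : ℕ}

/-- `ψ` takes the value `η v` at the Frobenius elements at almost all `v`. -/
def Exact (i : K →+* AlgebraicClosure ℚ) (η : HeightOneSpectrum (𝓞 K) → ZMod p)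
    (ψ : GK i →* C p) : Prop :=
  ∃ T : Finset (HeightOneSpectrum (𝓞 K)), ∀ v, v ∉ T → ∀ g : GK i, FrobAt g v →
    ψ g = Multiplicative.ofAdd (η v)

/-- additive values -/
def vl {G : Type*} [Group G] (ψ : G →* C p) (g : G) : ZMod p := (ψ g).toAdd

section vl

variable {G : Type*} [Group G]

lemma vl_eq_zero_iff (ψ : G →* C p) (g : G) : vl ψ g = 0 ↔ ψ g = 1 := toAdd_eq_zero

lemma vl_mul_pow (ψ κ : G →* C p) (d : ℕ) (g : G) : vl (ψ * κ ^ d) g = vl ψ g + d * vl κ g := by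
  unfold vl
  rw [MonoidHom.mul_apply, MonoidHom.pow_apply, toAdd_mul, toAdd_pow, nsmul_eq_mul]

end vl

variable [hp : Fact p.Prime]

/-- Frobenius elements with given values of three characters, up to a common factor. -/
lemma exists_frob_vl {i : K →+* AlgebraicClosure ℚ} {ψ κ₁ κ₂ : GK i →* C p} (lψ : Lev ψ)
    (l₁ : Lev κ₁) (l₂ : Lev κ₂)
    (hs : ∀ x y z : C p, ∃ g, ψ g = x ∧ κ₁ g = y ∧ κ₂ g = z)
    (T : Finset (HeightOneSpectrum (𝓞 K))) (x y z : ZMod p) (h0 : x ≠ 0 ∨ y ≠ 0 ∨ z ≠ 0) :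
    ∃ (v : HeightOneSpectrum (𝓞 K)) (φ : GK i) (k : ZMod p), v ∉ T ∧ FrobAt φ v ∧ k ≠ 0 ∧
      vl ψ φ = k * x ∧ vl κ₁ φ = k * y ∧ vl κ₂ φ = k * z := by
  classical
  obtain ⟨g, hg, hg₁, hg₂⟩ := hs (Multiplicative.ofAdd x) (Multiplicative.ofAdd y)
    (Multiplicative.ofAdd z)
  obtain ⟨L, hL, lψ⟩ := lψ
  obtain ⟨L₁, hL₁, l₁⟩ := l₁
  obtain ⟨L₂, hL₂, l₂⟩ := l₂
  obtain ⟨D, hD, hDv⟩ := exists_nat_mem (T : Set (HeightOneSpectrum (𝓞 K))) (Finset.finite_toSet _)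
  have hLL : FiniteDimensional ℚ (L ⊔ L₁ ⊔ L₂ : IntermediateField ℚ (AlgebraicClosure ℚ)) := by
    have := IntermediateField.finiteDimensional_sup L L₁
    exact IntermediateField.finiteDimensional_sup _ _
  obtain ⟨v, φ, k, k', hv, hφ, -, h⟩ := exists_frob g (L ⊔ L₁ ⊔ L₂) hD
  have hvT : v ∉ T := fun h => hv (hDv v h)
  have e := h ψ fun h' hh => lψ h' fun x hx =>
    hh x ((le_sup_left.trans le_sup_left : L ≤ L ⊔ L₁ ⊔ L₂) hx)
  have e₁ := h κ₁ fun h' hh => l₁ h' fun x hx =>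
    hh x ((le_sup_right.trans le_sup_left : L₁ ≤ L ⊔ L₁ ⊔ L₂) hx)
  have e₂ := h κ₂ fun h' hh => l₂ h' fun x hx =>
    hh x ((le_sup_right : L₂ ≤ L ⊔ L₁ ⊔ L₂) hx)
  have key : ∀ (χ : GK i →* C p) (t : ZMod p), χ g = Multiplicative.ofAdd t →
      (χ φ = χ g ^ k ∧ χ g = χ φ ^ k') → vl χ φ = k * t ∧ t = k' * (k * t) := by
    intro χ t ht hh
    have h1 : vl χ φ = k * t := by
      unfold vl
      rw [hh.1, ht, toAdd_pow, toAdd_ofAdd, nsmul_eq_mul]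
    refine ⟨h1, ?_⟩
    have h2 : (χ g).toAdd = k' * vl χ φ := by
      unfold vl
      rw [hh.2, toAdd_pow, nsmul_eq_mul]
    rw [ht, toAdd_ofAdd, h1] at h2
    exact h2
  have a := key ψ x hg e
  have a₁ := key κ₁ y hg₁ e₁
  have a₂ := key κ₂ z hg₂ e₂
  refine ⟨v, φ, k, hvT, hφ, ?_, a.1, a₁.1, a₂.1⟩
  intro hk
  rw [hk, zero_mul, mul_zero] at a a₁ a₂
  rcases h0 with h0 | h0 | h0
  · exact h0 a.2
  · exact h0 a₁.2
  · exact h0 a₂.2

/-- **Values from zero sets.** -/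
theorem exact_of_lines {i : K →+* AlgebraicClosure ℚ}
    {η θ₁ θ₂ : HeightOneSpectrum (𝓞 K) → ZMod p} {ψ κ₁ κ₂ : GK i →* C p}
    (lψ : Lev ψ) (l₁ : Lev κ₁) (l₂ : Lev κ₂) (h₁ : Exact i θ₁ κ₁) (h₂ : Exact i θ₂ κ₂)
    (hs : ∀ x y z : C p, ∃ g, ψ g = x ∧ κ₁ g = y ∧ κ₂ g = z)
    (m₁ : ∀ c : ℕ, ∃ d : ℕ, Mat i (fun v => η v + (c : ZMod p) * θ₁ v) (ψ * κ₁ ^ d))
    (m₂ : ∀ c : ℕ, ∃ d : ℕ, Mat i (fun v => η v + (c : ZMod p) * θ₂ v) (ψ * κ₂ ^ d)) :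
    ∃ a : ℕ, ¬ p ∣ a ∧ ∃ T : Finset (HeightOneSpectrum (𝓞 K)), ∀ v, v ∉ T → ∀ g : GK i,
      FrobAt g v → κ₁ g ≠ 1 → ψ g ^ a = Multiplicative.ofAdd (η v) := by
  classical
  -- uniform form of the hypotheses
  have key : ∀ (θ : HeightOneSpectrum (𝓞 K) → ZMod p) (κ : GK i →* C p), Exact i θ κ →
      (∀ c : ℕ, ∃ d : ℕ, Mat i (fun v => η v + (c : ZMod p) * θ v) (ψ * κ ^ d)) →
      ∃ (T : Finset (HeightOneSpectrum (𝓞 K))) (D : ZMod p → ZMod p), ∀ v, v ∉ T →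
        ∀ g : GK i, FrobAt g v → ∀ c : ZMod p, η v + c * vl κ g = 0 ↔ vl ψ g + D c * vl κ g = 0 := by
    intro θ κ hE hm
    obtain ⟨T₀, hT₀⟩ := hE
    choose d hd using hm
    choose T hT using hd
    refine ⟨T₀ ∪ (Finset.range p).biUnion T, fun c => (d c.val : ZMod p), fun v hv g hg c => ?_⟩
    rw [Finset.mem_union, not_or, Finset.mem_biUnion] at hv
    have h3 : v ∉ T c.val := fun h => hv.2 ⟨c.val, Finset.mem_range.mpr (ZMod.val_lt c), h⟩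
    have h4 := hT c.val v h3 g hg
    rw [← vl_eq_zero_iff, vl_mul_pow, ZMod.natCast_val, ZMod.cast_id', id_eq] at h4
    have h5 : vl κ g = θ v := by
      unfold vl
      rw [hT₀ v hv.1 g hg, toAdd_ofAdd]
    rw [h5] at h4 ⊢
    exact h4
  obtain ⟨T₁, D₁, hD₁⟩ := key θ₁ κ₁ h₁ m₁
  obtain ⟨T₂, D₂, hD₂⟩ := key θ₂ κ₂ h₂ m₂
  set T := T₁ ∪ T₂ with hT
  have hT1 : ∀ v, v ∉ T → v ∉ T₁ := fun v hv h => hv (Finset.mem_union_left _ h)
  have hT2 : ∀ v, v ∉ T → v ∉ T₂ := fun v hv h => hv (Finset.mem_union_right _ h)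
  have hex := exists_frob_vl lψ l₁ l₂ hs T
  -- the functions of one variable
  have P₁ : ∀ t : ZMod p, ∃ e : ZMod p, ∀ v, v ∉ T → ∀ g : GK i, FrobAt g v →
      vl ψ g = t * vl κ₁ g → η v = e * vl κ₁ g := by
    intro t
    obtain ⟨v₀, φ₀, k, hv₀, hφ₀, hk, e1, e2, -⟩ := hex t 1 0 (Or.inr (Or.inl one_ne_zero))
    refine ⟨η v₀ / k, fun v hv g hg hx => ?_⟩
    have h3 := (hD₁ v₀ (hT1 v₀ hv₀) φ₀ hφ₀ (-(η v₀ / k))).mp (by
      rw [e2, mul_one, neg_mul, div_mul_cancel₀ _ hk, add_neg_cancel])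
    rw [e1, e2, mul_one, mul_comm k t, ← add_mul, mul_eq_zero, or_iff_left hk] at h3
    have h4 := (hD₁ v (hT1 v hv) g hg (-(η v₀ / k))).mpr (by
      rw [hx, ← add_mul, h3, zero_mul])
    rwa [neg_mul, add_neg_eq_zero] at h4
  have P₂ : ∀ t : ZMod p, ∃ e : ZMod p, ∀ v, v ∉ T → ∀ g : GK i, FrobAt g v →
      vl ψ g = t * vl κ₂ g → η v = e * vl κ₂ g := by
    intro t
    obtain ⟨v₀, φ₀, k, hv₀, hφ₀, hk, e1, -, e2⟩ := hex t 0 1 (Or.inr (Or.inr one_ne_zero))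
    refine ⟨η v₀ / k, fun v hv g hg hx => ?_⟩
    have h3 := (hD₂ v₀ (hT2 v₀ hv₀) φ₀ hφ₀ (-(η v₀ / k))).mp (by
      rw [e2, mul_one, neg_mul, div_mul_cancel₀ _ hk, add_neg_cancel])
    rw [e1, e2, mul_one, mul_comm k t, ← add_mul, mul_eq_zero, or_iff_left hk] at h3
    have h4 := (hD₂ v (hT2 v hv) g hg (-(η v₀ / k))).mpr (by
      rw [hx, ← add_mul, h3, zero_mul])
    rwa [neg_mul, add_neg_eq_zero] at h4
  choose ε₁ hε₁ using P₁
  obtain ⟨a, ha⟩ := P₂ 1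
  -- the value at `0`
  have z₁ : ε₁ 0 = 0 := by
    obtain ⟨v, φ, k, hv, hφ, hk, e1, e2, e3⟩ := hex 0 1 0 (Or.inr (Or.inl one_ne_zero))
    rw [mul_zero] at e1 e3
    have h3 := hε₁ 0 v hv φ hφ (by rw [e1, zero_mul])
    have h4 := (hD₂ v (hT2 v hv) φ hφ 0).mpr (by rw [e1, e3, mul_zero, add_zero])
    rw [zero_mul, add_zero] at h4
    rw [h4, e2, mul_one] at h3
    exact (mul_eq_zero.mp h3.symm).resolve_right hk
  -- linearity
  have lin : ∀ t : ZMod p, ε₁ t = t * a := by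
    intro t
    by_cases ht : t = 0
    · rw [ht, z₁, zero_mul]
    obtain ⟨v, φ, k, hv, hφ, hk, e1, e2, e3⟩ := hex t 1 t (Or.inl ht)
    have h3 := hε₁ t v hv φ hφ (by rw [e1, e2, mul_one, mul_comm])
    have h4 := ha v hv φ hφ (by rw [e1, e3, one_mul])
    rw [h3, e2, e3, mul_one, mul_comm k t, ← mul_assoc, mul_comm a t] at h4
    exact mul_right_cancel₀ hk h4
  have ha0 : a ≠ 0 := by
    intro h0
    obtain ⟨v, φ, k, hv, hφ, hk, e1, e2, -⟩ := hex 1 1 0 (Or.inl one_ne_zero)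
    obtain ⟨v', φ', k', hv', hφ', hk', e1', e2', -⟩ := hex 0 1 0 (Or.inr (Or.inl one_ne_zero))
    have h3 := hε₁ 1 v hv φ hφ (by rw [e1, e2, one_mul])
    rw [lin, h0, mul_zero, zero_mul] at h3
    have h3' := hε₁ 0 v' hv' φ' hφ' (by rw [e1', mul_zero, zero_mul])
    rw [z₁, zero_mul] at h3'
    have h4 := (hD₁ v (hT1 v hv) φ hφ 0).mp (by rw [h3, zero_mul, add_zero])
    have h4' := (hD₁ v' (hT1 v' hv') φ' hφ' 0).mp (by rw [h3', zero_mul, add_zero])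
    rw [e1', e2', mul_zero, zero_add, mul_one] at h4'
    have h5 : D₁ 0 = 0 := (mul_eq_zero.mp h4').resolve_right hk'
    rw [e1, h5, zero_mul, add_zero, mul_one] at h4
    exact hk h4
  refine ⟨a.val, ?_, T, fun v hv g hg hκ => ?_⟩
  · intro hd
    rw [← ZMod.natCast_eq_zero_iff, ZMod.natCast_val, ZMod.cast_id', id_eq] at hd
    exact ha0 hd
  · have hr : vl κ₁ g ≠ 0 := fun h => hκ ((vl_eq_zero_iff _ _).mp h)
    have h3 := hε₁ (vl ψ g / vl κ₁ g) v hv g hg (div_mul_cancel₀ _ hr).symm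
    rw [lin, mul_right_comm, div_mul_cancel₀ _ hr] at h3
    apply Multiplicative.toAdd.injective
    rw [toAdd_pow, nsmul_eq_mul, ZMod.natCast_val, ZMod.cast_id', id_eq, toAdd_ofAdd, h3, mul_comm]
    rfl

end Fermat.Agent.Cor.CFTP
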