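import Fermat.Agent.Corollaries.CFTP.Uniq
import Fermat.Agent.Corollaries.CFTP.Lines

set_option autoImplicit false

/-!
# Exactness at the places where an auxiliary character does not vanish
-/

namespace Fermat.Agent.Cor.CFTP

open IsDedekindDomain NumberField
open Fermat.Agent.Frob Fermat.Agent.FrobDensity Fermat.Agent.Minkowski
open Fermat.Agent.LT Fermat.Agent.LT.Tower.Fr
open Fermat.Agent.Cor.Diff (GK FrobAt finite_natCast_mem exists_frobAt)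

variable {p : ℕ} [hp : Fact p.Prime]

lemma C.exists_natCast (x : ZMod p) : ∃ c : ℕ, (c : ZMod p) = x :=
  ⟨x.val, by rw [ZMod.natCast_val, ZMod.cast_id', id_eq]⟩

lemma C.pow_eq_one_iff {x : C p} {a : ℕ} (ha : (a : ZMod p) ≠ 0) : x ^ a = 1 ↔ x = 1 := by
  rw [← toAdd_eq_zero, toAdd_pow, nsmul_eq_mul, mul_eq_zero, or_iff_right ha, toAdd_eq_zero]

lemma Mat.pow {K : Type*} [Field K] [NumberField K] {i : K →+* AlgebraicClosure ℚ}
    {η : HeightOneSpectrum (𝓞 K) → ZMod p} {ψ : GK i →* C p} (h : Mat i η ψ) {a : ℕ}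
    (ha : (a : ZMod p) ≠ 0) : Mat i η (ψ ^ a) := by
  obtain ⟨T, h⟩ := h
  exact ⟨T, fun v hv g hg => by rw [h v hv g hg, MonoidHom.pow_apply, C.pow_eq_one_iff ha]⟩

/-- Sums of matched pairs. -/
theorem mat_line {K : Type} [Field K] [NumberField K] (hK : p ≠ 2 ∨ IsTotallyComplex K)
    {i : K →+* AlgebraicClosure ℚ} {S S' : Finset (HeightOneSpectrum (𝓞 K))} {n n' : ℕ}
    {η θ : HeightOneSpectrum (𝓞 K) → ZMod p} (hη : IsRay S n η) (hθ : IsRay S' n' θ)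
    {ψ κ : GK i →* C p} (lψ : Lev ψ) (lκ : Lev κ) (mψ : Mat i η ψ) (mκ : Mat i θ κ)
    (hne : ∃ g, κ g = 1 ∧ ψ g ≠ 1) (c : ℕ) :
    ∃ d : ℕ, Mat i (fun v => η v + (c : ZMod p) * θ v) (ψ * κ ^ d) := by
  classical
  have hsum : IsRay (S ∪ S') (max n n') (fun v => η v + (c : ZMod p) * θ v) :=
    ((hη.mono (le_max_left n n')).mono_set Finset.subset_union_left).add
      (((isRay_mul hθ (c : ZMod p)).mono (le_max_right n n')).mono_set Finset.subset_union_right)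
  obtain ⟨ψ'', l'', m''⟩ := exists_mat_all hK i hsum
  obtain ⟨a, b, hab⟩ := eq_pow_mul_pow_of_ker ψ'' ψ κ
    (ker_le_of_mat mψ mκ m'' lψ lκ l'' ∅ fun v _ h1 h2 => by rw [h1, h2, mul_zero, add_zero])
  have ha : (a : ZMod p) ≠ 0 := by
    intro ha
    obtain ⟨T, hT⟩ := zeros_of_ker_le mκ mκ m'' (fun g hg _ => by
      apply toAdd_eq_zero.mp
      rw [hab, MonoidHom.mul_apply, MonoidHom.pow_apply, MonoidHom.pow_apply, hg, one_pow, mul_one,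
        toAdd_pow, nsmul_eq_mul, ha, zero_mul])
    obtain ⟨g, hg1, hg2⟩ := hne
    apply hg2
    refine ker_le_of_mat' mκ mψ lκ lψ T (fun v hv h => ?_) g hg1
    have h2 := hT v hv h h
    rw [h, mul_zero, add_zero] at h2
    exact h2
  obtain ⟨a', ha'⟩ := C.exists_natCast ((a : ZMod p)⁻¹)
  have ha'0 : (a' : ZMod p) ≠ 0 := by
    rw [ha']
    exact inv_ne_zero ha
  refine ⟨b * a', ?_⟩
  have h1 : ψ'' ^ a' = ψ * κ ^ (b * a') := by
    ext g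
    rw [hab, MonoidHom.pow_apply, MonoidHom.mul_apply, MonoidHom.mul_apply, MonoidHom.pow_apply,
      MonoidHom.pow_apply, MonoidHom.pow_apply]
    apply Multiplicative.toAdd.injective
    rw [toAdd_pow, toAdd_mul, toAdd_mul, toAdd_pow, toAdd_pow, toAdd_pow, nsmul_eq_mul,
      nsmul_eq_mul, nsmul_eq_mul, nsmul_eq_mul, ha', Nat.cast_mul, ha']
    field_simp
  rw [← h1]
  exact m''.pow ha'0

/-- **Fresh auxiliary characters**: not trivial on the automorphisms which fix a given number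
field `M`. -/
theorem exists_aux_fresh {K : Type} [Field K] [NumberField K] [IsTotallyComplex K]
    (i : K →+* AlgebraicClosure ℚ) (M : IntermediateField ℚ (AlgebraicClosure ℚ))
    [FiniteDimensional ℚ M] (B : ℕ) :
    ∃ (ℓ : ℕ) (κ : GQ →* C p) (θ : HeightOneSpectrum (𝓞 K) → ZMod p)
      (S : Finset (HeightOneSpectrum (𝓞 K))) (n : ℕ), ℓ.Prime ∧ B < ℓ ∧
      (∀ v, v ∈ S ↔ (ℓ : 𝓞 K) ∈ v.asIdeal) ∧ IsRay S n θ ∧ KW.Lev κ ∧
      (∀ v, v ∉ S → ∀ g : GK i, FrobAt g v → κ g.1 = Multiplicative.ofAdd (θ v)) ∧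
      ∃ g : GK i, (∀ x ∈ M, g.1 x = x) ∧ κ g.1 ≠ 1 := by
  classical
  let L₁ : IntermediateField ℚ (AlgebraicClosure ℚ) := i.toRatAlgHom.fieldRange
  have hL₁ : FiniteDimensional ℚ L₁ :=
    LinearEquiv.finiteDimensional (AlgEquiv.ofInjectiveField i.toRatAlgHom).toLinearEquiv
  let N : IntermediateField ℚ (AlgebraicClosure ℚ) := L₁ ⊔ M
  have hN : FiniteDimensional ℚ N := IntermediateField.finiteDimensional_sup _ _
  have hNF : NumberField N := ⟨⟩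
  obtain ⟨D, hD, hgood⟩ := exists_good N
  obtain ⟨ℓ, hℓ, hBℓ, hmod⟩ := Nat.exists_prime_gt_modEq_one (B + D) hp.out.ne_zero
  have : Fact ℓ.Prime := ⟨hℓ⟩
  have hℓD : ¬ ℓ ∣ D := fun h => by
    have := Nat.le_of_dvd (Nat.pos_of_ne_zero hD) h
    omega
  have hG : Good N ℓ := hgood ℓ hℓ hℓD
  have hdvd : p ∣ Nat.card (ZMod ℓ)ˣ := by
    rw [Nat.card_eq_fintype_card, ZMod.card_units]
    exact (Nat.modEq_iff_dvd' hℓ.one_le).mp hmod.symm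
  obtain ⟨f, hf⟩ := KW.Homs.exists_surj (G := (ZMod ℓ)ˣ) inferInstance hdvd
  have hS (v : HeightOneSpectrum (𝓞 K)) :
      v ∈ (finite_natCast_mem (K := K) hℓ.ne_zero).toFinset ↔ (ℓ : 𝓞 K) ∈ v.asIdeal := by
    rw [Set.Finite.mem_toFinset, Set.mem_ofPred_eq]
  have hθ : ∀ v ∉ (finite_natCast_mem (K := K) hℓ.ne_zero).toFinset, ∀ u : (ZMod ℓ)ˣ,
      (u : ZMod ℓ) = (Ideal.absNorm v.asIdeal : ZMod ℓ) →
        (f (Recip.nres ℓ v)).toAdd = (f u).toAdd := by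
    intro v hv u hu
    have : u = Recip.nres ℓ v := by
      apply Units.ext
      rw [hu, Recip.nres_coe fun h => hv ((hS v).mpr h)]
    rw [this]
  obtain ⟨n, hn⟩ := Recip.exists_isRay_norm f _ (fun v => (hS v).mpr) _ hθ
  refine ⟨ℓ, f.comp (KW.Kap.kap ℓ), fun v => (f (Recip.nres ℓ v)).toAdd, _, n, hℓ, by omega, hS, hn,
    (KW.Kap.lev_kap ℓ).comp f, ?_, ?_⟩
  · intro v hv g hg
    rw [MonoidHom.comp_apply, kap_frobAt (fun h => hv ((hS v).mpr h)) hg, ofAdd_toAdd]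
  · obtain ⟨u, hu⟩ := hf (Multiplicative.ofAdd 1)
    obtain ⟨g, hg⟩ := exists_kap_eq (algebraMap N (AlgebraicClosure ℚ)) hG u
    refine ⟨⟨g.1, fun x => g.2 ⟨i x, (le_sup_left : L₁ ≤ N) ⟨x, rfl⟩⟩⟩,
      fun x hx => g.2 ⟨x, (le_sup_right : M ≤ N) hx⟩, ?_⟩
    rw [MonoidHom.comp_apply, hg, hu]
    intro h
    have h1 : (1 : ZMod p) = 0 := congrArg Multiplicative.toAdd h
    exact one_ne_zero h1

lemma Exact.mat {K : Type*} [Field K] [NumberField K] {i : K →+* AlgebraicClosure ℚ}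
    {η : HeightOneSpectrum (𝓞 K) → ZMod p} {ψ : GK i →* C p} (h : Exact i η ψ) : Mat i η ψ := by
  obtain ⟨T, h⟩ := h
  exact ⟨T, fun v hv g hg => by rw [h v hv g hg, ofAdd_eq_one]⟩

lemma lev_restrict {K : Type*} [Field K] {i : K →+* AlgebraicClosure ℚ} {M : Type*} [Group M]
    {κ : GQ →* M} (h : KW.Lev κ) : Lev (κ.comp (GK i).subtype) := by
  obtain ⟨L, hL, h⟩ := h
  exact ⟨L, hL, fun g hg => h g.1 hg⟩

/-- **Exactness** up to a scalar at almost all places where the auxiliary character does not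
vanish. -/
theorem exists_scale {K : Type} [Field K] [NumberField K] [IsTotallyComplex K]
    {i : K →+* AlgebraicClosure ℚ} {S S' : Finset (HeightOneSpectrum (𝓞 K))} {n n' : ℕ}
    {η θ : HeightOneSpectrum (𝓞 K) → ZMod p} (hη : IsRay S n η) (hθ : IsRay S' n' θ)
    {ψ κ : GK i →* C p} (lψ : Lev ψ) (lκ : Lev κ) (mψ : Mat i η ψ) (eκ : Exact i θ κ)
    (h₁ : ∃ g, κ g = 1 ∧ ψ g ≠ 1) (h₂ : ∃ g, ψ g = 1 ∧ κ g ≠ 1) :
    ∃ a : ℕ, ¬ p ∣ a ∧ ∃ T : Finset (HeightOneSpectrum (𝓞 K)), ∀ v, v ∉ T → ∀ g : GK i,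
      FrobAt g v → κ g ≠ 1 → ψ g ^ a = Multiplicative.ofAdd (η v) := by
  have hTC : p ≠ 2 ∨ IsTotallyComplex K := Or.inr inferInstance
  obtain ⟨L, hL, hLψ⟩ := id lψ
  obtain ⟨L', hL', hLκ⟩ := id lκ
  have hLL : FiniteDimensional ℚ (L ⊔ L' : IntermediateField ℚ (AlgebraicClosure ℚ)) :=
    IntermediateField.finiteDimensional_sup _ _
  obtain ⟨ℓ, κ₂, θ₂, S₂, n₂, hℓ, -, -, hθ₂, lκ₂, hex₂, g₂, hg₂, hκg₂⟩ :=
    exists_aux_fresh (p := p) i (L ⊔ L') 0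
  have hψg₂ : ψ g₂ = 1 := hLψ g₂ fun x hx => hg₂ x ((le_sup_left : L ≤ L ⊔ L') hx)
  have hκg₂' : κ g₂ = 1 := hLκ g₂ fun x hx => hg₂ x ((le_sup_right : L' ≤ L ⊔ L') hx)
  have e₂ : Exact i θ₂ (κ₂.comp (GK i).subtype) := ⟨S₂, hex₂⟩
  obtain ⟨g₀, hg₀, hg₀'⟩ := h₁
  obtain ⟨g₁, hg₁, hg₁'⟩ := h₂
  refine exact_of_lines lψ lκ (lev_restrict lκ₂) eκ e₂ ?_
    (mat_line hTC hη hθ lψ lκ mψ eκ.mat ⟨g₀, hg₀, hg₀'⟩)
    (mat_line hTC hη hθ₂ lψ (lev_restrict lκ₂) mψ e₂.mat ?_)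
  · intro x y z
    obtain ⟨r, hr⟩ := exists_pow_eq hg₀' x
    obtain ⟨s, hs⟩ := exists_pow_eq hg₁' y
    obtain ⟨t, ht⟩ := exists_pow_eq (x := (κ₂.comp (GK i).subtype) g₂) hκg₂
      (((κ₂.comp (GK i).subtype) (g₀ ^ r * g₁ ^ s))⁻¹ * z)
    refine ⟨g₀ ^ r * g₁ ^ s * g₂ ^ t, ?_, ?_, ?_⟩
    · rw [map_mul, map_mul, map_pow, map_pow, map_pow, hg₁, hψg₂, one_pow, one_pow, mul_one,
        mul_one, hr]
    · rw [map_mul, map_mul, map_pow, map_pow, map_pow, hg₀, hκg₂', one_pow, one_pow, one_mul,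
        mul_one, hs]
    · rw [map_mul _ (g₀ ^ r * g₁ ^ s), map_pow _ g₂, ← ht, mul_inv_cancel_left]
  · -- `κ₂ g = 1`, `ψ g ≠ 1`
    obtain ⟨t, ht⟩ := exists_pow_eq (x := (κ₂.comp (GK i).subtype) g₂) hκg₂
      ((κ₂.comp (GK i).subtype) g₀)⁻¹
    refine ⟨g₀ * g₂ ^ t, ?_, ?_⟩
    · rw [map_mul, map_pow, ← ht, mul_inv_cancel]
    · rw [map_mul, map_pow, hψg₂, one_pow, mul_one]
      exact hg₀'

end Fermat.Agent.Cor.CFTP
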