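import Fermat.Agent.Corollaries.CFTP.Defs
import Fermat.Agent.CFT.Bridge.Levels
import Fermat.Agent.LT.CubicChar

set_option autoImplicit false

/-!
# Class field theory of prime exponent: the converse over a field containing `ζ_p`

`exists_ray_of_char`: a continuous character `G_K → ZMod p`, `K` totally complex, `ζ_p ∈ K`, is
matched with a ray function: it is given by a Kummer extension, and the product formula gives the
ray function.
-/

namespace Fermat.Agent.Cor.CFTP

open IsDedekindDomain NumberField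
open Fermat.Agent.Frob Fermat.Agent.FrobDensity Fermat.Agent.Minkowski
open Fermat.Agent.LT.Tower.Fr
open Fermat.Agent.Cor.Diff (GK FrobAt)

namespace ConvKum

variable {K : Type*} [Field K] [NumberField K] {p : ℕ}

/-- The fixed field of `G_K` is `K`. -/
lemma mem_range_of_fixed (i : K →+* AlgebraicClosure ℚ) {x : AlgebraicClosure ℚ}
    (h : ∀ g : GK i, g.1 x = x) : ∃ y, i y = x := by
  have h1 : x ∈ IntermediateField.fixedField (i.toRatAlgHom.fieldRange.fixingSubgroup) := by
    rw [IntermediateField.mem_fixedField_iff]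
    intro g hg
    rw [IntermediateField.mem_fixingSubgroup_iff] at hg
    exact h ⟨g, fun y => hg _ ⟨y, rfl⟩⟩
  rw [InfiniteGalois.fixedField_fixingSubgroup] at h1
  exact h1

variable [hp : Fact p.Prime]

lemma pow_val_add {M : Type*} [Monoid M] {z : M} (hz : z ^ p = 1) (a b : C p) :
    z ^ (a * b).toAdd.val = z ^ a.toAdd.val * z ^ b.toAdd.val := by
  rw [toAdd_mul, ZMod.val_add, ← pow_add, ← pow_eq_pow_mod _ hz]

open Fermat.Agent.CFT.Kum Fermat.Agent.CFT.Bridge Fermat.Agent.PT in
/-- **Kummer theory**: a character of order `p` of `G_K`, `ζ_p ∈ K`, is given by a `p`-th root of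
an element of `K`. -/
theorem exists_kummer {ζ : K} (hζ : IsPrimitiveRoot ζ p) (i : K →+* AlgebraicClosure ℚ)
    (ψ : GK i →* C p) (hψ : Lev ψ) : ∃ (b : Kˣ) (α : AlgebraicClosure ℚ), α ^ p = i b ∧
      ∀ g : GK i, ψ g = 1 ↔ g.1 α = α := by
  have hζ' : IsPrimitiveRoot (i ζ) p := hζ.map_of_injective i.injective
  have hz0 : i ζ ≠ 0 := hζ'.ne_zero hp.out.ne_zero
  set z : (AlgebraicClosure ℚ)ˣ := Units.mk0 (i ζ) hz0 with hz
  have hzp : z ^ p = 1 := Units.ext (by
    rw [Units.val_pow_eq_pow_val, hz, Units.val_mk0, hζ'.pow_eq_one, Units.val_one])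
  have hfix : ∀ g : GK i, uact g z = z := fun g => Units.ext (g.2 ζ)
  obtain ⟨L, hL, hLψ⟩ := hψ
  have hlev : L.fixingSubgroup.comap (GK i).subtype ∈ (galLevels ℚ (AlgebraicClosure ℚ)).restrict
      (GK i) := LevelSys.comap_mem_comap _ (fixingSubgroup_mem_galLevels L)
  obtain ⟨m, hm⟩ := hilbert90 ((fieldLevel_galLevels ℚ (AlgebraicClosure ℚ)).restrict (GK i))
    (fun g => z ^ (ψ g).toAdd.val)
    ⟨_, hlev, fun g s hs => by
      have h1 : ψ s = 1 := hLψ s fun x hx =>
        (IntermediateField.mem_fixingSubgroup_iff L _).mp hs x hx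
      show z ^ (ψ (g * s)).toAdd.val = z ^ (ψ g).toAdd.val
      rw [map_mul, h1, mul_one]⟩
    (fun u v => by
      rw [map_mul, map_pow, hfix, pow_val_add hzp, mul_comm])
  have hm' : ∀ g : GK i, g.1 (m : AlgebraicClosure ℚ) =
      (z ^ (ψ g).toAdd.val : (AlgebraicClosure ℚ)ˣ) * m := by
    intro g
    rw [hm g, ← Units.val_mul, div_mul_cancel]
    rfl
  obtain ⟨b, hb⟩ := mem_range_of_fixed i (x := (m : AlgebraicClosure ℚ) ^ p) (fun g => by
    rw [map_pow, hm' g, mul_pow, ← Units.val_pow_eq_pow_val, ← pow_mul, mul_comm _ p, pow_mul, hzp,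
      one_pow, Units.val_one, one_mul])
  have hb0 : b ≠ 0 := by
    rintro rfl
    rw [map_zero] at hb
    exact pow_ne_zero p m.ne_zero hb.symm
  refine ⟨Units.mk0 b hb0, m, hb.symm, fun g => ?_⟩
  rw [hm' g]
  constructor
  · intro h
    rw [h, toAdd_one, ZMod.val_zero, pow_zero, Units.val_one, one_mul]
  · intro h
    have h1 : (z ^ (ψ g).toAdd.val : (AlgebraicClosure ℚ)ˣ) = 1 := by
      apply Units.ext
      rw [Units.val_one]
      exact mul_right_cancel₀ m.ne_zero (h.trans (one_mul _).symm)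
    have h2 : (i ζ) ^ (ψ g).toAdd.val = 1 := by
      have h3 := congrArg Units.val h1
      rwa [Units.val_pow_eq_pow_val, hz, Units.val_mk0, Units.val_one] at h3
    have h3 := (hζ'.pow_eq_one_iff_dvd _).mp h2
    have h4 : (ψ g).toAdd.val = 0 := Nat.eq_zero_of_dvd_of_lt h3 (ZMod.val_lt _)
    have h5 : (ψ g).toAdd = 0 := (ZMod.val_eq_zero _).mp h4
    exact toAdd_eq_zero.mp h5

open Fermat.Agent.CFT.Global Fermat.Agent.CFT.SUnits in
/-- The ray function of a Kummer extension. -/
theorem exists_ray {K : Type} [Field K] [NumberField K] [IsTotallyComplex K] {ζ : K}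
    (hζ : IsPrimitiveRoot ζ p) (b : Kˣ) :
    ∃ (S : Finset (HeightOneSpectrum (𝓞 K))) (n : ℕ) (η : HeightOneSpectrum (𝓞 K) → ZMod p),
      AboveP p S ∧ b ∈ E S ∧ LT.IsRay S n η ∧ ∀ v, v ∉ S → (η v = 0 ↔ b ∈ locPow p v) := by
  classical
  obtain ⟨S, -, hSp, hcl, hSb⟩ := exists_good p hp.out.ne_zero
    (∅ : Finset (HeightOneSpectrum (𝓞 K))) {b}
  have hb : b ∈ E S := hSb b (Finset.mem_singleton_self b)
  obtain ⟨c⟩ := LT.CubicChar.nonempty_kChar hζ hSp hb
  choose x hx using fun v : HeightOneSpectrum (𝓞 K) => hcl (Finsupp.single v 1)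
  let η : HeightOneSpectrum (𝓞 K) → ZMod p := fun v => (c.hom (x v)).toAdd
  -- the character is given by `η`
  have hkey : ∀ y : Kˣ, LT.rayVal S η y = c.hom y := by
    intro y
    let T : Finset (HeightOneSpectrum (𝓞 K)) := (div y).support.filter (· ∉ S)
    have h1 : y / ∏ v ∈ T, x v ^ (ord v y) ∈ E S := by
      rw [mem_E]
      intro w hw
      let o : Kˣ →* Multiplicative ℤ :=
        { toFun := fun t => Multiplicative.ofAdd (ord w t)
          map_one' := by simp
          map_mul' := fun a b => by rw [ord_mul, ofAdd_add] }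
      have h2 : ord w (∏ v ∈ T, x v ^ (ord v y)) = ∑ v ∈ T, ord v y * ord w (x v) := by
        have h3 : o (∏ v ∈ T, x v ^ (ord v y)) = ∏ v ∈ T, o (x v) ^ (ord v y) := by
          rw [map_prod]
          exact Finset.prod_congr rfl fun v _ => map_zpow o _ _
        have h4 := congrArg Multiplicative.toAdd h3
        rw [toAdd_prod] at h4
        exact h4
      have h3 : ∑ v ∈ T, ord v y * ord w (x v) = ord w y := by
        by_cases hwT : w ∈ T
        · rw [Finset.sum_eq_single_of_mem w hwT fun v _ hvw => by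
            rw [hx v w hw, Finsupp.single_eq_of_ne hvw.symm, mul_zero]]
          rw [hx w w hw, Finsupp.single_eq_same, mul_one]
        · rw [Finset.sum_eq_zero fun v hv => by
            have hvw : w ≠ v := by
              rintro rfl
              exact hwT hv
            rw [hx v w hw, Finsupp.single_eq_of_ne hvw, mul_zero]]
          by_contra h0
          exact hwT (Finset.mem_filter.mpr ⟨Finsupp.mem_support_iff.mpr (Ne.symm h0), hw⟩)
      rw [ord_div, h2, h3, sub_self]
    have h2 := c.map_unit _ h1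
    rw [_root_.map_div, div_eq_one, map_prod] at h2
    apply Multiplicative.toAdd.injective
    rw [h2, toAdd_prod, LT.toAdd_rayVal_eq_sum S T η y (fun v hvT hvS => by
      have h0 : ord v y = 0 := by
        by_contra h0
        exact hvT (Finset.mem_filter.mpr ⟨Finsupp.mem_support_iff.mpr h0, hvS⟩)
      rw [h0, zero_smul])]
    refine Finset.sum_congr rfl fun v hv => ?_
    rw [if_neg (Finset.mem_filter.mp hv).2, map_zpow, toAdd_zpow]
  refine ⟨S, c.n, η, hSp, hb, fun y hy => by rw [hkey, c.map_cong y hy], fun v hv => ?_⟩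
  have h1 := c.map_place v hv (x v) (fun w hw hwv => by
    rw [hx v w hw, Finsupp.single_eq_of_ne hwv])
  have h2 : ord v (x v) = 1 := by rw [hx v v hv, Finsupp.single_eq_same]
  have h3 : ¬ (p : ℤ) ∣ ord v (x v) := by
    rw [h2]
    intro h
    have h4 := Int.natAbs_dvd_natAbs.mpr h
    simp at h4
    exact hp.out.one_lt.ne' h4
  rw [or_iff_left h3] at h1
  rw [← h1]
  exact toAdd_eq_zero

end ConvKum

open Fermat.Agent.CFT.Global Fermat.Agent.CFT.SUnits in
/-- **The converse**: a continuous character of order `p` of `G_K`, `K` totally complex containing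
`ζ_p`, is matched with a ray function. -/
theorem exists_ray_of_char {p : ℕ} [hp : Fact p.Prime] {K : Type} [Field K] [NumberField K]
    [IsTotallyComplex K] {ζ : K} (hζ : IsPrimitiveRoot ζ p) (i : K →+* AlgebraicClosure ℚ)
    (ψ : GK i →* C p) (hψ : Lev ψ) : ∃ (S : Finset (HeightOneSpectrum (𝓞 K))) (n : ℕ)
      (η : HeightOneSpectrum (𝓞 K) → ZMod p), LT.IsRay S n η ∧ Mat i η ψ := by
  obtain ⟨b, α, hα, hψα⟩ := ConvKum.exists_kummer hζ i ψ hψ
  obtain ⟨S, n, η, hSp, hb, hη, h⟩ := ConvKum.exists_ray hζ b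
  refine ⟨S, n, η, hη, S, fun v hv g hg => ?_⟩
  obtain ⟨A, hA, hF⟩ := hg
  rw [h v hv, hψα]
  exact (fix_iff_mem_locPow (ζ := hζ.toInteger) hp.out hζ.toInteger_isPrimitiveRoot
    (fun h => hv (hSp v h)) (mem_E.mp hb v hv) hα hA g.2 hF).symm

end Fermat.Agent.Cor.CFTP
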