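import Fermat.Agent.Corollaries.Diff.Real
import Fermat.Agent.Classic.Level.Disc.Orbits

set_option autoImplicit false

/-!
# Frobenius elements in `G_K` at every place

`K` a number field, `i : K → ℚ̄`, `A` a valuation subring of `ℚ̄` over the place `v` of `K`.

* `exists_frobAt_over`: `G_K` contains a Frobenius element of `A` for `v` (every place `v`, ramified
  or not);
* `exists_frobAt_all`: every place has a Frobenius element;
* `frob_unique_of_unr`: a homomorphism which is trivial on the inertia elements at `A` has the same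
  value at all Frobenius elements of `A`.
-/

namespace Fermat.Agent.Cor.CFTP

open IsDedekindDomain NumberField
open Fermat.Agent.Frob Fermat.Agent.FrobDensity Fermat.Agent.Minkowski
open Fermat.Agent.LT.Tower.Fr
open Fermat.Agent.Cor.Diff (GK FrobAt)

/-- An inertia element times a Frobenius element is a Frobenius element. -/
theorem isFrobeniusAt_inertia_mul {A : ValuationSubring (AlgebraicClosure ℚ)} {q : ℕ} {τ φ : GQ}
    (hτ : τ ∈ A.inertiaSubgroupIn ℚ) (hφ : A.IsFrobeniusAt φ q) : A.IsFrobeniusAt (τ * φ) q := by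
  obtain ⟨hφd, hφr⟩ := hφ
  obtain ⟨τ', hτ', rfl⟩ := hτ
  refine ⟨mul_mem τ'.2 hφd, fun x => ?_⟩
  have h2 : ∀ y : IsLocalRing.ResidueField A, τ' • y = y := by
    intro y
    have h3 := MonoidHom.mem_ker.mp hτ'
    exact congrArg (fun f => f y) h3
  have h1 : (⟨(τ' : GQ) * φ, mul_mem τ'.2 hφd⟩ : A.decompositionSubgroup ℚ) • x =
      τ' • ((⟨φ, hφd⟩ : A.decompositionSubgroup ℚ) • x) := mul_smul τ' ⟨φ, hφd⟩ x
  exact h1.trans ((h2 _).trans (hφr x))

/-- Two Frobenius elements of `A` (for the same power of the residue characteristic) differ by an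
element of the inertia group. -/
theorem inv_mul_mem_inertia {A : ValuationSubring (AlgebraicClosure ℚ)} {q : ℕ} {σ σ' : GQ}
    (h : A.IsFrobeniusAt σ q) (h' : A.IsFrobeniusAt σ' q) :
    σ'⁻¹ * σ ∈ A.inertiaSubgroupIn ℚ := by
  obtain ⟨h1, h2⟩ := h
  obtain ⟨h1', h2'⟩ := h'
  refine ⟨(⟨σ', h1'⟩ : A.decompositionSubgroup ℚ)⁻¹ * ⟨σ, h1⟩, ?_, rfl⟩
  change _ ∈ MonoidHom.ker _
  rw [MonoidHom.mem_ker]
  ext x
  change ((⟨σ', h1'⟩ : A.decompositionSubgroup ℚ)⁻¹ * ⟨σ, h1⟩) • x = x
  rw [mul_smul, h2, ← h2', inv_smul_smul]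

section

variable {K : Type*} [Field K] [NumberField K] {i : K →+* AlgebraicClosure ℚ}
  {v : HeightOneSpectrum (𝓞 K)} {A : ValuationSubring (AlgebraicClosure ℚ)}

/-- **Frobenius elements exist in `G_K` at every place** `v` of `K` and every valuation subring of
`ℚ̄` above `v`, ramified or not. -/
theorem exists_frobAt_over (hA : Over i A v) :
    ∃ g : GK i, A.IsFrobeniusAt g.1 (Ideal.absNorm v.asIdeal) := by
  obtain ⟨p, hp, hpv⟩ := exists_prime_mem v
  have hAp : A.LiesOverPrime p := hA.natCast_mem_iff.mp hpv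
  obtain ⟨σ, hσ⟩ := exists_isFrobeniusAt hp hAp
  obtain ⟨f, -, hf⟩ := exists_absNorm_eq_pow hp hpv
  have h1 : redτ A ((gh (σ ^ f)).comp i) = redτ A i := by
    ext x
    rw [redτ_frob_pow hσ, ← hf]
    exact hA.redτ_pow_absNorm x
  obtain ⟨τ, hτ, h2⟩ := Fermat.Agent.Classic.Disc.exists_inertia_of_redτ_eq hp hAp h1
  refine ⟨⟨τ * σ ^ f, fun x => RingHom.congr_fun h2 x⟩, ?_⟩
  rw [hf]
  exact isFrobeniusAt_inertia_mul hτ (isFrobeniusAt_pow hσ f)

/-- Every place has a Frobenius element in `G_K`. -/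
theorem exists_frobAt_all (i : K →+* AlgebraicClosure ℚ) (v : HeightOneSpectrum (𝓞 K)) :
    ∃ g : GK i, FrobAt g v := by
  obtain ⟨p, A, -, -, hA⟩ := exists_over i v
  obtain ⟨g, hg⟩ := exists_frobAt_over hA
  exact ⟨g, A, hA, hg⟩

omit [NumberField K] in
/-- Two Frobenius elements of `G_K` at `A` have the same image under a homomorphism which is
trivial on the inertia elements of `G_K` at `A`. -/
theorem frob_unique_of_unr {M : Type*} [Group M] (ψ : GK i →* M)
    (hu : ∀ g : GK i, g.1 ∈ A.inertiaSubgroupIn ℚ → ψ g = 1) {q : ℕ} {g g' : GK i}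
    (hg : A.IsFrobeniusAt g.1 q) (hg' : A.IsFrobeniusAt g'.1 q) : ψ g = ψ g' := by
  have h1 : (g'⁻¹ * g : GK i).1 ∈ A.inertiaSubgroupIn ℚ := inv_mul_mem_inertia hg hg'
  have h2 := hu _ h1
  rw [map_mul, map_inv, inv_mul_eq_one] at h2
  exact h2.symm

end

end Fermat.Agent.Cor.CFTP
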