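import Fermat.Agent.Corollaries.CFTP.Defs
import Fermat.Agent.LT.Tower.SysK

set_option autoImplicit false

/-!
# Characters of `G_{K'}` for a Galois extension `K' / K`

Conjugation by `G_K`, and the main lemma `conj_eq_of_mat`: if `ψ'` is matched with a function which is
invariant under `Gal(K' / K)` then `ψ'` is invariant under conjugation by `G_K`.
-/

namespace Fermat.Agent.Cor.CFTP

open IsDedekindDomain NumberField
open Fermat.Agent.Frob Fermat.Agent.FrobDensity Fermat.Agent.Minkowski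
open Fermat.Agent.LT Fermat.Agent.LT.Tower.Fr
open Fermat.Agent.Cor.Diff (GK FrobAt)
open Fermat.Agent.CFT.Global (above mem_above)
open Fermat.Agent.CFT.Places (conj)
open Fermat.Agent.LT.NV (fdeg edeg edeg_fdeg_eq)
open scoped Pointwise

variable {K K' : Type*} [Field K] [NumberField K] [Field K'] [NumberField K'] [Algebra K K']
  {i' : K' →+* AlgebraicClosure ℚ}

/-- `N w = (N v) ^ f`. -/
lemma absNorm_eq_pow_fdeg (w : HeightOneSpectrum (𝓞 K')) :
    Ideal.absNorm w.asIdeal = Ideal.absNorm (w.under (𝓞 K)).asIdeal ^ fdeg K w := by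
  rw [fdeg]
  exact Ideal.absNorm_eq_pow_inertiaDeg'_of_liesOver w.asIdeal (w.under (𝓞 K)).asIdeal
    (w.under (𝓞 K)).isPrime (w.under (𝓞 K)).ne_bot

lemma absNorm_eq_of_under_eq [IsGalois K K'] {w w' : HeightOneSpectrum (𝓞 K')}
    (h : w.under (𝓞 K) = w'.under (𝓞 K)) :
    Ideal.absNorm w.asIdeal = Ideal.absNorm w'.asIdeal := by
  rw [absNorm_eq_pow_fdeg (K := K) w, absNorm_eq_pow_fdeg (K := K) w', h, (edeg_fdeg_eq h).2]

omit [NumberField K] [NumberField K'] in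
/-- An element of `G_K` acts on `K'` by an automorphism over `K`. -/
lemma exists_gal [IsGalois K K'] (i' : K' →+* AlgebraicClosure ℚ) {σ : GQ}
    (hσ : σ ∈ GK (i'.comp (algebraMap K K'))) :
    ∃ τ : K' ≃ₐ[K] K', ∀ x, σ (i' x) = i' (τ x) := by
  let _ : Algebra K' (AlgebraicClosure ℚ) := i'.toAlgebra
  let _ : Algebra K (AlgebraicClosure ℚ) := (i'.comp (algebraMap K K')).toAlgebra
  have : IsScalarTower K K' (AlgebraicClosure ℚ) := IsScalarTower.of_algebraMap_eq' rfl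
  let s : AlgebraicClosure ℚ ≃ₐ[K] AlgebraicClosure ℚ :=
    AlgEquiv.ofRingEquiv (f := σ.toRingEquiv) hσ
  refine ⟨s.restrictNormal K', fun x => ?_⟩
  exact (s.restrictNormal_commutes K' x).symm

/-- Conjugation by an element of `G_K` on `G_{K'}`. -/
noncomputable def conjHom [IsGalois K K'] (i' : K' →+* AlgebraicClosure ℚ) {σ : GQ}
    (hσ : σ ∈ GK (i'.comp (algebraMap K K'))) : GK i' →* GK i' where
  toFun h := ⟨σ * h.1 * σ⁻¹, by
    intro x
    obtain ⟨τ, hτ⟩ := exists_gal i' (inv_mem hσ)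
    change σ (h.1 (σ⁻¹ (i' x))) = i' x
    rw [hτ, h.2, ← hτ]
    exact σ.apply_symm_apply (i' x)⟩
  map_one' := by
    ext1
    change σ * 1 * σ⁻¹ = 1
    rw [mul_one, mul_inv_cancel]
  map_mul' a b := by
    ext1
    change σ * (a.1 * b.1) * σ⁻¹ = (σ * a.1 * σ⁻¹) * (σ * b.1 * σ⁻¹)
    group

lemma coe_conjHom [IsGalois K K'] {σ : GQ} (hσ : σ ∈ GK (i'.comp (algebraMap K K')))
    (h : GK i') : (conjHom i' hσ h).1 = σ * h.1 * σ⁻¹ := rfl

lemma Lev.conj [IsGalois K K'] {σ : GQ} (hσ : σ ∈ GK (i'.comp (algebraMap K K')))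
    {M : Type*} [Group M] {ψ : GK i' →* M} (h : Lev ψ) : Lev (ψ.comp (conjHom i' hσ)) := by
  obtain ⟨L, hL, h⟩ := h
  refine ⟨L.map ((σ⁻¹ : GQ) : AlgebraicClosure ℚ →ₐ[ℚ] AlgebraicClosure ℚ), ?_, fun g hg => ?_⟩
  · exact LinearEquiv.finiteDimensional
      (IntermediateField.intermediateFieldMap (σ⁻¹ : GQ) L).toLinearEquiv
  · apply h
    intro x hx
    rw [coe_conjHom]
    change σ (g.1 (σ⁻¹ x)) = x
    rw [hg (σ⁻¹ x) ⟨x, hx, rfl⟩]
    exact σ.apply_symm_apply x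

variable {p : ℕ} [hp : Fact p.Prime]

lemma Mat.conj [IsGalois K K'] {σ : GQ} (hσ : σ ∈ GK (i'.comp (algebraMap K K')))
    {η : HeightOneSpectrum (𝓞 K') → ZMod p}
    (hinv : ∀ w w' : HeightOneSpectrum (𝓞 K'), w.under (𝓞 K) = w'.under (𝓞 K) → η w = η w')
    {ψ : GK i' →* C p} (h : Mat i' η ψ) : Mat i' η (ψ.comp (conjHom i' hσ)) := by
  classical
  obtain ⟨T, h⟩ := h
  obtain ⟨τ, hτ⟩ := exists_gal i' hσ
  refine ⟨above K' (T.image fun w => w.under (𝓞 K)), fun w hw g hg => ?_⟩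
  obtain ⟨A, hA, hF⟩ := hg
  have hu : (Fermat.Agent.CFT.Places.conj τ w).under (𝓞 K) = w.under (𝓞 K) :=
    Fermat.Agent.CFT.Places.below_conj τ w
  have hwT : Fermat.Agent.CFT.Places.conj τ w ∉ T := by
    intro hT
    apply hw
    rw [mem_above, Finset.mem_image]
    exact ⟨_, hT, hu⟩
  rw [hinv w _ hu.symm]
  refine h _ hwT (conjHom i' hσ g) ⟨σ • A, Fermat.Agent.LT.Tower.Fr.Over.conj hA τ hτ, ?_⟩
  rw [absNorm_eq_of_under_eq hu]
  exact isFrobeniusAt_conj hF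

/-- **The main lemma.** -/
theorem conj_eq_of_mat [IsGalois K K']
    (hex : ∀ (S : Finset (HeightOneSpectrum (𝓞 K'))) (n : ℕ)
      (η : HeightOneSpectrum (𝓞 K') → ZMod p), IsRay S n η →
      ∃ ψ : GK i' →* C p, Lev ψ ∧ Mat i' η ψ)
    {η θ : HeightOneSpectrum (𝓞 K') → ZMod p} {S : Finset (HeightOneSpectrum (𝓞 K'))} {n : ℕ}
    (hη : IsRay S n η) {S₀ : Finset (HeightOneSpectrum (𝓞 K'))} {n₀ : ℕ} (hθ : IsRay S₀ n₀ θ)
    (iη : ∀ w w' : HeightOneSpectrum (𝓞 K'), w.under (𝓞 K) = w'.under (𝓞 K) → η w = η w')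
    (iθ : ∀ w w' : HeightOneSpectrum (𝓞 K'), w.under (𝓞 K) = w'.under (𝓞 K) → θ w = θ w')
    {ψ κ : GK i' →* C p} (lψ : Lev ψ) (lκ : Lev κ) (mψ : Mat i' η ψ) (mκ : Mat i' θ κ)
    (hκ : ∃ g, κ g ≠ 1) {σ : GQ} (hσ : σ ∈ GK (i'.comp (algebraMap K K')))
    (hκσ : ∀ g, κ (conjHom i' hσ g) = κ g) (g : GK i') : ψ (conjHom i' hσ g) = ψ g := by
  classical
  -- inclusions of kernels are enough
  have done₁ : (∀ g, κ g = 1 → ψ g = 1) → ψ (conjHom i' hσ g) = ψ g := by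
    intro h
    obtain ⟨c, hc⟩ := eq_pow_of_ker ψ κ h
    rw [hc, MonoidHom.pow_apply, MonoidHom.pow_apply, hκσ]
  have done₂ : (∀ g, ψ g = 1 → κ g = 1) → ψ (conjHom i' hσ g) = ψ g := by
    intro h
    obtain ⟨c, hc⟩ := eq_pow_of_ker κ ψ h
    apply done₁
    obtain ⟨g₀, hg₀⟩ := hκ
    intro g hg
    have hcop : Nat.Coprime p c := by
      rw [hp.out.coprime_iff_not_dvd]
      rintro ⟨d, rfl⟩
      apply hg₀
      rw [hc, MonoidHom.pow_apply, pow_mul, C.pow_p, one_pow]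
    rw [hc, MonoidHom.pow_apply] at hg
    have h1 := orderOf_dvd_of_pow_eq_one hg
    have h2 := orderOf_dvd_of_pow_eq_one (C.pow_p (ψ g))
    have h3 : orderOf (ψ g) ∣ 1 := by
      rw [← hcop]
      exact Nat.dvd_gcd h2 h1
    exact orderOf_eq_one_iff.mp (Nat.dvd_one.mp h3)
  -- the sum
  have hsum : IsRay (S ∪ S₀) (max n n₀) (fun v => η v + θ v) :=
    ((hη.mono (le_max_left n n₀)).mono_set Finset.subset_union_left).add
      ((hθ.mono (le_max_right n n₀)).mono_set Finset.subset_union_right)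
  obtain ⟨ψ'', l'', m''⟩ := hex _ _ _ hsum
  obtain ⟨a, b, hab⟩ := eq_pow_mul_pow_of_ker ψ'' ψ κ
    (ker_le_of_mat mψ mκ m'' lψ lκ l'' ∅ fun v _ h1 h2 => by rw [h1, h2, add_zero])
  obtain ⟨μ, hμ⟩ := eq_pow_of_ker (ψ.comp (conjHom i' hσ)) ψ
    (ker_le_of_mat' mψ (mψ.conj hσ iη) lψ (lψ.conj hσ) ∅ fun v _ h => h)
  obtain ⟨ν, hν⟩ := eq_pow_of_ker (ψ''.comp (conjHom i' hσ)) ψ''
    (ker_le_of_mat' m'' (m''.conj hσ fun w w' h => by rw [iη w w' h, iθ w w' h]) l''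
      (l''.conj hσ) ∅ fun v _ h => h)
  -- additive form
  have e1 : ∀ g, (ψ'' g).toAdd = a * (ψ g).toAdd + b * (κ g).toAdd := by
    intro g
    rw [hab, MonoidHom.mul_apply, MonoidHom.pow_apply, MonoidHom.pow_apply, toAdd_mul, toAdd_pow,
      toAdd_pow, nsmul_eq_mul, nsmul_eq_mul]
  have e2 : ∀ g, (ψ (conjHom i' hσ g)).toAdd = μ * (ψ g).toAdd := by
    intro g
    have h1 : ψ (conjHom i' hσ g) = ψ g ^ μ := DFunLike.congr_fun hμ g
    rw [h1, toAdd_pow, nsmul_eq_mul]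
  have e3 : ∀ g, (ψ'' (conjHom i' hσ g)).toAdd = ν * (ψ'' g).toAdd := by
    intro g
    have h1 : ψ'' (conjHom i' hσ g) = ψ'' g ^ ν := DFunLike.congr_fun hν g
    rw [h1, toAdd_pow, nsmul_eq_mul]
  have e4 : ∀ g, (a : ZMod p) * (μ * (ψ g).toAdd) + b * (κ g).toAdd =
      ν * (a * (ψ g).toAdd + b * (κ g).toAdd) := by
    intro g
    rw [← e1, ← e3, e1, e2, hκσ]
  by_cases hbν : (b : ZMod p) * (1 - ν) = 0
  swap
  · apply done₂
    intro g hg
    have h1 := e4 g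
    rw [hg, toAdd_one, mul_zero, mul_zero, zero_add] at h1
    have h2 : (b : ZMod p) * (1 - ν) * (κ g).toAdd = 0 := by linear_combination h1
    exact toAdd_eq_zero.mp ((mul_eq_zero.mp h2).resolve_left hbν)
  rcases mul_eq_zero.mp hbν with hb | hν1
  · -- `b = 0`
    apply done₂
    obtain ⟨T, hT⟩ := zeros_of_ker_le mψ mψ m'' (fun g hg _ => by
      apply toAdd_eq_zero.mp
      rw [e1, hg, toAdd_one, hb, mul_zero, zero_mul, add_zero])
    refine ker_le_of_mat' mψ mκ lψ lκ T fun v hv h => ?_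
    have h2 := hT v hv h h
    rw [h, zero_add] at h2
    exact h2
  · have hν' : (ν : ZMod p) = 1 := (sub_eq_zero.mp hν1).symm
    by_cases ha : (a : ZMod p) = 0
    · apply done₁
      obtain ⟨T, hT⟩ := zeros_of_ker_le mκ mκ m'' (fun g hg _ => by
        apply toAdd_eq_zero.mp
        rw [e1, hg, toAdd_one, ha, mul_zero, zero_mul, add_zero])
      refine ker_le_of_mat' mκ mψ lκ lψ T fun v hv h => ?_
      have h2 := hT v hv h h
      rw [h, add_zero] at h2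
      exact h2
    · have h1 := e4 g
      rw [hν', one_mul] at h1
      have h2 : (a : ZMod p) * (μ * (ψ g).toAdd) = a * (ψ g).toAdd := by
        linear_combination h1
      apply Multiplicative.toAdd.injective
      rw [e2]
      exact mul_left_cancel₀ ha h2

end Fermat.Agent.Cor.CFTP
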