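import Fermat.Agent.Corollaries.CFTP.Scale
import Fermat.Agent.Corollaries.CFTP.Tower
import Fermat.Agent.Corollaries.CFTP.FrobEx

set_option autoImplicit false

/-!
# Restriction of characters and norm pull-back of functions on places
-/

namespace Fermat.Agent.Cor.CFTP

open IsDedekindDomain NumberField
open Fermat.Agent.Frob Fermat.Agent.FrobDensity Fermat.Agent.Minkowski
open Fermat.Agent.LT Fermat.Agent.LT.Tower.Fr
open Fermat.Agent.Cor.Diff (GK FrobAt finite_natCast_mem exists_frobAt)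
open Fermat.Agent.CFT.Global (above mem_above)
open Fermat.Agent.LT.NV (fdeg edeg edeg_fdeg_eq pull)

variable {K K' : Type*} [Field K] [Field K'] [Algebra K K'] (i' : K' →+* AlgebraicClosure ℚ)

/-- the inclusion `G_{K'} → G_K` -/
def res (K : Type*) {K' : Type*} [Field K] [Field K'] [Algebra K K']
    (i' : K' →+* AlgebraicClosure ℚ) : GK i' →* GK (i'.comp (algebraMap K K')) where
  toFun g := ⟨g.1, fun x => g.2 (algebraMap K K' x)⟩
  map_one' := rfl
  map_mul' _ _ := rfl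

lemma coe_res (g : GK i') : (res K i' g).1 = g.1 := rfl

variable {i'}

lemma Lev.res {M : Type*} [Group M] {ψ : GK (i'.comp (algebraMap K K')) →* M} (h : Lev ψ) :
    Lev (ψ.comp (CFTP.res K i')) := by
  obtain ⟨L, hL, h⟩ := h
  exact ⟨L, hL, fun g hg => h _ hg⟩

/-- A character is unramified at almost all places. -/
theorem Lev.unr {K : Type*} [Field K] [NumberField K] {i : K →+* AlgebraicClosure ℚ} {M : Type*}
    [Group M] {ψ : GK i →* M} (h : Lev ψ) : ∃ T : Finset (HeightOneSpectrum (𝓞 K)),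
    ∀ v, v ∉ T → ∀ A : ValuationSubring (AlgebraicClosure ℚ), Over i A v →
      ∀ g : GK i, g.1 ∈ A.inertiaSubgroupIn ℚ → ψ g = 1 := by
  obtain ⟨L, hL, h⟩ := h
  have hNF : NumberField L := ⟨⟩
  obtain ⟨D, hD, hgood⟩ := exists_good L
  refine ⟨(finite_natCast_mem (K := K) hD).toFinset, fun v hv A hA g hg => ?_⟩
  rw [Set.Finite.mem_toFinset, Set.mem_ofPred_eq] at hv
  obtain ⟨q, hq, hqv⟩ := exists_prime_mem v
  have hAq : A.LiesOverPrime q := hA.natCast_mem_iff.mp hqv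
  have hqD : ¬ q ∣ D := by
    rintro ⟨c, rfl⟩
    apply hv
    rw [Nat.cast_mul]
    exact v.asIdeal.mul_mem_right _ hqv
  have h3 : (gh g.1).comp (algebraMap L (AlgebraicClosure ℚ)) = algebraMap L _ :=
    hgood q hq hqD A hAq _ _ (Classic.Disc.redτ_comp_inertia hg _)
  exact h g fun x hx => RingHom.congr_fun h3 ⟨x, hx⟩

variable [NumberField K] [NumberField K'] {p : ℕ} [hp : Fact p.Prime]

/-- Frobenius elements of `K'` are powers of Frobenius elements of `K`. -/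
theorem frob_pull {ψ : GK (i'.comp (algebraMap K K')) →* C p} (lψ : Lev ψ) :
    ∃ T : Finset (HeightOneSpectrum (𝓞 K)), ∀ w : HeightOneSpectrum (𝓞 K'),
      w.under (𝓞 K) ∉ T → ∀ h : GK i', FrobAt h w → ∃ g : GK (i'.comp (algebraMap K K')),
        FrobAt g (w.under (𝓞 K)) ∧ ψ (res K i' h) = ψ g ^ fdeg K w := by
  obtain ⟨T, hT⟩ := lψ.unr
  refine ⟨T, fun w hw h hh => ?_⟩
  obtain ⟨A, hA, hF⟩ := hh
  obtain ⟨g, hg⟩ := exists_frobAt_over (K := K) hA.under
  refine ⟨g, ⟨A, hA.under, hg⟩, ?_⟩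
  have h1 : A.IsFrobeniusAt (g ^ fdeg K w).1 (Ideal.absNorm w.asIdeal) := by
    rw [absNorm_eq_pow_fdeg (K := K) w]
    exact isFrobeniusAt_pow hg _
  rw [← map_pow]
  exact frob_unique_of_unr ψ (hT _ hw A hA.under) (g := res K i' h) hF h1

theorem mat_pull {ψ : GK (i'.comp (algebraMap K K')) →* C p} (lψ : Lev ψ)
    {η : HeightOneSpectrum (𝓞 K) → ZMod p} (h : Mat (i'.comp (algebraMap K K')) η ψ) :
    Mat i' (pull K' η) (ψ.comp (res K i')) := by
  classical
  obtain ⟨T, hT⟩ := h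
  obtain ⟨T', hT'⟩ := frob_pull lψ
  refine ⟨above K' (T ∪ T'), fun w hw g hg => ?_⟩
  rw [mem_above, Finset.mem_union, not_or] at hw
  obtain ⟨g', hg', e⟩ := hT' w hw.2 g hg
  have h1 := hT _ hw.1 g' hg'
  change fdeg K w • η (w.under (𝓞 K)) = 0 ↔ ψ (res K i' g) = 1
  rw [e]
  by_cases hf : (fdeg K w : ZMod p) = 0
  · rw [nsmul_eq_mul, hf, zero_mul, ← toAdd_eq_zero, toAdd_pow, nsmul_eq_mul, hf, zero_mul]
  · rw [C.pow_eq_one_iff hf, ← h1, nsmul_eq_mul, mul_eq_zero, or_iff_right hf]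

theorem exact_pull {ψ : GK (i'.comp (algebraMap K K')) →* C p} (lψ : Lev ψ)
    {η : HeightOneSpectrum (𝓞 K) → ZMod p} (h : Exact (i'.comp (algebraMap K K')) η ψ) :
    Exact i' (pull K' η) (ψ.comp (res K i')) := by
  classical
  obtain ⟨T, hT⟩ := h
  obtain ⟨T', hT'⟩ := frob_pull lψ
  refine ⟨above K' (T ∪ T'), fun w hw g hg => ?_⟩
  rw [mem_above, Finset.mem_union, not_or] at hw
  obtain ⟨g', hg', e⟩ := hT' w hw.2 g hg
  have h1 := hT _ hw.1 g' hg'
  change ψ (res K i' g) = _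
  rw [e, h1, ← ofAdd_nsmul]
  rfl

end Fermat.Agent.Cor.CFTP
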