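import Fermat.Agent.Corollaries.CFTP.Uniq

set_option autoImplicit false

/-!
# Local symbols and ray characters

`K` totally complex, `ζ_p ∈ K`, `η` a ray character with modulus on `S`, matched with the Kummer
character of `b`. Then `c_v (b, x)_v = C ord_v(x) η(v)` for ALL places `v ∉ S` (those above `p`
included) and all `x ∈ Kˣ`, with one constant `C ≠ 0`.
-/

namespace Fermat.Agent.Cor.CFTP

open IsDedekindDomain NumberField
open Fermat.Agent.LT
open Fermat.Agent.Cor.Diff (GK FrobAt finite_natCast_mem exists_frobAt)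
open Fermat.Agent.CFT.SUnits (ord ord_one ord_mul ord_inv ord_pow ord_div ord_eq_zero_iff div
  div_apply finite_ord_ne_zero)
open Fermat.Agent.CFT.Global hiding Inputs p_dvd_index exists_notMem_locPow exists_place powE
  mem_powE index_powE index_zpowers_sup_powE second hasse_norm FirstInequality exists_eq_nsmul_add
  exists_ne_symVec exists_functional_aux exists_inj forall_ne_zero exists_functional
open Fermat.Agent.CFT.Global2

variable {p : ℕ} [hp : Fact p.Prime]

/-- the product formula over any finite set containing the support -/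
lemma sum_sym_eq_zero {K : Type} [Field K] [NumberField K] (LS : LocalSymbols p K)
    {c : HeightOneSpectrum (𝓞 K) → ZMod p}
    (hpf : ∀ a x : Kˣ, (symVec LS hp.out.ne_zero a x).sum (fun v n => c v * n) = 0) (x y : Kˣ)
    (U : Finset (HeightOneSpectrum (𝓞 K))) (hU : ∀ v, v ∉ U → LS.sym v x y = 1) :
    ∑ v ∈ U, c v * (LS.sym v x y).toAdd = 0 := by
  have h3 := hpf x y
  rw [Finsupp.sum_of_support_subset (s := U) _ (by
    intro v hv
    by_contra h
    rw [Finsupp.mem_support_iff, symVec_apply, hU v h] at hv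
    exact hv rfl) _ (fun v _ => mul_zero _)] at h3
  exact h3

/-- at a place `v ∤ p` where `b` is a unit: `(b, x)_v = (b, π)_v ^ ord x` -/
lemma sym_eq_zpow {K : Type} [Field K] [NumberField K] (LS : LocalSymbols p K)
    {v : HeightOneSpectrum (𝓞 K)} (hv : (p : 𝓞 K) ∉ v.asIdeal) {b π : Kˣ} (hb : ord v b = 0)
    (hπ : ord v π = 1) (x : Kˣ) : LS.sym v b x = LS.sym v b π ^ ord v x := by
  have h1 : ord v (x / π ^ ord v x) = 0 := by
    rw [ord_div]
    have : ord v (π ^ ord v x) = ord v x := by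
      rcases (ord v x).eq_nat_or_neg with ⟨m, hm | hm⟩
      · rw [hm, zpow_natCast, ord_pow, hπ, mul_one]
      · rw [hm, zpow_neg, zpow_natCast, ord_inv, ord_pow, hπ, mul_one]
    rw [this, sub_self]
  have h3 := LS.unit_mem v hv b _ hb h1
  rw [map_div, div_eq_one] at h3
  rw [h3, map_zpow]

/-- **All local symbols of `b` outside the modulus.** -/
theorem sym_eq_of_mat {K : Type} [Field K] [NumberField K] [IsTotallyComplex K] {ζ : K}
    (hζ : IsPrimitiveRoot ζ p) (LS : LocalSymbols p K) {c : HeightOneSpectrum (𝓞 K) → ZMod p}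
    (hpf : ∀ a x : Kˣ, (symVec LS hp.out.ne_zero a x).sum (fun v n => c v * n) = 0)
    (hc : ∀ v, c v ≠ 0) {i : K →+* AlgebraicClosure ℚ} {S : Finset (HeightOneSpectrum (𝓞 K))}
    {n : ℕ} {η : HeightOneSpectrum (𝓞 K) → ZMod p} (hη : IsRay S n η) {b : Kˣ}
    {α : AlgebraicClosure ℚ} {ψ : GK i →* C p} (hα : α ^ p = i b)
    (hψ : ∀ g, ψ g = 1 ↔ g.1 α = α) (lψ : Lev ψ) (hm : Mat i η ψ) :
    ∃ C : ZMod p, C ≠ 0 ∧ ∀ v, v ∉ S → ∀ x : Kˣ,
      c v * (LS.sym v b x).toAdd = C * (ord v x * η v) := by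
  classical
  let T₀ : Finset (HeightOneSpectrum (𝓞 K)) := S ∪
    (finite_natCast_mem (K := K) hp.out.ne_zero).toFinset ∪ (finite_ord_ne_zero K b).toFinset
  have hT₀ : ∀ v, v ∉ T₀ → v ∉ S ∧ (p : 𝓞 K) ∉ v.asIdeal ∧ ord v b = 0 := by
    intro v hv
    simp only [T₀, Finset.mem_union, not_or, Set.Finite.mem_toFinset, Set.mem_ofPred_eq,
      not_not] at hv
    exact ⟨hv.1.1, hv.1.2, hv.2⟩
  have hST₀ : S ⊆ T₀ := fun v hv => Finset.mem_union_left _ (Finset.mem_union_left _ hv)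
  choose π hπ using fun v : HeightOneSpectrum (𝓞 K) => exists_ord_eq_one (K := K) v
  choose N hN using fun v : HeightOneSpectrum (𝓞 K) =>
    exists_cong_le_locPow p hp.out.ne_zero v
  let ηb : HeightOneSpectrum (𝓞 K) → ZMod p := fun v => c v * (LS.sym v b (π v)).toAdd
  have hsym : ∀ v, v ∉ T₀ → ∀ x : Kˣ, c v * (LS.sym v b x).toAdd = ord v x • ηb v := by
    intro v hv x
    obtain ⟨-, h2, h3⟩ := hT₀ v hv
    rw [sym_eq_zpow LS h2 h3 (hπ v) x, toAdd_zpow, zsmul_eq_mul, zsmul_eq_mul]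
    ring
  -- `ηb` is a ray character
  have hray : IsRay T₀ (T₀.sup N) ηb := by
    intro y hy
    apply toAdd_eq_zero.mp
    let U := T₀ ∪ (div y : HeightOneSpectrum (𝓞 K) →₀ ℤ).support
    have hU : ∀ v, v ∉ U → v ∉ T₀ ∧ ord v y = 0 := by
      intro v hv
      rw [Finset.mem_union, not_or, Finsupp.notMem_support_iff, div_apply] at hv
      exact hv
    have h1 := sum_sym_eq_zero LS hpf b y U (fun v hv => by
      obtain ⟨h2, h3⟩ := hU v hv
      obtain ⟨-, h4, h5⟩ := hT₀ v h2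
      exact LS.unit_mem v h4 b y h5 h3)
    rw [toAdd_rayVal_eq_sum T₀ U ηb y (fun v hv _ => by rw [(hU v hv).2, zero_smul])]
    refine (Finset.sum_congr rfl fun v _ => ?_).trans h1
    split_ifs with h
    · have h2 : y ∈ locPow p v := hN v (cong_anti v (Finset.le_sup h) (hy v h))
      rw [LS.sym_eq_one_of_right h2, toAdd_one, mul_zero]
    · exact (hsym v h y).symm
  have hmat : Mat i ηb ψ := by
    refine ⟨T₀, fun v hv g hg => ?_⟩
    obtain ⟨-, h2, h3⟩ := hT₀ v hv
    rw [kum_iff hζ hα hψ h2 h3 hg, Quad.mem_locPow_iff_sym LS h2 h3 (hπ v)]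
    change c v * (LS.sym v b (π v)).toAdd = 0 ↔ _
    rw [mul_eq_zero, or_iff_right (hc v), toAdd_eq_zero]
  obtain ⟨C, hC, hCη⟩ := exists_mul_of_mat (Or.inr inferInstance) hη hray lψ hm hmat
  refine ⟨C, hC, fun v₀ hv₀ x => ?_⟩
  -- approximation
  obtain ⟨y, hy⟩ := indep_cong (K := K) (insert v₀ T₀) (max n ((insert v₀ T₀).sup N))
    (fun w => if w = v₀ then x else 1)
  have hy₀ : y / x ∈ cong v₀ (max n ((insert v₀ T₀).sup N)) := by
    have := hy v₀ (Finset.mem_insert_self _ _)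
    rwa [if_pos rfl] at this
  have hy₁ : ∀ w ∈ T₀, w ≠ v₀ → y ∈ cong w (max n ((insert v₀ T₀).sup N)) := by
    intro w hw hne
    have := hy w (Finset.mem_insert_of_mem hw)
    rwa [if_neg hne, div_one] at this
  have hord : ord v₀ y = ord v₀ x := by
    have h1 := ord_eq_zero_of_mem_cong hy₀
    rw [ord_div] at h1
    omega
  have hsy : LS.sym v₀ b y = LS.sym v₀ b x := by
    have h1 : y / x ∈ locPow p v₀ := hN v₀ (cong_anti v₀
      ((Finset.le_sup (Finset.mem_insert_self v₀ T₀)).trans (le_max_right _ _)) hy₀)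
    have h2 := LS.sym_eq_one_of_right (a := b) h1
    rwa [map_div, div_eq_one] at h2
  let U := insert v₀ T₀ ∪ (div y : HeightOneSpectrum (𝓞 K) →₀ ℤ).support
  have hU : ∀ v, v ∉ U → v ≠ v₀ ∧ v ∉ T₀ ∧ ord v y = 0 := by
    intro v hv
    rw [Finset.mem_union, not_or, Finset.mem_insert, not_or, Finsupp.notMem_support_iff,
      div_apply] at hv
    exact ⟨hv.1.1, hv.1.2, hv.2⟩
  have h1 := sum_sym_eq_zero LS hpf b y U (fun v hv => by
    obtain ⟨-, h2, h3⟩ := hU v hv
    obtain ⟨-, h4, h5⟩ := hT₀ v h2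
    exact LS.unit_mem v h4 b y h5 h3)
  have h2 : (rayVal S η y).toAdd = 0 := by
    rw [hη y fun v hv => ?_, toAdd_one]
    have hne : v ≠ v₀ := fun h => hv₀ (h ▸ hv)
    exact cong_anti v (le_max_left _ _) (hy₁ v (hST₀ hv) hne)
  rw [toAdd_rayVal_eq_sum S U η y (fun v hv _ => by rw [(hU v hv).2.2, zero_smul])] at h2
  have h3 : ∑ v ∈ U, (c v * (LS.sym v b y).toAdd -
      C * (if v ∈ S then 0 else ord v y • η v)) = 0 := by
    rw [Finset.sum_sub_distrib, ← Finset.mul_sum, h1, h2, mul_zero, sub_zero]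
  have hv₀U : v₀ ∈ U := Finset.mem_union_left _ (Finset.mem_insert_self _ _)
  rw [Finset.sum_eq_single_of_mem v₀ hv₀U] at h3
  · rw [if_neg hv₀, hord, hsy, sub_eq_zero, zsmul_eq_mul] at h3
    exact h3
  · intro v _ hne
    by_cases hvT : v ∈ T₀
    · have h4 := hy₁ v hvT hne
      have h5 : y ∈ locPow p v := hN v (cong_anti v
        ((Finset.le_sup (Finset.mem_insert_of_mem hvT)).trans (le_max_right _ _)) h4)
      rw [LS.sym_eq_one_of_right h5, toAdd_one, mul_zero, zero_sub, neg_eq_zero,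
        ord_eq_zero_of_mem_cong h4, zero_smul, ite_self, mul_zero]
    · obtain ⟨h4, -, -⟩ := hT₀ v hvT
      rw [hsym v hvT y, if_neg h4, sub_eq_zero]
      have h6 : ηb v = C * η v := hCη v h4 hvT
      rw [h6, zsmul_eq_mul, zsmul_eq_mul]
      ring

end Fermat.Agent.Cor.CFTP
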