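import Fermat.Agent.Corollaries.Diff.Real
import Fermat.Agent.LT.NormPull
import Fermat.Agent.CFT.Global2.Second2

set_option autoImplicit false

/-!
# Kummer extensions whose local symbol is trivial on units are unramified

`K ∋ ζ_p`, `v` ANY place of `K` (above `p` or not), `b ∈ Kˣ`, `α ^ p = b`. If `(b, u)_v = 1` for all
`u ∈ Kˣ` which are units at `v`, then the inertia group at `v` fixes `α` (`inertia_fix_of_sym`).

Proof: otherwise `L = K(α)` is of degree `p`, its Galois group is equal to the inertia group of the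
place `w` above `v`, so `w` has degree one and `v` is the `p`-th power of `w`; the norm `x` of an
element `ϖ` of `L` with `ord_w ϖ = 1` has `ord_v x = 1`, `(b, x)_v = 1`. So `(b, y)_v = 1` for all
`y`, i.e. `b` is a local `p`-th power at `v` and `v` splits in `L`.
-/

namespace Fermat.Agent.Cor.CFTP

open IsDedekindDomain NumberField
open Fermat.Agent.Frob Fermat.Agent.FrobDensity Fermat.Agent.Minkowski
open Fermat.Agent.LT.Tower.Fr
open Fermat.Agent.Cor.Diff (GK FrobAt)
open Fermat.Agent.CFT.Global (LocalSymbols locPow normU Rad irreducible_of_not_pow numberField_rad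
  adjoin_root_rad exists_ord_eq_one)
open Fermat.Agent.CFT.SUnits (ord ord_one ord_mul ord_inv ord_pow ord_div)
open Fermat.Agent.CFT.FirstIneq (conj_ne_of_mem_locPow)
open Fermat.Agent.CFT.Places (conj conj_one conj_mul)
open Fermat.Agent.LT.NV (edeg fdeg card_stab edeg_mul_ord_normU)
open Polynomial
open scoped Pointwise

namespace Unr

variable {K L : Type*} [Field K] [NumberField K] [Field L] [NumberField L] [Algebra K L]

lemma ord_zpow (v : HeightOneSpectrum (𝓞 K)) (x : Kˣ) (n : ℤ) : ord v (x ^ n) = n * ord v x := by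
  cases n with
  | ofNat n => rw [Int.ofNat_eq_natCast, zpow_natCast, ord_pow]
  | negSucc n =>
    rw [zpow_negSucc, ord_inv, ord_pow, Int.negSucc_eq]
    push_cast
    ring

/-- If `L/K` is of prime degree `p` and the inertia group of `w` is not trivial, then `w` is totally
ramified: `ord_v (N x) = ord_w x`. -/
theorem ord_normU_of_inertia [IsGalois K L] {p : ℕ} (hp : p.Prime)
    (hcard : Nat.card Gal(L/K) = p) {w : HeightOneSpectrum (𝓞 L)} {σ : L ≃ₐ[K] L}
    (hσ : σ ≠ 1) (hσw : σ ∈ w.asIdeal.inertia Gal(L/K)) (x : Lˣ) :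
    conj σ w = w ∧ ord (w.under (𝓞 K)) (normU (K := K) L x) = ord w x := by
  have hpf : Fact (Nat.card Gal(L/K)).Prime := ⟨by rw [hcard]; exact hp⟩
  have hin : w.asIdeal.inertia Gal(L/K) = ⊤ := by
    rcases Subgroup.eq_bot_or_eq_top_of_prime_card (w.asIdeal.inertia Gal(L/K)) with h | h
    · rw [h, Subgroup.mem_bot] at hσw
      exact absurd hσw hσ
    · exact h
  have hst : ∀ τ : L ≃ₐ[K] L, conj τ w = w := by
    intro τ
    have h1 : τ ∈ MulAction.stabilizer Gal(L/K) w.asIdeal := by
      apply Ideal.inertia_le_stabilizer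
      rw [hin]
      trivial
    rw [MulAction.mem_stabilizer_iff, Fermat.Agent.CFT.Global2.Unr.smul_asIdeal] at h1
    exact HeightOneSpectrum.ext h1
  refine ⟨hst σ, ?_⟩
  have he : edeg K w = p := by
    have h1 := Ideal.card_inertia_eq_ramificationIdxIn (G := Gal(L/K)) (w.under (𝓞 K)).asIdeal
      w.asIdeal
    rw [hin, Subgroup.card_top, hcard,
      Ideal.ramificationIdxIn_eq_ramificationIdx (w.under (𝓞 K)).asIdeal w.asIdeal Gal(L/K),
      ← Ideal.ramificationIdx'_eq_ramificationIdx _ w.asIdeal (w.under (𝓞 K)).ne_bot] at h1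
    exact h1.symm
  have h2 := edeg_mul_ord_normU (K := K) w x
  rw [he, Finset.sum_congr rfl (g := fun _ => ord w x) (fun τ _ => by rw [hst τ]),
    Finset.sum_const, Finset.card_univ, ← Nat.card_eq_fintype_card, nsmul_eq_mul] at h2
  have h3 : Nat.card (L ≃ₐ[K] L) = p := hcard
  rw [h3] at h2
  exact mul_left_cancel₀ (by exact_mod_cast hp.ne_zero) h2

end Unr

/-- **Triviality of the symbol on units gives an unramified Kummer extension**: `K ∋ ζ_p`, `v` any
place (above `p` or not); if `(b, u)_v = 1` for all `u ∈ Kˣ` with `ord_v u = 0`, then the elements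
of `G_K` in the inertia group of `A` (over `v`) fix the `p`-th roots of `b`. -/
theorem inertia_fix_of_sym {p : ℕ} [hp : Fact p.Prime] {K : Type} [Field K] [NumberField K] {ζ : K}
    (hζ : IsPrimitiveRoot ζ p) (LS : LocalSymbols p K) {i : K →+* AlgebraicClosure ℚ} {b : Kˣ}
    {α : AlgebraicClosure ℚ} (hα : α ^ p = i b) {v : HeightOneSpectrum (𝓞 K)}
    {A : ValuationSubring (AlgebraicClosure ℚ)} (hA : Over i A v)
    (h : ∀ u : Kˣ, ord v u = 0 → LS.sym v b u = 1) (g : GK i)
    (hg : g.1 ∈ A.inertiaSubgroupIn ℚ) : g.1 α = α := by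
  have hpp := hp.out
  have : NeZero p := ⟨hpp.ne_zero⟩
  by_contra hne
  have hζi : IsPrimitiveRoot (i ζ) p := hζ.map_of_injective i.injective
  have hα0 : α ≠ 0 := by
    rintro rfl
    rw [zero_pow hpp.ne_zero] at hα
    exact b.ne_zero (i.injective (by rw [← hα, map_zero]))
  -- `b` is not a `p`-th power in `K`
  have hna : ∀ c : Kˣ, c ^ p ≠ b := by
    rintro c rfl
    apply hne
    have hc0 : i c ≠ 0 := by
      rw [Ne, map_eq_zero]
      exact c.ne_zero
    obtain ⟨k, -, hk⟩ := hζi.eq_pow_of_pow_eq_one (ξ := α / i c) (by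
      rw [div_pow, hα, Units.val_pow_eq_pow_val, map_pow, div_self (pow_ne_zero _ hc0)])
    have h1 : α = i (ζ ^ k * c) := by
      rw [map_mul, map_pow, hk, div_mul_cancel₀ _ hc0]
    rw [h1]
    exact g.2 _
  -- the root of unity by which `g` acts
  obtain ⟨k, -, hk⟩ := hζi.eq_pow_of_pow_eq_one (ξ := g.1 α / α) (by
    rw [div_pow, ← map_pow, hα, g.2, div_self]
    rw [← hα]
    exact pow_ne_zero _ hα0)
  have hgα : g.1 α = i (ζ ^ k) * α := by
    rw [map_pow, hk, div_mul_cancel₀ _ hα0]
  have hζ' : IsPrimitiveRoot (ζ ^ k) p := by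
    have h1 : orderOf (ζ ^ k) = p := by
      apply orderOf_eq_prime
      · rw [← pow_mul, mul_comm, pow_mul, hζ.pow_eq_one, one_pow]
      · intro h1
        apply hne
        rw [hgα, h1, map_one, one_mul]
    have h2 := IsPrimitiveRoot.orderOf (ζ ^ k)
    rwa [h1] at h2
  -- the extension `L = K(α)`
  have hirr : Irreducible (X ^ p - C (b : K)) := irreducible_of_not_pow hpp hna
  have : Fact (Irreducible (X ^ p - C (b : K))) := ⟨hirr⟩
  have : NumberField (Rad p b) := numberField_rad hpp
  have hr : (AdjoinRoot.root (X ^ p - C (b : K)) : Rad p b) ^ p =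
    algebraMap K (Rad p b) (b : K) := root_X_pow_sub_C_pow p (b : K)
  obtain ⟨hgal, σ, hσ, hσgen, hσord⟩ := Fermat.Agent.CFT.KummerExt.exists_gen hpp hζ'
    (a := (b : K)) (fun c hc => by
      have hc0 : c ≠ 0 := by
        rintro rfl
        rw [zero_pow hpp.ne_zero] at hc
        exact b.ne_zero hc.symm
      exact hna (Units.mk0 c hc0) (Units.ext (by simpa using hc)))
    hr (adjoin_root_rad p b)
  have hcard : Nat.card Gal(Rad p b/K) = p := by
    refine Eq.trans ?_ hσord
    rw [← Nat.card_zpowers]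
    exact Nat.card_congr (Equiv.subtypeUnivEquiv hσgen).symm
  have hσ1 : σ ≠ 1 := by
    intro h1
    rw [h1, orderOf_one] at hσord
    exact hpp.one_lt.ne hσord
  let j : Rad p b →+* AlgebraicClosure ℚ := AdjoinRoot.lift i α (by
    rw [eval₂_sub, eval₂_X_pow, eval₂_C, hα, sub_self])
  have hjr : j (AdjoinRoot.root _) = α := AdjoinRoot.lift_root _
  have hjK : ∀ x : K, j (algebraMap K (Rad p b) x) = i x := fun x => AdjoinRoot.lift_of _
  have hjσ : ∀ x : Rad p b, j (σ x) = g.1 (j x) := by
    have h1 : j.comp (σ : Rad p b →+* Rad p b) = (gh g.1).comp j := by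
      apply AdjoinRoot.ringHom_ext
      · ext x
        change j (σ (algebraMap K (Rad p b) x)) = g.1 (j (algebraMap K (Rad p b) x))
        rw [AlgEquiv.commutes, hjK, g.2]
      · change j (σ (AdjoinRoot.root _)) = g.1 (j (AdjoinRoot.root _))
        rw [hσ, map_mul, hjK, hjr, hgα]
    exact fun x => RingHom.congr_fun h1 x
  -- the place
  obtain ⟨q, hq, hqv⟩ := exists_prime_mem v
  have hAq : A.LiesOverPrime q := hA.natCast_mem_iff.mp hqv
  obtain ⟨w, hw⟩ := exists_over_of_liesOver j hq hAq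
  have hwv : w.under (𝓞 K) = v := by
    have h1 := hw.under (F := K)
    have h2 : j.comp (algebraMap K (Rad p b)) = i := RingHom.ext hjK
    rw [h2] at h1
    exact h1.unique hA
  have hσw : σ ∈ w.asIdeal.inertia Gal(Rad p b/K) := by
    intro x
    change σ • x - x ∈ w.asIdeal
    rw [over_iff.mp hw]
    have h1 := (sub_mem_nonunits_of_mem_inertia hg (mem_of_mem_Zbar A (toZbar j x))).2
    have h2 : j ((σ • x - x : 𝓞 (Rad p b)) : Rad p b) = g.1 (j x) - j x := by
      have h3 : ((σ • x - x : 𝓞 (Rad p b)) : Rad p b) = σ (x : Rad p b) - (x : Rad p b) := rfl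
      rw [h3, map_sub, hjσ]
    rw [h2]
    exact h1
  obtain ⟨ϖ, hϖ⟩ := exists_ord_eq_one w
  obtain ⟨hconj, hord⟩ := Unr.ord_normU_of_inertia hpp hcard hσ1 hσw ϖ
  rw [hwv, hϖ] at hord
  have hsym : LS.sym v b (normU (K := K) (Rad p b) ϖ) = 1 :=
    LS.norm_mem v b _ ⟨(ϖ : Rad p b), rfl⟩
  have hloc : b ∈ locPow p v := by
    rw [LS.mem_locPow_iff]
    intro y
    set x := normU (K := K) (Rad p b) ϖ
    have h1 : ord v (y / x ^ ord v y) = 0 := by
      rw [ord_div, Unr.ord_zpow, hord, mul_one, sub_self]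
    have h2 := h _ h1
    rw [_root_.map_div, map_zpow, hsym, one_zpow, div_one] at h2
    exact h2
  exact conj_ne_of_mem_locPow hpp hζ' hr hloc hσ w hwv hconj

end Fermat.Agent.Cor.CFTP
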