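import Fermat.Agent.Corollaries.CFTP.ClassRay
import Fermat.Agent.Corollaries.CFTP.SymRay
import Fermat.Agent.Corollaries.CFTP.ConvKum
import Fermat.Agent.Corollaries.CFTP.Pull
import Fermat.Agent.Corollaries.CFTP.Unr

set_option autoImplicit false

/-!
# Ramification: the class field is unramified outside the modulus

For every number field `K` (`p` odd, or `K` totally complex): if `ψ` is matched with a ray character
`η` with modulus on `S` then `ψ` is unramified at all places `v ∉ S`, those above `p` included. In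
particular characters of order `p` of the class group give everywhere unramified characters.
-/

namespace Fermat.Agent.Cor.CFTP

open IsDedekindDomain NumberField
open Fermat.Agent.Frob Fermat.Agent.FrobDensity Fermat.Agent.Minkowski
open Fermat.Agent.LT Fermat.Agent.LT.Tower.Fr
open Fermat.Agent.Cor.Diff (GK FrobAt finite_natCast_mem exists_frobAt)
open Fermat.Agent.CFT.SUnits (ord)
open Fermat.Agent.CFT.Global (above mem_above)
open Fermat.Agent.CFT.Global2 (exists_productFormula)
open Fermat.Agent.LT.NV (fdeg edeg edeg_fdeg_eq pull)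

variable {p : ℕ} [hp : Fact p.Prime]

/-- `K ∋ ζ_p` totally complex: all symbols of units with the Kummer generator are trivial outside
the modulus, so the inertia groups act trivially. -/
theorem unr_of_mat_kum {K : Type} [Field K] [NumberField K] [IsTotallyComplex K] {ζ : K}
    (hζ : IsPrimitiveRoot ζ p) {i : K →+* AlgebraicClosure ℚ}
    {S : Finset (HeightOneSpectrum (𝓞 K))} {n : ℕ} {η : HeightOneSpectrum (𝓞 K) → ZMod p}
    (hη : IsRay S n η) {ψ : GK i →* C p} (lψ : Lev ψ) (hm : Mat i η ψ)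
    {v : HeightOneSpectrum (𝓞 K)} (hvS : v ∉ S) {A : ValuationSubring (AlgebraicClosure ℚ)}
    (hA : Over i A v) (g : GK i) (hg : g.1 ∈ A.inertiaSubgroupIn ℚ) : ψ g = 1 := by
  obtain ⟨b, α, hα, hψ⟩ := ConvKum.exists_kummer hζ i ψ lψ
  obtain ⟨LS, c, hc, hpf⟩ := exists_productFormula (p := p) K hζ
  obtain ⟨C, hC, hsym⟩ := sym_eq_of_mat hζ LS hpf hc hη hα hψ lψ hm
  rw [hψ]
  refine inertia_fix_of_sym hζ LS hα hA (fun u hu => ?_) g hg
  have h1 := hsym v hvS u
  rw [hu, Int.cast_zero, zero_mul, mul_zero] at h1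
  exact toAdd_eq_zero.mp ((mul_eq_zero.mp h1).resolve_left (hc v))

/-- **The class field is unramified outside the modulus** (every number field). -/
theorem unr_of_mat {K : Type} [Field K] [NumberField K] (hK : p ≠ 2 ∨ IsTotallyComplex K)
    {i : K →+* AlgebraicClosure ℚ} {S : Finset (HeightOneSpectrum (𝓞 K))} {n : ℕ}
    {η : HeightOneSpectrum (𝓞 K) → ZMod p} (hη : IsRay S n η) {ψ : GK i →* C p} (lψ : Lev ψ)
    (hm : Mat i η ψ) {v : HeightOneSpectrum (𝓞 K)} (hvS : v ∉ S)
    {A : ValuationSubring (AlgebraicClosure ℚ)} (hA : Over i A v) (g : GK i)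
    (hg : g.1 ∈ A.inertiaSubgroupIn ℚ) : ψ g = 1 := by
  have hne : NeZero p := ⟨hp.out.ne_zero⟩
  obtain ⟨K', _, _, _, _, _, ζ, i', hζ, hi, hgen, -⟩ := exists_tower (p := p) hK i
  subst hi
  obtain ⟨n', hη'⟩ := hη.pull (L := K')
  have m' := mat_pull lψ hm
  -- `g ^ (p - 1)` lies in `G_{K'}`
  have hk : KW.Kap.kap p (g.1 ^ (p - 1)) = 1 := by
    rw [map_pow, ← ZMod.card_units p]
    exact pow_card_eq_one
  have hmem : g.1 ^ (p - 1) ∈ GK i' := by
    apply hgen
    · exact pow_mem g.2 _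
    · have h1 := KW.mem_Fix_iff_kap.mpr hk
      exact h1 (i' ζ) (by rw [← map_pow, hζ.pow_eq_one, map_one])
  obtain ⟨q, hq, hqv⟩ := exists_prime_mem v
  have hAq : A.LiesOverPrime q := hA.natCast_mem_iff.mp hqv
  obtain ⟨w, hw⟩ := exists_over_of_liesOver i' hq hAq
  have hwv : w.under (𝓞 K) = v := hw.under.unique hA
  have h1 := unr_of_mat_kum hζ hη' lψ.res m' (v := w) (by
    rw [mem_above, hwv]
    exact hvS) hw ⟨g.1 ^ (p - 1), hmem⟩ (pow_mem hg _)
  have h2 : ψ g ^ (p - 1) = 1 := by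
    rw [← map_pow]
    exact h1
  refine (C.pow_eq_one_iff (a := p - 1) ?_).mp h2
  rw [Nat.cast_sub hp.out.one_le, CharP.cast_eq_zero, Nat.cast_one, zero_sub]
  exact neg_ne_zero.mpr one_ne_zero

/-- **Characters of order `p` of the class group** give everywhere unramified characters of `G_K`,
every number field (`p` odd), every totally complex number field (`p = 2`). -/
theorem exists_unramified_char {K : Type} [Field K] [NumberField K]
    (hK : p ≠ 2 ∨ IsTotallyComplex K) (i : K →+* AlgebraicClosure ℚ)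
    (χ : ClassGroup (𝓞 K) →* C p) : ∃ ψ : GK i →* C p, Lev ψ ∧ Mat i (eta χ) ψ ∧
      (∀ (v : HeightOneSpectrum (𝓞 K)) (A : ValuationSubring (AlgebraicClosure ℚ)), Over i A v →
        ∀ g : GK i, g.1 ∈ A.inertiaSubgroupIn ℚ → ψ g = 1) ∧ (χ ≠ 1 → ∃ g, ψ g ≠ 1) := by
  obtain ⟨ψ, lψ, mψ⟩ := exists_mat_all hK i (isRay_eta χ)
  refine ⟨ψ, lψ, mψ, fun v A hA g hg => unr_of_mat hK (isRay_eta χ) lψ mψ
    (Finset.notMem_empty v) hA g hg, fun hχ => ?_⟩
  by_contra hcon
  push Not at hcon
  apply hχ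
  classical
  obtain ⟨T, hT⟩ := mψ
  obtain ⟨D, hD, hfrob⟩ := exists_frobAt i
  refine eq_one_of_forall χ (T ∪ (finite_natCast_mem (K := K) hD).toFinset) fun v hv => ?_
  simp only [Finset.mem_union, not_or, Set.Finite.mem_toFinset, Set.mem_ofPred_eq] at hv
  obtain ⟨g, hg⟩ := hfrob v hv.2
  exact toAdd_eq_zero.mp ((hT v hv.1 g hg).mpr (hcon g))

end Fermat.Agent.Cor.CFTP
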