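import Fermat.Agent.Corollaries.CFTP.Exact
import Fermat.Agent.Corollaries.CFTP.Hilbert

set_option autoImplicit false

/-!
# Class field theory of prime exponent over every number field: the existence theorem

`K` any number field, `p` a prime, `p ≠ 2` or `K` totally complex.

* `artin_existence`: for every ray character `η` with values in `ZMod p` and modulus on `S` there is
  a continuous `ψ : G_K → ZMod p`, unramified at all `v ∉ S`, with `ψ(Frob_v) = η(v)` for all
  `v ∉ S` (the places above `p` included);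
* `eq_of_exact`: `ψ` is determined by the values at almost all Frobenius elements.

The converse is `artin_reciprocity` (`Conv`).
-/

namespace Fermat.Agent.Cor.CFTP

open IsDedekindDomain NumberField
open Fermat.Agent.Frob Fermat.Agent.FrobDensity Fermat.Agent.Minkowski
open Fermat.Agent.LT Fermat.Agent.LT.Tower.Fr
open Fermat.Agent.Cor.Diff (GK FrobAt finite_natCast_mem exists_nat_mem)
open Fermat.Agent.CFT.Global (above mem_above)
open Fermat.Agent.LT.NV (fdeg edeg edeg_fdeg_eq pull card_conj_eq)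
open Fermat.Agent.LT.Psi (finite_under resF exists_conj_eq)

variable {p : ℕ} [hp : Fact p.Prime]

/-- **Exactness over every number field.** -/
theorem exact_of_mat_all {K : Type} [Field K] [NumberField K] (hK : p ≠ 2 ∨ IsTotallyComplex K)
    {i : K →+* AlgebraicClosure ℚ} {S : Finset (HeightOneSpectrum (𝓞 K))} {n : ℕ}
    {η : HeightOneSpectrum (𝓞 K) → ZMod p} (hη : IsRay S n η) {ψ : GK i →* C p} (lψ : Lev ψ)
    (mψ : Mat i η ψ) : ∃ a : ℕ, ¬ p ∣ a ∧ ∀ v, v ∉ S → ∀ g : GK i, FrobAt g v →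
      ψ g ^ a = Multiplicative.ofAdd (η v) := by
  obtain ⟨K', _, _, _, _, _, ζ, i', hζ, hi, -, hcard⟩ := exists_tower (p := p) hK i
  subst hi
  obtain ⟨n', hη'⟩ := hη.pull (L := K')
  obtain ⟨a, ha, hex⟩ := exact_of_mat hζ hη' lψ.res (mat_pull lψ mψ)
  refine ⟨a, ha, fun v hvS g hg => ?_⟩
  obtain ⟨A, hA, hF⟩ := hg
  obtain ⟨q, hq, hqv⟩ := exists_prime_mem v
  have hAq : A.LiesOverPrime q := hA.natCast_mem_iff.mp hqv
  obtain ⟨w, hw⟩ := exists_over_of_liesOver i' hq hAq
  have hwv : w.under (𝓞 K) = v := hw.under.unique hA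
  subst hwv
  obtain ⟨φ, hφ⟩ := exists_frobAt_over hw
  have h1 := hex w (by rwa [mem_above]) φ ⟨A, hw, hφ⟩
  have h0 : A.IsFrobeniusAt (g ^ fdeg K w).1 (Ideal.absNorm w.asIdeal) := by
    rw [absNorm_eq_pow_fdeg (K := K) w]
    exact isFrobeniusAt_pow hF _
  have h2 : (ψ.comp (res K i')) φ = ψ g ^ fdeg K w := by
    rw [← map_pow]
    exact frob_unique_of_unr ψ (fun g hg => unr_of_mat hK hη lψ mψ hvS hA g hg)
      (g := res K i' φ) hφ h0
  rw [h2] at h1
  have h3 := congrArg Multiplicative.toAdd h1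
  rw [toAdd_pow, toAdd_pow, toAdd_ofAdd, pull, nsmul_eq_mul, nsmul_eq_mul, nsmul_eq_mul] at h3
  have hf : (fdeg K w : ZMod p) ≠ 0 := fun h =>
    fdeg_lt_of_card hcard w ((ZMod.natCast_eq_zero_iff _ _).mp h)
  apply Multiplicative.toAdd.injective
  rw [toAdd_pow, toAdd_ofAdd, nsmul_eq_mul]
  apply mul_left_cancel₀ hf
  linear_combination h3

/-- **The existence theorem** with exact values (`p` odd or `K` totally complex): every ray
character of order `p`, with modulus on `S`, is the composition of a continuous character of `G_K`,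
unramified outside `S`, with the Frobenius, at ALL places `v ∉ S`. -/
theorem artin_existence {K : Type} [Field K] [NumberField K] (hK : p ≠ 2 ∨ IsTotallyComplex K)
    (i : K →+* AlgebraicClosure ℚ) {S : Finset (HeightOneSpectrum (𝓞 K))} {n : ℕ}
    {η : HeightOneSpectrum (𝓞 K) → ZMod p} (hη : IsRay S n η) :
    ∃ ψ : GK i →* C p, Lev ψ ∧
      (∀ v, v ∉ S → ∀ A : ValuationSubring (AlgebraicClosure ℚ), Over i A v → ∀ g : GK i,
        g.1 ∈ A.inertiaSubgroupIn ℚ → ψ g = 1) ∧
      ∀ v, v ∉ S → ∀ g : GK i, FrobAt g v → ψ g = Multiplicative.ofAdd (η v) := by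
  obtain ⟨ψ, lψ, mψ⟩ := exists_mat_all hK i hη
  obtain ⟨a, ha, hex⟩ := exact_of_mat_all hK hη lψ mψ
  have ha' : (a : ZMod p) ≠ 0 := fun h => ha ((ZMod.natCast_eq_zero_iff _ _).mp h)
  exact ⟨ψ ^ a, lψ.pow a, fun v hv A hA g hg =>
    unr_of_mat hK hη (lψ.pow a) (mψ.pow ha') hv hA g hg, hex⟩

/-- A continuous character of `G_K` is determined by its values at almost all Frobenius
elements. -/
theorem eq_of_exact {K : Type} [Field K] [NumberField K] {i : K →+* AlgebraicClosure ℚ}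
    {η : HeightOneSpectrum (𝓞 K) → ZMod p} {ψ ψ' : GK i →* C p} (lψ : Lev ψ) (lψ' : Lev ψ')
    (h : Exact i η ψ) (h' : Exact i η ψ') : ψ = ψ' := by
  classical
  obtain ⟨T, h⟩ := h
  obtain ⟨T', h'⟩ := h'
  obtain ⟨L, hL, hLψ⟩ := lψ
  obtain ⟨L', hL', hLψ'⟩ := lψ'
  have hLL : FiniteDimensional ℚ (L ⊔ L' : IntermediateField ℚ (AlgebraicClosure ℚ)) :=
    IntermediateField.finiteDimensional_sup _ _
  ext1 g
  obtain ⟨D, hD, hDv⟩ := exists_nat_mem ((T ∪ T' : Finset (HeightOneSpectrum (𝓞 K))) :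
    Set (HeightOneSpectrum (𝓞 K))) (Finset.finite_toSet _)
  obtain ⟨v, φ, k, k', hv, hφ, -, hpow⟩ := exists_frob g (L ⊔ L') hD
  have hvT : v ∉ T ∪ T' := fun h => hv (hDv v h)
  rw [Finset.mem_union, not_or] at hvT
  rw [(hpow ψ fun h hh => hLψ _ fun x hx => hh x ((le_sup_left : L ≤ L ⊔ L') hx)).2,
    (hpow ψ' fun h hh => hLψ' _ fun x hx => hh x ((le_sup_right : L' ≤ L ⊔ L') hx)).2,
    h v hvT.1 φ hφ, h' v hvT.2 φ hφ]

end Fermat.Agent.Cor.CFTP
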