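import Fermat.Agent.Corollaries.CFTP.AuxChar
import Fermat.Agent.Corollaries.CFTP.Tower
import Mathlib.NumberTheory.Cyclotomic.Gal

/-!
# Class field theory of prime exponent: a cyclotomic extension in which `v₀` splits completely

`K` totally complex, `ℓ` a prime, `v₀ ∤ ℓ` a place of `K` such that `p` divides the order of
`N v₀` modulo `ℓ`. `K₂ ⊆ K(μ_ℓ)` is the decomposition field of `v₀`; there is a character `κ` of
`G_{K₂}` of order `p` which factors over the cyclotomic character modulo `ℓ` and does not vanish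
at the Frobenius elements of the places of `K₂` above `v₀`.
-/

set_option autoImplicit false

namespace Fermat.Agent.Cor.CFTP

open IsDedekindDomain NumberField
open Fermat.Agent.Frob Fermat.Agent.FrobDensity Fermat.Agent.Minkowski
open Fermat.Agent.LT Fermat.Agent.LT.Tower.Fr
open Fermat.Agent.Cor.Diff (GK FrobAt finite_natCast_mem)
open Fermat.Agent.LT.NV (fdeg)

namespace Split

/-- Inertia times Frobenius is Frobenius. -/
lemma isFrobeniusAt_mul {A : ValuationSubring (AlgebraicClosure ℚ)} {q : ℕ} {φ τ : GQ}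
    (hφ : A.IsFrobeniusAt φ q) (hτ : τ ∈ A.inertiaSubgroupIn ℚ) : A.IsFrobeniusAt (τ * φ) q := by
  obtain ⟨hφd, hφr⟩ := hφ
  obtain ⟨σ', hσ', rfl⟩ := hτ
  refine ⟨mul_mem σ'.2 hφd, fun x => ?_⟩
  have h1 : (⟨(σ' : GQ) * φ, mul_mem σ'.2 hφd⟩ : A.decompositionSubgroup ℚ) =
    σ' * ⟨φ, hφd⟩ := rfl
  have h2 : ∀ y : IsLocalRing.ResidueField A, σ' • y = y := by
    intro y
    have h3 := MonoidHom.mem_ker.mp hσ'
    exact congrArg (fun f => f y) h3
  erw [h1, mul_smul, hφr, h2]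

/-- Every place has Frobenius elements. -/
lemma exists_frob {K : Type*} [Field K] [NumberField K] {i : K →+* AlgebraicClosure ℚ}
    {v : HeightOneSpectrum (𝓞 K)} {A : ValuationSubring (AlgebraicClosure ℚ)} (hO : Over i A v)
    {q : ℕ} (hq : q.Prime) (hA : A.LiesOverPrime q) :
    ∃ g : GK i, A.IsFrobeniusAt g.1 (Ideal.absNorm v.asIdeal) := by
  obtain ⟨σ, hσ⟩ := exists_isFrobeniusAt hq hA
  obtain ⟨f, -, hf⟩ := exists_absNorm_eq_pow hq (hO.natCast_mem_iff.mpr hA)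
  have h1 : redτ A ((gh (σ ^ f)).comp i) = redτ A i := by
    ext x
    rw [redτ_frob_pow hσ, ← hf, hO.redτ_pow_absNorm]
  obtain ⟨τ, hτ, hτi⟩ := Classic.Disc.exists_inertia_of_redτ_eq hq hA h1
  refine ⟨⟨τ * σ ^ f, fun x => RingHom.congr_fun hτi x⟩, ?_⟩
  rw [hf]
  exact isFrobeniusAt_mul (isFrobeniusAt_pow hσ f) hτ

/-- If a Frobenius of `v` fixes `K'` then places of `K'` above `v` have degree one. -/
lemma absNorm_le {K K' : Type*} [Field K] [NumberField K] [Field K'] [NumberField K']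
    {i' : K' →+* AlgebraicClosure ℚ} {w : HeightOneSpectrum (𝓞 K')}
    {A : ValuationSubring (AlgebraicClosure ℚ)} (hO : Over i' A w) {N : ℕ} (hN : 2 ≤ N)
    {g : GQ} (hF : A.IsFrobeniusAt g N) (hg : ∀ x, g (i' x) = i' x) :
    Ideal.absNorm w.asIdeal ≤ N := by
  let _ := fieldQuot w
  have hx : ∀ x : 𝓞 K' ⧸ w.asIdeal, x ^ N = x := by
    intro x
    obtain ⟨x, rfl⟩ := Ideal.Quotient.mk_surjective x
    rw [← map_pow, Ideal.Quotient.eq, hO.mem_iff, map_sub, map_pow, sub_eq_zero,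
      ← redτ_frob hF]
    have h1 : (gh g).comp i' = i' := RingHom.ext hg
    rw [h1]
  obtain ⟨u, hu⟩ := IsCyclic.exists_ofOrder_eq_natCard (α := (𝓞 K' ⧸ w.asIdeal)ˣ)
  have h1 : orderOf u = Ideal.absNorm w.asIdeal - 1 := by
    rw [hu, Nat.card_units, natCard_quot]
  have h2 : u ^ (N - 1) = 1 := by
    have h3 : u ^ N = u := Units.ext (by rw [Units.val_pow_eq_pow_val]; exact hx u)
    have h4 : u ^ (N - 1) * u = u := by
      rw [← pow_succ, Nat.sub_add_cancel (by omega), h3]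
    exact mul_eq_right.mp h4
  have h3 := Nat.le_of_dvd (by omega) (orderOf_dvd_of_pow_eq_one h2)
  omega

/-- Ray characters with values in a subgroup. -/
lemma isRay_of_comp {F : Type*} [Field F] [NumberField F] {A B : Type*} [AddCommGroup A]
    [AddCommGroup B] {f : A →+ B} (hf : Function.Injective f)
    {S : Finset (HeightOneSpectrum (𝓞 F))} {n : ℕ} {η : HeightOneSpectrum (𝓞 F) → A}
    (h : IsRay S n (fun v => f (η v))) : IsRay S n η := by
  intro x hx
  have h1 := h x hx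
  apply toAdd_eq_zero.mp
  apply hf
  rw [← rayVal_comp, h1, toAdd_one, map_zero]

end Split

variable {p : ℕ} [hp : Fact p.Prime]

/-- **The decomposition field of `v₀` in `K(μ_ℓ)`.** -/
theorem exists_split {K : Type} [Field K] [NumberField K] [IsTotallyComplex K]
    (i : K →+* AlgebraicClosure ℚ) {ℓ : ℕ} [Fact ℓ.Prime] {v₀ : HeightOneSpectrum (𝓞 K)}
    (hv₀ : (ℓ : 𝓞 K) ∉ v₀.asIdeal) (hord : p ∣ orderOf (Recip.nres ℓ v₀)) :
    ∃ (K₂ : Type) (_ : Field K₂) (_ : NumberField K₂) (_ : Algebra K K₂) (_ : IsGalois K K₂)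
      (_ : IsTotallyComplex K₂) (i₂ : K₂ →+* AlgebraicClosure ℚ) (κ : GK i₂ →* C p)
      (θ : HeightOneSpectrum (𝓞 K₂) → ZMod p) (S : Finset (HeightOneSpectrum (𝓞 K₂))) (n : ℕ),
      i₂.comp (algebraMap K K₂) = i ∧ Lev κ ∧ (∀ w, w ∈ S ↔ (ℓ : 𝓞 K₂) ∈ w.asIdeal) ∧
      LT.IsRay S n θ ∧
      (∀ w, w ∉ S → ∀ g : GK i₂, FrobAt g w → κ g = Multiplicative.ofAdd (θ w)) ∧
      (∀ w, w.under (𝓞 K) = v₀ → θ w ≠ 0 ∧ LT.NV.fdeg K w = 1) ∧
      (∀ g : GK i, KW.Kap.kap ℓ g.1 = 1 → g.1 ∈ GK i₂) ∧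
      (∀ g : GK i, KW.Kap.kap ℓ g.1 = Recip.nres ℓ v₀ →
        ∃ h : g.1 ∈ GK i₂, κ ⟨g.1, h⟩ ≠ 1) := by
  classical
  have hℓ : ℓ.Prime := Fact.out
  -- the group
  set u₀ := Recip.nres ℓ v₀ with hu₀
  let C' : Subgroup (ZMod ℓ)ˣ := Subgroup.zpowers u₀
  have hcard : p ∣ Nat.card C' := by rwa [Nat.card_zpowers]
  have hcyc : IsCyclic C' := inferInstance
  obtain ⟨lam, hlam⟩ := KW.Homs.exists_surj (G := C') hcyc hcard
  have hlam₀ : ∀ h : u₀ ∈ C', lam ⟨u₀, h⟩ ≠ 1 := by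
    intro h0 hcon
    obtain ⟨⟨x, hx⟩, hx1⟩ := hlam (Multiplicative.ofAdd 1)
    obtain ⟨k, hk⟩ := Subgroup.mem_zpowers_iff.mp hx
    have h2 : (⟨x, hx⟩ : C') = ⟨u₀, h0⟩ ^ k := Subtype.ext (by
      rw [SubgroupClass.coe_zpow]
      exact hk.symm)
    rw [h2, map_zpow, hcon, one_zpow] at hx1
    have h3 : (0 : ZMod p) = 1 := congrArg Multiplicative.toAdd hx1
    exact zero_ne_one h3
  -- the fields
  let E := CyclotomicField ℓ K
  have hζ : IsPrimitiveRoot (IsCyclotomicExtension.zeta ℓ K E) ℓ :=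
    IsCyclotomicExtension.zeta_spec ℓ K E
  have hG : IsGalois K E := IsCyclotomicExtension.isGalois {ℓ} K E
  let H : Subgroup (E ≃ₐ[K] E) := C'.comap (hζ.autToPow K)
  have hHn : H.Normal := Subgroup.Normal.comap inferInstance _
  let K₂ : IntermediateField K E := IntermediateField.fixedField H
  have hG₂ : IsGalois K K₂ := IsGalois.of_fixedField_normal_subgroup H
  have hTC : IsTotallyComplex K₂ := isTotallyComplex_of_algebra K K₂
  -- the embeddings
  let _ : Algebra K (AlgebraicClosure ℚ) := i.toAlgebra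
  obtain ⟨j⟩ : Nonempty (E →ₐ[K] AlgebraicClosure ℚ) := ⟨IsAlgClosed.lift⟩
  have hj : (j : E →+* AlgebraicClosure ℚ).comp (algebraMap K E) = i :=
    RingHom.ext fun x => j.commutes x
  let i₂ : K₂ →+* AlgebraicClosure ℚ := (j : E →+* AlgebraicClosure ℚ).comp (algebraMap K₂ E)
  have hi₂ : i₂.comp (algebraMap K K₂) = i := by
    rw [← hj]
    rfl
  -- restriction to `E`
  have hgal : ∀ g : GQ, g ∈ GK i → ∃ τ : E ≃ₐ[K] E, (∀ x, g (j x) = j (τ x)) ∧
      hζ.autToPow K τ = KW.Kap.kap ℓ g := by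
    intro g hg
    rw [← hj] at hg
    obtain ⟨τ, hτ⟩ := exists_gal (K := K) (j : E →+* AlgebraicClosure ℚ) hg
    refine ⟨τ, hτ, ?_⟩
    have hjζ : IsPrimitiveRoot (j (IsCyclotomicExtension.zeta ℓ K E)) ℓ :=
      hζ.map_of_injective j.injective
    have h1 := KW.Kap.kap_spec ℓ g _ hjζ.pow_eq_one
    have h2 := hζ.autToPow_spec K τ
    have h3 : g (j (IsCyclotomicExtension.zeta ℓ K E)) =
        j (τ (IsCyclotomicExtension.zeta ℓ K E)) := hτ _
    rw [← h2, map_pow, h1] at h3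
    have h4 := hjζ.pow_inj (ZMod.val_lt _) (ZMod.val_lt _) h3
    exact Units.ext (ZMod.val_injective ℓ h4.symm)
  have hmem : ∀ g : GQ, g ∈ GK i → (g ∈ GK i₂ ↔ KW.Kap.kap ℓ g ∈ C') := by
    intro g hg
    obtain ⟨τ, hτ, hτk⟩ := hgal g hg
    have h1 : g ∈ GK i₂ ↔ τ ∈ H := by
      rw [← IntermediateField.fixingSubgroup_fixedField H,
        IntermediateField.mem_fixingSubgroup_iff]
      constructor
      · intro h x hx
        have h2 : g (j x) = j x := h ⟨x, hx⟩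
        rw [hτ] at h2
        exact j.injective h2
      · intro h x
        change g (j x) = j x
        rw [hτ, h _ x.2]
    rw [h1, ← hτk]
    rfl
  have hle : ∀ g : GQ, g ∈ GK i₂ → g ∈ GK i := by
    intro g hg
    rw [← hi₂]
    exact fun x => hg (algebraMap K K₂ x)
  have hkap : ∀ g : GK i₂, KW.Kap.kap ℓ g.1 ∈ C' := fun g => (hmem g.1 (hle g.1 g.2)).mp g.2
  let κ : GK i₂ →* C p := lam.comp
    (((KW.Kap.kap ℓ).comp (GK i₂).subtype).codRestrict C' hkap)
  have hκ : ∀ g : GK i₂, κ g = lam ⟨KW.Kap.kap ℓ g.1, hkap g⟩ := fun g => rfl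
  -- the residues are in `C'`
  have hres : ∀ w : HeightOneSpectrum (𝓞 K₂), Recip.nres ℓ w ∈ C' := by
    intro w
    by_cases hw : (ℓ : 𝓞 K₂) ∈ w.asIdeal
    · have h1 : Recip.nres ℓ w = 1 := by
        rw [Recip.nres, dif_neg]
        obtain ⟨f, hf, hf'⟩ := exists_absNorm_eq_pow hℓ hw
        rw [hf', Nat.cast_pow, ZMod.natCast_self, zero_pow hf.ne']
        exact not_isUnit_zero
      rw [h1]
      exact C'.one_mem
    · obtain ⟨q, A, hq, hA, hO⟩ := exists_over i₂ w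
      obtain ⟨g, hg⟩ := Split.exists_frob hO hq hA
      rw [← kap_frobAt hw (g := g) ⟨A, hO, hg⟩]
      exact hkap g
  have hSfin := finite_natCast_mem (K := K₂) hℓ.ne_zero
  have hS (w : HeightOneSpectrum (𝓞 K₂)) : w ∈ hSfin.toFinset ↔ (ℓ : 𝓞 K₂) ∈ w.asIdeal := by
    rw [Set.Finite.mem_toFinset, Set.mem_ofPred_eq]
  -- the ray property
  obtain ⟨n, hn⟩ := Recip.exists_isRay_norm (ℓ := ℓ) (K := K₂)
    (MulEquiv.multiplicativeAdditive (ZMod ℓ)ˣ).symm.toMonoidHom hSfin.toFinset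
    (fun w => (hS w).mpr) (fun w => Additive.ofMul (Recip.nres ℓ w)) (by
      intro w hw u hu
      have h1 : Recip.nres ℓ w = u := by
        apply Units.ext
        rw [hu, Recip.nres_coe fun h => hw ((hS w).mpr h)]
      rw [h1]
      rfl)
  let inc : Additive C' →+ Additive (ZMod ℓ)ˣ := MonoidHom.toAdditive C'.subtype
  have hinc : Function.Injective inc := fun a b h => Subtype.ext h
  have hn2 : IsRay hSfin.toFinset n
      (fun w => (Additive.ofMul (⟨Recip.nres ℓ w, hres w⟩ : C') : Additive C')) :=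
    Split.isRay_of_comp hinc hn
  let lamA : Additive C' →+ ZMod p :=
    { toFun := fun a => (lam a.toMul).toAdd
      map_zero' := by rw [toMul_zero, map_one, toAdd_one]
      map_add' := fun a b => by rw [toMul_add, map_mul, toAdd_mul] }
  have hn3 : IsRay hSfin.toFinset n (fun w => (lam ⟨Recip.nres ℓ w, hres w⟩).toAdd) :=
    hn2.comp lamA
  refine ⟨K₂, inferInstance, inferInstance, inferInstance, hG₂, hTC, i₂, κ,
    fun w => (lam ⟨Recip.nres ℓ w, hres w⟩).toAdd, hSfin.toFinset, n, hi₂, ?_, hS, hn3, ?_, ?_, ?_,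
    ?_⟩
  · obtain ⟨L, hL, h⟩ := KW.Kap.lev_kap ℓ
    refine ⟨L, hL, fun g hg => ?_⟩
    rw [hκ]
    have h1 : (⟨KW.Kap.kap ℓ g.1, hkap g⟩ : C') = 1 := Subtype.ext (h g.1 hg)
    rw [h1, map_one]
  · intro w hw g hg
    rw [hκ, ofAdd_toAdd]
    congr 1
    exact Subtype.ext (kap_frobAt (fun h => hw ((hS w).mpr h)) hg)
  · intro w hw
    obtain ⟨q, A, hq, hA, hO⟩ := exists_over i₂ w
    have hO' : Over i A v₀ := by
      have h1 := hO.under (F := K)
      rwa [hi₂, hw] at h1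
    obtain ⟨g, hg⟩ := Split.exists_frob hO' hq hA
    have hk : KW.Kap.kap ℓ g.1 = u₀ := kap_frobAt hv₀ ⟨A, hO', hg⟩
    have hg₂ : g.1 ∈ GK i₂ := (hmem g.1 g.2).mpr (by
      rw [hk]
      exact Subgroup.mem_zpowers u₀)
    have hN2 : 2 ≤ Ideal.absNorm v₀.asIdeal := by
      have h1 : Ideal.absNorm v₀.asIdeal ≠ 1 := by
        rw [Ne, Ideal.absNorm_eq_one_iff]
        exact v₀.isPrime.ne_top
      have h2 : Ideal.absNorm v₀.asIdeal ≠ 0 := by
        rw [Ne, Ideal.absNorm_eq_zero_iff]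
        exact v₀.ne_bot
      omega
    have hle' := Split.absNorm_le (K := K) hO hN2 hg hg₂
    have hpow := absNorm_eq_pow_fdeg (K := K) w
    rw [hw] at hpow
    have hw1 : Ideal.absNorm w.asIdeal ≠ 1 := by
      rw [Ne, Ideal.absNorm_eq_one_iff]
      exact w.isPrime.ne_top
    have hf : fdeg K w = 1 := by
      rcases Nat.lt_trichotomy (fdeg K w) 1 with h | h | h
      · exfalso
        apply hw1
        rw [hpow, Nat.lt_one_iff.mp h, pow_zero]
      · exact h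
      · exfalso
        have h1 : Ideal.absNorm v₀.asIdeal ^ 1 < Ideal.absNorm v₀.asIdeal ^ fdeg K w :=
          Nat.pow_lt_pow_right (by omega) h
        rw [pow_one, ← hpow] at h1
        omega
    refine ⟨?_, hf⟩
    rw [hf, pow_one] at hpow
    have hw' : (ℓ : 𝓞 K₂) ∉ w.asIdeal := by
      intro h
      apply hv₀
      rw [← hw]
      change algebraMap (𝓞 K) (𝓞 K₂) (ℓ : 𝓞 K) ∈ w.asIdeal
      rwa [map_natCast]
    have hnr : Recip.nres ℓ w = u₀ := by
      apply Units.ext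
      rw [Recip.nres_coe hw', hpow, hu₀, Recip.nres_coe hv₀]
    intro h
    apply hlam₀ (Subgroup.mem_zpowers u₀)
    have h1 : (⟨Recip.nres ℓ w, hres w⟩ : C') = ⟨u₀, Subgroup.mem_zpowers u₀⟩ := Subtype.ext hnr
    rw [← h1]
    exact toAdd_eq_zero.mp h
  · intro g hg
    rw [hmem g.1 g.2, hg]
    exact C'.one_mem
  · intro g hg
    have hg₂ : g.1 ∈ GK i₂ := (hmem g.1 g.2).mpr (by
      rw [hg]
      exact Subgroup.mem_zpowers u₀)
    refine ⟨hg₂, ?_⟩
    rw [hκ]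
    have h1 : (⟨KW.Kap.kap ℓ g.1, hkap ⟨g.1, hg₂⟩⟩ : C') = ⟨u₀, Subgroup.mem_zpowers u₀⟩ :=
      Subtype.ext hg
    intro h
    apply hlam₀ (Subgroup.mem_zpowers u₀)
    rw [← h1]
    exact h

end Fermat.Agent.Cor.CFTP
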