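import Fermat.Agent.Corollaries.CFTP.HilbertAll

set_option autoImplicit false

/-!
# The Artin isomorphism in exponent `p`, with the exact set of ramified places

`K` any number field, `p` a prime, `p ≠ 2` or `K` totally complex, `S` ANY finite set of places.

* `artin_reciprocity_outside`: a continuous `ψ : G_K → ZMod p` which is unramified outside `S` is
  given, at ALL places `v ∉ S`, by a ray character with modulus on the SAME set `S`;
* `exists_artinEquiv`: the group `Ray p K S` of the ray characters with values in `ZMod p` and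
  modulus on `S` (functions on the places outside `S`) is isomorphic to the group `UnrS p i S` of the
  continuous characters `G_K → ZMod p` unramified outside `S`, by `ψ(Frob_v) = η(v)`, `v ∉ S`.
-/

namespace Fermat.Agent.Cor.CFTP

open IsDedekindDomain NumberField
open Fermat.Agent.Frob Fermat.Agent.LT Fermat.Agent.LT.Tower.Fr
open Fermat.Agent.Cor.Diff (GK FrobAt)
open Fermat.Agent.CFT.SUnits (ord ord_one ord_mul ord_inv ord_pow ord_div div div_apply)
open Fermat.Agent.CFT.Global hiding Inputs p_dvd_index exists_notMem_locPow exists_place powE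
  mem_powE index_powE index_zpowers_sup_powE second hasse_norm FirstInequality exists_eq_nsmul_add
  exists_ne_symVec exists_functional_aux exists_inj forall_ne_zero exists_functional index_locPow
open Fermat.Agent.CFT.Global2

variable {p : ℕ} [hp : Fact p.Prime]

/-- `ζ_p ∈ K` totally complex: a character unramified outside `S` is a ray character with modulus
on `S`. -/
theorem exists_ray_of_unr_outside {K : Type} [Field K] [NumberField K] [IsTotallyComplex K]
    {ζ : K} (hζ : IsPrimitiveRoot ζ p) {i : K →+* AlgebraicClosure ℚ} {ψ : GK i →* C p}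
    (lψ : Lev ψ) {S : Finset (HeightOneSpectrum (𝓞 K))}
    (hu : ∀ v, v ∉ S → ∀ A : ValuationSubring (AlgebraicClosure ℚ),
      Over i A v → ∀ g : GK i, g.1 ∈ A.inertiaSubgroupIn ℚ → ψ g = 1) :
    ∃ (n : ℕ) (η : HeightOneSpectrum (𝓞 K) → ZMod p), IsRay S n η ∧
      ∀ v, v ∉ S → ∀ g : GK i, FrobAt g v → ψ g = Multiplicative.ofAdd (η v) := by
  classical
  obtain ⟨b, α, hα, hψ⟩ := ConvKum.exists_kummer hζ i ψ lψ
  obtain ⟨LS, c, hc, hpf⟩ := exists_productFormula (p := p) K hζ
  choose π hπ using fun v : HeightOneSpectrum (𝓞 K) => exists_ord_eq_one (K := K) v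
  choose N hN using fun v : HeightOneSpectrum (𝓞 K) =>
    exists_cong_le_locPow p hp.out.ne_zero v
  have hunit : ∀ v, v ∉ S → ∀ u : Kˣ, ord v u = 0 → LS.sym v b u = 1 := by
    intro v hv u hou
    obtain ⟨q, A, hq, hAq, hA⟩ := exists_over i v
    exact sym_unit_of_inertia hζ LS hα hA (fun g hg => (hψ g).mp (hu v hv A hA g hg)) hou
  have hsym : ∀ v, v ∉ S → ∀ x : Kˣ, LS.sym v b x = LS.sym v b (π v) ^ ord v x := by
    intro v hv x
    have h1 : ord v (x / π v ^ ord v x) = 0 := by
      rw [ord_div]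
      have : ord v (π v ^ ord v x) = ord v x := by
        rcases (ord v x).eq_nat_or_neg with ⟨m, hm | hm⟩
        · rw [hm, zpow_natCast, ord_pow, hπ, mul_one]
        · rw [hm, zpow_neg, zpow_natCast, ord_inv, ord_pow, hπ, mul_one]
      rw [this, sub_self]
    have h3 := hunit v hv _ h1
    rw [map_div, div_eq_one] at h3
    rw [h3, map_zpow]
  let η₀ : HeightOneSpectrum (𝓞 K) → ZMod p := fun v => c v * (LS.sym v b (π v)).toAdd
  have hray : IsRay S (S.sup N) η₀ := by
    intro y hy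
    apply Multiplicative.toAdd.injective
    rw [toAdd_one]
    let U := S ∪ (div y : HeightOneSpectrum (𝓞 K) →₀ ℤ).support
    have hU : ∀ v, v ∉ U → v ∉ S ∧ ord v y = 0 := by
      intro v hv
      rwa [Finset.mem_union, not_or, Finsupp.notMem_support_iff, div_apply] at hv
    have h1 := sum_sym_eq_zero LS hpf b y U (fun v hv => by
      rw [hsym v (hU v hv).1 y, (hU v hv).2, zpow_zero])
    rw [toAdd_rayVal_eq_sum S U η₀ y (fun v hv _ => by rw [(hU v hv).2, zero_smul])]
    refine (Finset.sum_congr rfl fun v _ => ?_).trans h1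
    split_ifs with h
    · have h2 : y ∈ locPow p v := hN v (cong_anti v (Finset.le_sup h) (hy v h))
      have h3 := LS.skew v b y
      rw [(LS.mem_locPow_iff v y).mp h2 b, mul_one] at h3
      rw [h3, toAdd_one, mul_zero]
    · rw [hsym v h y, toAdd_zpow, zsmul_eq_mul, zsmul_eq_mul]
      ring
  have hmat : Mat i η₀ ψ := by
    refine ⟨S, fun v hv g hg => ?_⟩
    obtain ⟨A, hA, hF⟩ := hg
    rw [hψ, frob_fix_iff_mem_locPow hζ hα hA (fun g hg => (hψ g).mp (hu v hv A hA g hg)) hF,
      LS.mem_locPow_iff]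
    constructor
    · intro h x
      have h2 : LS.sym v b (π v) = 1 :=
        toAdd_eq_zero.mp ((mul_eq_zero.mp h).resolve_left (hc v))
      rw [hsym v hv, h2, one_zpow]
    · intro h
      change c v * (LS.sym v b (π v)).toAdd = 0
      rw [h, toAdd_one, mul_zero]
  obtain ⟨a, ha, hex⟩ := exact_of_mat hζ hray lψ hmat
  have ha' : (a : ZMod p) ≠ 0 := fun h => ha ((ZMod.natCast_eq_zero_iff _ _).mp h)
  refine ⟨_, fun v => (a : ZMod p)⁻¹ * η₀ v, isRay_mul hray _, fun v hv g hg => ?_⟩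
  have h1 := congrArg Multiplicative.toAdd (hex v hv g hg)
  rw [toAdd_pow, nsmul_eq_mul, toAdd_ofAdd] at h1
  apply Multiplicative.toAdd.injective
  rw [toAdd_ofAdd]
  change (ψ g).toAdd = (a : ZMod p)⁻¹ * η₀ v
  rw [← h1, inv_mul_cancel_left₀ ha']

/-- **Artin's reciprocity law in exponent `p`, with the exact set of ramified places**: `K` any
number field (`p` odd or `K` totally complex), `ψ : G_K → ZMod p` continuous and unramified outside
`S`: there is a ray character `η` with modulus on `S` with `ψ(Frob_v) = η(v)` for ALL `v ∉ S`. -/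
theorem artin_reciprocity_outside {K : Type} [Field K] [NumberField K]
    (hK : p ≠ 2 ∨ IsTotallyComplex K) {i : K →+* AlgebraicClosure ℚ} {ψ : GK i →* C p}
    (lψ : Lev ψ) {S : Finset (HeightOneSpectrum (𝓞 K))}
    (hu : ∀ v, v ∉ S → ∀ A : ValuationSubring (AlgebraicClosure ℚ),
      Over i A v → ∀ g : GK i, g.1 ∈ A.inertiaSubgroupIn ℚ → ψ g = 1) :
    ∃ (n : ℕ) (η : HeightOneSpectrum (𝓞 K) → ZMod p), IsRay S n η ∧
      ∀ v, v ∉ S → ∀ g : GK i, FrobAt g v → ψ g = Multiplicative.ofAdd (η v) := by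
  obtain ⟨K', _, _, _, _, _, ζ, i', hζ, hi, -, hcard⟩ := exists_tower (p := p) hK i
  subst hi
  obtain ⟨n, η', hη', hex'⟩ := exists_ray_of_unr_outside hζ (i := i') (ψ := ψ.comp (res K i'))
    lψ.res (S := above K' S) (fun w hw A hA g hg => hu _ (by rwa [mem_above] at hw) A hA.under
      (res K i' g) hg)
  obtain ⟨η, hη, hex⟩ := descend hcard hu hη' hex'
  exact ⟨n, η, hη, hex⟩

/-- The ray characters with values in `ZMod p` and modulus on `S`, as functions on the places
outside `S`. -/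
def Ray (p : ℕ) (K : Type*) [Field K] [NumberField K] (S : Finset (HeightOneSpectrum (𝓞 K))) :
    Set ({v : HeightOneSpectrum (𝓞 K) // v ∉ S} → ZMod p) :=
  {f | ∃ (n : ℕ) (η : HeightOneSpectrum (𝓞 K) → ZMod p), IsRay S n η ∧ ∀ v, f v = η v.1}

/-- The continuous characters `G_K → ZMod p` which are unramified outside `S`. -/
def UnrS (p : ℕ) {K : Type*} [Field K] [NumberField K] (i : K →+* AlgebraicClosure ℚ)
    (S : Finset (HeightOneSpectrum (𝓞 K))) : Subgroup (GK i →* C p) where
  carrier := {ψ | Lev ψ ∧ ∀ v, v ∉ S → ∀ A : ValuationSubring (AlgebraicClosure ℚ),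
    Over i A v → ∀ g : GK i, g.1 ∈ A.inertiaSubgroupIn ℚ → ψ g = 1}
  one_mem' := ⟨⟨⊥, inferInstance, fun _ _ => rfl⟩, fun _ _ _ _ _ _ => rfl⟩
  mul_mem' := fun {a b} ha hb => ⟨ha.1.mul hb.1, fun v hv A hA g hg => by
    rw [MonoidHom.mul_apply, ha.2 v hv A hA g hg, hb.2 v hv A hA g hg, one_mul]⟩
  inv_mem' := fun {a} ha => by
    refine ⟨?_, fun v hv A hA g hg => by
      rw [MonoidHom.inv_apply, ha.2 v hv A hA g hg, inv_one]⟩
    obtain ⟨L, hL, h⟩ := ha.1
    exact ⟨L, hL, fun g hg => by rw [MonoidHom.inv_apply, h g hg, inv_one]⟩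

/-- The values of an unramified character at the Frobenius elements, a homomorphism
`UnrS p i S → (places outside S → ZMod p)`. -/
noncomputable def frobVal (p : ℕ) {K : Type*} [Field K] [NumberField K]
    (i : K →+* AlgebraicClosure ℚ) (S : Finset (HeightOneSpectrum (𝓞 K))) :
    UnrS p i S →* Multiplicative ({v : HeightOneSpectrum (𝓞 K) // v ∉ S} → ZMod p) where
  toFun ψ := Multiplicative.ofAdd fun v =>
    (ψ.1 (exists_frobAt_over (exists_over i v.1).choose_spec.choose_spec.2.2).choose).toAdd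
  map_one' := rfl
  map_mul' _ _ := rfl

lemma frobVal_apply (p : ℕ) {K : Type*} [Field K] [NumberField K]
    (i : K →+* AlgebraicClosure ℚ) (S : Finset (HeightOneSpectrum (𝓞 K))) (ψ : UnrS p i S) :
    ∀ v : {v : HeightOneSpectrum (𝓞 K) // v ∉ S}, ∃ g : GK i, FrobAt g v.1 ∧
      (frobVal p i S ψ).toAdd v = (ψ.1 g).toAdd := fun v =>
  ⟨_, ⟨_, (exists_over i v.1).choose_spec.choose_spec.2.2,
    (exists_frobAt_over (exists_over i v.1).choose_spec.choose_spec.2.2).choose_spec⟩, rfl⟩

/-- **Class field theory of exponent `p`**: `ψ ↦ (v ↦ ψ(Frob_v))` is an isomorphism from the group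
of the continuous characters `G_K → ZMod p` unramified outside `S` onto the group of the ray
characters with modulus on `S`; the value does not depend on the Frobenius element. -/
theorem frobVal_bijective {K : Type} [Field K] [NumberField K]
    (hK : p ≠ 2 ∨ IsTotallyComplex K) (i : K →+* AlgebraicClosure ℚ)
    (S : Finset (HeightOneSpectrum (𝓞 K))) :
    Function.Injective (frobVal p i S) ∧
      Set.range (fun ψ => (frobVal p i S ψ).toAdd) = Ray p K S ∧
      ∀ (ψ : UnrS p i S) (v : HeightOneSpectrum (𝓞 K)) (hv : v ∉ S) (g : GK i), FrobAt g v →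
        ψ.1 g = Multiplicative.ofAdd ((frobVal p i S ψ).toAdd ⟨v, hv⟩) := by
  have key : ∀ (ψ : UnrS p i S), ∃ (n : ℕ) (η : HeightOneSpectrum (𝓞 K) → ZMod p), IsRay S n η ∧
      (∀ v, v ∉ S → ∀ g : GK i, FrobAt g v → ψ.1 g = Multiplicative.ofAdd (η v)) ∧
      ∀ v : {v : HeightOneSpectrum (𝓞 K) // v ∉ S}, (frobVal p i S ψ).toAdd v = η v.1 := by
    intro ψ
    obtain ⟨n, η, hη, h⟩ := artin_reciprocity_outside hK ψ.2.1 ψ.2.2
    refine ⟨n, η, hη, h, fun v => ?_⟩
    obtain ⟨g, hg, e⟩ := frobVal_apply p i S ψ v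
    rw [e, h v.1 v.2 g hg, toAdd_ofAdd]
  refine ⟨?_, ?_, fun ψ v hv g hg => ?_⟩
  · intro ψ ψ' h
    obtain ⟨n, η, hη, h1, h2⟩ := key ψ
    obtain ⟨n', η', hη', h1', h2'⟩ := key ψ'
    apply Subtype.ext
    refine eq_of_exact (η := η) ψ.2.1 ψ'.2.1 ⟨S, h1⟩ ⟨S, fun v hv g hg => ?_⟩
    have h3 : η v = η' v := by
      rw [← h2 ⟨v, hv⟩, ← h2' ⟨v, hv⟩, h]
    rw [h1' v hv g hg, h3]
  · ext f
    constructor
    · rintro ⟨ψ, rfl⟩
      obtain ⟨n, η, hη, -, h2⟩ := key ψ
      exact ⟨n, η, hη, h2⟩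
    · rintro ⟨n, η, hη, hf⟩
      obtain ⟨ψ, lψ, hu, hex⟩ := artin_existence hK i hη
      refine ⟨⟨ψ, lψ, hu⟩, ?_⟩
      ext1 v
      obtain ⟨g, hg, e⟩ := frobVal_apply p i S ⟨ψ, lψ, hu⟩ v
      change (frobVal p i S ⟨ψ, lψ, hu⟩).toAdd v = f v
      rw [e, hf, hex v.1 v.2 g hg, toAdd_ofAdd]
  · obtain ⟨n, η, hη, h1, h2⟩ := key ψ
    rw [h2 ⟨v, hv⟩, h1 v hv g hg]

end Fermat.Agent.Cor.CFTP
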