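import Fermat.Agent.Corollaries.CFTP.Defs
import Fermat.Agent.Corollaries.KW.Cond
import Fermat.Agent.Corollaries.KW.Homs
import Fermat.Agent.Corollaries.Recip.NormRay
import Fermat.Agent.GalRep.Cyclo

/-!
# Class field theory of prime exponent: auxiliary characters

For every `B` there is a prime `ℓ > B` and a character `κ : G_ℚ → ℤ/p` of conductor `ℓ` which is
nontrivial on `G_K`, and `θ v = κ (Frob v) = log (N v mod ℓ)` is a ray character of `K`.
-/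

set_option autoImplicit false

namespace Fermat.Agent.Cor.CFTP

open IsDedekindDomain NumberField
open Fermat.Agent.Frob Fermat.Agent.FrobDensity Fermat.Agent.Minkowski
open Fermat.Agent.LT.Tower.Fr
open Fermat.Agent.Cor.Diff (GK FrobAt exists_frobAt exists_nat_mem exists_nat_mem'
  finite_natCast_mem exists_emb)

/-- A Frobenius element of exponent `q` raises roots of unity of order prime to the residue
characteristic to the power `q`. -/
lemma frob_rootOfUnity {A : ValuationSubring (AlgebraicClosure ℚ)} {ℓ M q : ℕ}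
    (hA : A.LiesOverPrime ℓ) (hM : Nat.Coprime ℓ M) (hM0 : M ≠ 0) {σ : GQ}
    (hσ : A.IsFrobeniusAt σ q) {ζ : AlgebraicClosure ℚ} (hζ : ζ ^ M = 1) : σ ζ = ζ ^ q := by
  obtain ⟨hσd, hσf⟩ := hσ
  have hζA : ζ ∈ A := GalRep.rootOfUnity_mem hM0 hζ
  set σ' : A.decompositionSubgroup ℚ := ⟨σ, hσd⟩ with hσ'
  set z : A := ⟨ζ, hζA⟩ with hz
  have hzM : z ^ M = 1 := Subtype.ext hζ
  have hzu : IsUnit (z ^ q) := (IsUnit.of_pow_eq_one hzM hM0).pow q
  obtain ⟨u, hu⟩ := hzu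
  have h1 : IsLocalRing.residue A (σ' • z) = IsLocalRing.residue A (z ^ q) := by
    have := hσf (IsLocalRing.residue A z)
    rw [map_pow, ← this]
    rfl
  set w : A := (σ' • z) * ((u⁻¹ : Aˣ) : A) with hw
  have hwM : w ^ M = 1 := by
    rw [hw, mul_pow, ← smul_pow', hzM, smul_one, one_mul, ← Units.val_pow_eq_pow_val, inv_pow]
    have : u ^ M = 1 := Units.ext (by
      rw [Units.val_pow_eq_pow_val, hu, ← pow_mul, mul_comm q M, pow_mul, hzM, one_pow]; rfl)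
    rw [this, inv_one, Units.val_one]
  have hwres : IsLocalRing.residue A w = 1 := by
    rw [hw, map_mul, h1, ← hu, ← map_mul, Units.mul_inv, map_one]
  have hw1 := GalRep.eq_one_of_residue_eq_one hA hM hwM hwres
  have h2 : σ' • z = z ^ q := by
    have : (σ' • z) * ((u⁻¹ : Aˣ) : A) * (z ^ q) = z ^ q := by rw [← hw, hw1, one_mul]
    rwa [mul_assoc, ← hu, Units.inv_mul, mul_one, hu] at this
  exact congrArg Subtype.val h2

/-- `nres` depends only on the norm. -/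
lemma nres_congr {K : Type*} [Field K] [NumberField K] {ℓ : ℕ} {v w : HeightOneSpectrum (𝓞 K)}
    (h : Ideal.absNorm v.asIdeal = Ideal.absNorm w.asIdeal) : Recip.nres ℓ v = Recip.nres ℓ w := by
  unfold Recip.nres
  generalize Ideal.absNorm v.asIdeal = a at h ⊢
  subst h
  rfl

/-- The cyclotomic character modulo `ℓ` at a Frobenius element over `v ∤ ℓ` is the norm of `v`. -/
theorem kap_frobAt {K : Type*} [Field K] [NumberField K] {i : K →+* AlgebraicClosure ℚ} {ℓ : ℕ}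
    [hℓ : Fact ℓ.Prime] {v : HeightOneSpectrum (𝓞 K)} (hv : (ℓ : 𝓞 K) ∉ v.asIdeal) {g : GK i}
    (hg : FrobAt g v) : KW.Kap.kap ℓ g.1 = Recip.nres ℓ v := by
  obtain ⟨A, hA, hF⟩ := hg
  obtain ⟨q, hq, hqv⟩ := exists_prime_mem v
  have hAq : A.LiesOverPrime q := hA.natCast_mem_iff.mp hqv
  have hne : q ≠ ℓ := by
    rintro rfl
    exact hv hqv
  apply Units.ext
  rw [Recip.nres_coe hv]
  exact KW.Kap.kap_eq ℓ (frob_rootOfUnity hAq ((Nat.coprime_primes hq hℓ.out).mpr hne)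
    hℓ.out.ne_zero hF (KW.Kap.zet_spec ℓ).pow_eq_one)

/-- A good prime `ℓ` is totally ramified in `K(μ_ℓ)/K`: the cyclotomic character modulo `ℓ` maps
`G_K` onto `(ZMod ℓ)ˣ`. -/
theorem exists_kap_eq {K : Type*} [Field K] [NumberField K] (i : K →+* AlgebraicClosure ℚ) {ℓ : ℕ}
    [hℓ : Fact ℓ.Prime] (hG : Good K ℓ) (u : (ZMod ℓ)ˣ) : ∃ g : GK i, KW.Kap.kap ℓ g.1 = u := by
  obtain ⟨A, hA⟩ := exists_liesOverPrime ℓ hℓ.out
  have key : ∀ (m : ℕ) [NeZero m], m = ℓ ^ 1 → ∀ u : (ZMod m)ˣ,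
      ∃ σ ∈ A.inertiaSubgroupIn ℚ, KW.Kap.kap m σ = u := by
    rintro m _ rfl u
    exact KW.inertia_surj hℓ.out 1 hA u
  obtain ⟨σ, hσ, h⟩ := key ℓ (pow_one ℓ).symm u
  have h3 : (gh σ).comp i = i := hG A hA _ _ (Classic.Disc.redτ_comp_inertia hσ i)
  exact ⟨⟨σ, fun x => RingHom.congr_fun h3 x⟩, h⟩

variable {p : ℕ} [hp : Fact p.Prime]

/-- **Auxiliary characters.** -/
theorem exists_aux {K : Type} [Field K] [NumberField K] [IsTotallyComplex K]
    (i : K →+* AlgebraicClosure ℚ) (B : ℕ) :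
    ∃ (ℓ : ℕ) (κ : GQ →* C p) (θ : HeightOneSpectrum (𝓞 K) → ZMod p)
      (S : Finset (HeightOneSpectrum (𝓞 K))) (n : ℕ), ℓ.Prime ∧ B < ℓ ∧
      (∀ v, v ∈ S ↔ (ℓ : 𝓞 K) ∈ v.asIdeal) ∧ LT.IsRay S n θ ∧ KW.Lev κ ∧
      (∀ v, v ∉ S → ∀ g : GK i, FrobAt g v → κ g.1 = Multiplicative.ofAdd (θ v)) ∧
      (∃ g : GK i, κ g.1 ≠ 1) ∧
      ∀ v w : HeightOneSpectrum (𝓞 K), Ideal.absNorm v.asIdeal = Ideal.absNorm w.asIdeal →
        θ v = θ w := by
  classical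
  obtain ⟨D, hD, hgood⟩ := exists_good K
  obtain ⟨ℓ, hℓ, hBℓ, hmod⟩ := Nat.exists_prime_gt_modEq_one (B + D) hp.out.ne_zero
  have : Fact ℓ.Prime := ⟨hℓ⟩
  have hℓD : ¬ ℓ ∣ D := fun h => by
    have := Nat.le_of_dvd (Nat.pos_of_ne_zero hD) h
    omega
  have hG : Good K ℓ := hgood ℓ hℓ hℓD
  have hdvd : p ∣ Nat.card (ZMod ℓ)ˣ := by
    rw [Nat.card_eq_fintype_card, ZMod.card_units]
    exact (Nat.modEq_iff_dvd' hℓ.one_le).mp hmod.symm
  obtain ⟨f, hf⟩ := KW.Homs.exists_surj (G := (ZMod ℓ)ˣ) inferInstance hdvd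
  have hS (v : HeightOneSpectrum (𝓞 K)) :
      v ∈ (finite_natCast_mem (K := K) hℓ.ne_zero).toFinset ↔ (ℓ : 𝓞 K) ∈ v.asIdeal := by
    rw [Set.Finite.mem_toFinset, Set.mem_ofPred_eq]
  have hθ : ∀ v ∉ (finite_natCast_mem (K := K) hℓ.ne_zero).toFinset, ∀ u : (ZMod ℓ)ˣ,
      (u : ZMod ℓ) = (Ideal.absNorm v.asIdeal : ZMod ℓ) →
        (f (Recip.nres ℓ v)).toAdd = (f u).toAdd := by
    intro v hv u hu
    have : u = Recip.nres ℓ v := by
      apply Units.ext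
      rw [hu, Recip.nres_coe fun h => hv ((hS v).mpr h)]
    rw [this]
  obtain ⟨n, hn⟩ := Recip.exists_isRay_norm f _ (fun v => (hS v).mpr) _ hθ
  refine ⟨ℓ, f.comp (KW.Kap.kap ℓ), fun v => (f (Recip.nres ℓ v)).toAdd, _, n, hℓ, by omega, hS, hn,
    (KW.Kap.lev_kap ℓ).comp f, ?_, ?_, ?_⟩
  · intro v hv g hg
    rw [MonoidHom.comp_apply, kap_frobAt (fun h => hv ((hS v).mpr h)) hg, ofAdd_toAdd]
  · obtain ⟨u, hu⟩ := hf (Multiplicative.ofAdd 1)
    obtain ⟨g, hg⟩ := exists_kap_eq i hG u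
    refine ⟨g, ?_⟩
    rw [MonoidHom.comp_apply, hg, hu]
    intro h
    have h1 : (1 : ZMod p) = 0 := congrArg Multiplicative.toAdd h
    exact one_ne_zero h1
  · intro v w h
    simp only [nres_congr h]

end Fermat.Agent.Cor.CFTP
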