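import Mathlib

/-!
# Auxiliary primes: the order of `N` modulo `ℓ` is divisible by a given prime

For every prime `p`, every `N > 1` and every bound `B` there is a prime `ℓ > B`, prime to `N`, such
that `p` divides the order of `N` modulo `ℓ` (a case of the theorem of Bang and Zsigmondy; the
usual auxiliary primes of class field theory).
-/

namespace Fermat.Agent.Cor.CFTP

open Finset

/-- The `p`-th cyclotomic polynomial at a large power of `N` is not divisible by `p²`. -/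
theorem not_sq_dvd_geom {p : ℕ} (hp : p.Prime) (y : ℕ) :
    ¬ p ^ 2 ∣ ∑ i ∈ range p, (y ^ p) ^ i := by
  intro h
  rcases hp.eq_two_or_odd' with rfl | hodd
  · rw [sum_range_succ, sum_range_succ, range_zero, sum_empty, zero_add, pow_zero, pow_one] at h
    have h4 : (1 + y ^ 2) % 4 = 0 := Nat.mod_eq_zero_of_dvd (by simpa using h)
    have h1 : y % 4 = 0 ∨ y % 4 = 1 ∨ y % 4 = 2 ∨ y % 4 = 3 := by omega
    rw [Nat.add_mod, Nat.pow_mod] at h4
    rcases h1 with h1 | h1 | h1 | h1 <;> rw [h1] at h4 <;> norm_num at h4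
  · set x : ℕ := y ^ p with hx
    have hZ : ((p : ℤ)) ^ 2 ∣ ∑ i ∈ range p, (x : ℤ) ^ i := by
      have := Int.natCast_dvd_natCast.mpr h
      push_cast at this
      exact this
    have hpZ : (p : ℤ) ∣ (x : ℤ) - 1 := by
      have h1 : (p : ℤ) ∣ (x : ℤ) ^ p - 1 := by
        rw [← geom_sum_mul (x : ℤ) p]
        exact Dvd.dvd.mul_right (dvd_trans (dvd_pow_self _ two_ne_zero) hZ) _
      have : Fact p.Prime := ⟨hp⟩
      rw [← ZMod.intCast_zmod_eq_zero_iff_dvd] at h1 ⊢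
      push_cast at h1 ⊢
      rwa [ZMod.pow_card] at h1
    obtain ⟨b, hb⟩ := hpZ
    have h2 := odd_sq_dvd_geom_sum₂_sub (R := ℤ) (a := 1) (b := b) hodd
    have h3 : (1 : ℤ) + (p : ℤ) * b = (x : ℤ) := by linarith
    rw [h3] at h2
    simp only [one_pow, mul_one] at h2
    have h4 : (p : ℤ) ^ 2 ∣ (p : ℤ) := by
      have := dvd_sub hZ h2
      simpa using this
    have h5 : p ^ 2 ∣ p := by exact_mod_cast h4
    have h6 := Nat.le_of_dvd hp.pos h5
    nlinarith [hp.two_le]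

/-- **Auxiliary primes** (Bang 1886, Zsigmondy 1892, a special case): for `N > 1` there are
arbitrarily large primes `ℓ`, prime to `N`, such that `p` divides the order of `N` modulo `ℓ`. -/
theorem exists_prime_dvd_orderOf {p : ℕ} (hp : p.Prime) {N : ℕ} (hN : 1 < N) (B : ℕ) :
    ∃ ℓ : ℕ, ℓ.Prime ∧ B < ℓ ∧ ¬ ℓ ∣ N ∧ p ∣ orderOf (N : ZMod ℓ) := by
  have : Fact p.Prime := ⟨hp⟩
  set x : ℕ := N ^ p ^ (B + 1) with hx
  have hx1 : 1 < x := Nat.one_lt_pow (pow_ne_zero _ hp.ne_zero) hN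
  set Φ : ℕ := ∑ i ∈ range p, x ^ i with hΦ
  have hΦp : p < Φ := by
    calc p = ∑ i ∈ range p, 1 := by simp
      _ < Φ := by
        refine Finset.sum_lt_sum (fun i _ => Nat.one_le_pow _ _ (by omega)) ⟨1, ?_, ?_⟩
        · exact mem_range.mpr hp.one_lt
        · simpa using hx1
  have hnsq : ¬ p ^ 2 ∣ Φ := by
    have := not_sq_dvd_geom hp (N ^ p ^ B)
    rwa [← pow_mul, ← pow_succ] at this
  obtain ⟨ℓ, hℓ, hℓΦ, hℓp⟩ : ∃ ℓ : ℕ, ℓ.Prime ∧ ℓ ∣ Φ ∧ ℓ ≠ p := by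
    by_contra hcon
    push Not at hcon
    have h1 := Nat.eq_prime_pow_of_unique_prime_dvd (n := Φ) (p := p) (by omega)
      (fun {d} hd hdΦ => hcon d hd hdΦ)
    set m := Φ.primeFactorsList.length
    have h2 : 2 ≤ m := by
      by_contra hm
      have hm' : m ≤ 1 := by omega
      have : p ^ m ≤ p ^ 1 := Nat.pow_le_pow_right hp.pos hm'
      rw [pow_one] at this
      omega
    exact hnsq (h1 ▸ pow_dvd_pow p h2)
  have : Fact ℓ.Prime := ⟨hℓ⟩
  have hΦ0 : (∑ i ∈ range p, (x : ZMod ℓ) ^ i) = 0 := by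
    have := (ZMod.natCast_eq_zero_iff Φ ℓ).mpr hℓΦ
    rw [hΦ] at this
    push_cast at this
    exact this
  have hxp : (x : ZMod ℓ) ^ p = 1 := by
    have := geom_sum_mul (x : ZMod ℓ) p
    rw [hΦ0, zero_mul] at this
    exact (sub_eq_zero.mp this.symm)
  have hx1' : (x : ZMod ℓ) ≠ 1 := by
    intro h
    rw [h] at hΦ0
    simp only [one_pow, sum_const, card_range, nsmul_eq_mul, mul_one] at hΦ0
    rw [ZMod.natCast_eq_zero_iff] at hΦ0
    exact hℓp ((Nat.prime_dvd_prime_iff_eq hℓ hp).mp hΦ0)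
  have hxN : (x : ZMod ℓ) = (N : ZMod ℓ) ^ p ^ (B + 1) := by rw [hx]; push_cast; rfl
  have hord : orderOf (N : ZMod ℓ) = p ^ (B + 1 + 1) := by
    apply orderOf_eq_prime_pow
    · rw [← hxN]; exact hx1'
    · rw [pow_succ, pow_mul, ← hxN, hxp]
  have hNℓ : ¬ ℓ ∣ N := by
    intro h
    have h0 : (N : ZMod ℓ) = 0 := (ZMod.natCast_eq_zero_iff _ _).mpr h
    have : (N : ZMod ℓ) ^ p ^ (B + 1 + 1) = 1 := hord ▸ pow_orderOf_eq_one _
    rw [h0, zero_pow (pow_ne_zero _ hp.ne_zero)] at this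
    exact zero_ne_one this
  refine ⟨ℓ, hℓ, ?_, hNℓ, ?_⟩
  · have hN0 : (N : ZMod ℓ) ≠ 0 := fun h => hNℓ ((ZMod.natCast_eq_zero_iff _ _).mp h)
    have h1 : orderOf (N : ZMod ℓ) ∣ ℓ - 1 := by
      rw [orderOf_dvd_iff_pow_eq_one]
      exact ZMod.pow_card_sub_one_eq_one hN0
    have h2 : p ^ (B + 1 + 1) ≤ ℓ - 1 := by
      rw [← hord]
      exact Nat.le_of_dvd (Nat.sub_pos_of_lt hℓ.one_lt) h1
    have h3 : B + 1 + 1 < p ^ (B + 1 + 1) := Nat.lt_pow_self hp.one_lt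
    omega
  · rw [hord]
    exact dvd_pow_self _ (by omega)

end Fermat.Agent.Cor.CFTP
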