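import Fermat.Agent.Corollaries.CFTP.Tower
import Fermat.Agent.Classic.Level.Disc.Orbits

set_option autoImplicit false

/-!
# The extension of `K` defined by a continuous homomorphism of `G_K`

`K` a number field, `i : K → ℚ̄`, `ψ : G_K → M` a continuous surjection to a (finite) group.

* `exists_field_of_surjective`: there is a Galois extension `L/K`, an embedding `j : L → ℚ̄`
  extending `i` and an isomorphism `e : Gal(L/K) ≃ M` with `j (e⁻¹ (ψ g) x) = g (j x)`;
* `edeg_eq_one_of_inertia`: if the inertia elements of `G_K` at `A` act trivially on `L`, then the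
  place of `L` under `A` is unramified over `K`;
* `fdeg_eq_one_iff`: then it is of degree one over `K` if and only if a Frobenius element of `G_K`
  at `A` acts trivially on `L`;
* `exists_field`: the field of a non-trivial character of order `p`.
-/

namespace Fermat.Agent.Cor.CFTP

open IsDedekindDomain NumberField
open Fermat.Agent.Frob Fermat.Agent.FrobDensity Fermat.Agent.Minkowski
open Fermat.Agent.LT.Tower.Fr
open Fermat.Agent.Cor.Diff (GK FrobAt)
open Fermat.Agent.LT.NV (edeg)
open scoped Pointwise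

namespace Field'

section Alg

variable {K : Type*} [Field K] (i : K →+* AlgebraicClosure ℚ)

/-- `ℚ̄` as a `K`-algebra by `i` -/
noncomputable abbrev algK : Algebra K (AlgebraicClosure ℚ) := i.toAlgebra

/-- `Gal(ℚ̄/K) → G_K` -/
noncomputable def toGK :
    letI := algK i; (AlgebraicClosure ℚ ≃ₐ[K] AlgebraicClosure ℚ) →* GK i :=
  letI := algK i
  { toFun := fun σ => ⟨AlgEquiv.ofRingEquiv (f := σ.toRingEquiv) (fun x => by
      exact map_ratCast σ.toRingEquiv x), fun x => σ.commutes x⟩
    map_one' := rfl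
    map_mul' := fun _ _ => rfl }

/-- `G_K → Gal(ℚ̄/K)` -/
noncomputable def ofGK :
    letI := algK i; GK i →* (AlgebraicClosure ℚ ≃ₐ[K] AlgebraicClosure ℚ) :=
  letI := algK i
  { toFun := fun g => AlgEquiv.ofRingEquiv (f := g.1.toRingEquiv) (fun x => g.2 x)
    map_one' := rfl
    map_mul' := fun _ _ => rfl }

lemma toGK_ofGK (g : GK i) : toGK i (ofGK i g) = g := rfl

end Alg

end Field'

open Field'

/-- **The field of a continuous homomorphism**: for a continuous surjection `ψ : G_K → M` there are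
a Galois extension `L` of `K` with group `M` and an embedding of `L` in `ℚ̄` such that `g ∈ G_K` acts
on `L` by `ψ g`. -/
theorem exists_field_of_surjective {K : Type} [Field K] [NumberField K]
    (i : K →+* AlgebraicClosure ℚ) {M : Type*} [Group M] (ψ : GK i →* M) (hψ : Lev ψ) (hs : Function.Surjective ψ) :
    ∃ (L : Type) (_ : Field L) (_ : NumberField L) (_ : Algebra K L) (_ : IsGalois K L)
      (j : L →+* AlgebraicClosure ℚ) (e : (L ≃ₐ[K] L) ≃* M),
      j.comp (algebraMap K L) = i ∧ ∀ (g : GK i) (x : L), j (e.symm (ψ g) x) = g.1 (j x) := by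
  let _ : Algebra K (AlgebraicClosure ℚ) := algK i
  have : IsScalarTower ℚ K (AlgebraicClosure ℚ) :=
    IsScalarTower.of_algebraMap_eq' (Subsingleton.elim _ _)
  have halg : Algebra.IsAlgebraic K (AlgebraicClosure ℚ) :=
    Algebra.IsAlgebraic.tower_top (K := ℚ) K
  have hgal : IsGalois K (AlgebraicClosure ℚ) := IsGalois.tower_top_of_isGalois ℚ K _
  let ψ' : (AlgebraicClosure ℚ ≃ₐ[K] AlgebraicClosure ℚ) →* M := ψ.comp (toGK i)
  have hs' : Function.Surjective ψ' := fun m => by
    obtain ⟨g, rfl⟩ := hs m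
    exact ⟨ofGK i g, congrArg ψ (toGK_ofGK i g)⟩
  obtain ⟨L₀, hL₀, hψ⟩ := hψ
  obtain ⟨t, ht⟩ := IntermediateField.fg_of_fg_toSubalgebra L₀
    (Subalgebra.fg_of_fg_toSubmodule (Module.Finite.iff_fg.mp hL₀))
  let E : IntermediateField K (AlgebraicClosure ℚ) :=
    IntermediateField.adjoin K (t : Set (AlgebraicClosure ℚ))
  have hE : FiniteDimensional K E :=
    IntermediateField.finiteDimensional_adjoin fun x _ => Algebra.IsIntegral.isIntegral x
  have hEN : E.fixingSubgroup ≤ ψ'.ker := by
    intro σ hσ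
    rw [MonoidHom.mem_ker]
    apply hψ
    have h1 : ∀ x : L₀, σ (x : AlgebraicClosure ℚ) = x := by
      have h2 : ((σ.restrictScalars ℚ).toAlgHom.comp L₀.val) = L₀.val := by
        apply IntermediateField.algHom_ext_of_eq_adjoin (hS := ht.symm)
        intro x hx
        exact (IntermediateField.mem_fixingSubgroup_iff E σ).mp hσ _
          (IntermediateField.subset_adjoin K _ hx)
      exact fun x => AlgHom.congr_fun h2 x
    exact fun x hx => h1 ⟨x, hx⟩
  have hopen : IsOpen (ψ'.ker : Set (AlgebraicClosure ℚ ≃ₐ[K] AlgebraicClosure ℚ)) :=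
    Subgroup.isOpen_mono hEN (IntermediateField.fixingSubgroup_isOpen E)
  let N : ClosedSubgroup (AlgebraicClosure ℚ ≃ₐ[K] AlgebraicClosure ℚ) :=
    ⟨ψ'.ker, Subgroup.isClosed_of_isOpen _ hopen⟩
  have hN : N.Normal := MonoidHom.normal_ker ψ'
  let L : IntermediateField K (AlgebraicClosure ℚ) := IntermediateField.fixedField N.1
  have hLE : L ≤ E := by
    have h1 : IntermediateField.fixedField N.1 ≤ IntermediateField.fixedField E.fixingSubgroup :=
      IntermediateField.fixedField_antitone hEN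
    rwa [InfiniteGalois.fixedField_fixingSubgroup] at h1
  have hfL : FiniteDimensional K L :=
    FiniteDimensional.of_injective (IntermediateField.inclusion hLE).toLinearMap
      (IntermediateField.inclusion hLE).injective
  have hnf : NumberField L :=
    { to_charZero := inferInstance
      to_finiteDimensional := Module.Finite.trans K L }
  have hgalL : IsGalois K L := by
    rw [← InfiniteGalois.normal_iff_isGalois]
    have h1 : L.fixingSubgroup = N.1 := InfiniteGalois.fixingSubgroup_fixedField N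
    rw [h1]
    exact hN
  let e₁ := InfiniteGalois.normalAutEquivQuotient N
  let e₂ : (AlgebraicClosure ℚ ≃ₐ[K] AlgebraicClosure ℚ) ⧸ ψ'.ker ≃* M :=
    QuotientGroup.quotientKerEquivOfSurjective ψ' hs'
  let e : (L ≃ₐ[K] L) ≃* M := e₁.symm.trans e₂
  refine ⟨L, inferInstance, hnf, inferInstance, hgalL, L.val.toRingHom, e, rfl, fun g x => ?_⟩
  have h1 : e.symm (ψ g) = AlgEquiv.restrictNormalHom L (ofGK i g) := by
    rw [MulEquiv.symm_apply_eq]
    change ψ g = e₂ (e₁.symm _)
    have h2 : e₁ (QuotientGroup.mk (ofGK i g)) = AlgEquiv.restrictNormalHom L (ofGK i g) := rfl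
    rw [← h2, MulEquiv.symm_apply_apply]
    rfl
  rw [h1]
  exact AlgEquiv.restrictNormal_commutes (ofGK i g) L x

section Ram

variable {K L : Type*} [Field K] [NumberField K] [Field L] [NumberField L] [Algebra K L]
  [IsGalois K L] {j : L →+* AlgebraicClosure ℚ} {w : HeightOneSpectrum (𝓞 L)}
  {A : ValuationSubring (AlgebraicClosure ℚ)}

/-- If the inertia elements at `A` which fix `K` fix `L`, then the place `w` of `L` under `A` is
unramified over `K`. -/
theorem edeg_eq_one_of_inertia (hw : Over j A w)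
    (h : ∀ τ ∈ A.inertiaSubgroupIn ℚ, (∀ x : K, τ (j (algebraMap K L x)) = j (algebraMap K L x)) →
      ∀ x : L, τ (j x) = j x) : edeg K w = 1 := by
  obtain ⟨q, hq, hqw⟩ := exists_prime_mem w
  have hAq : A.LiesOverPrime q := hw.natCast_mem_iff.mp hqw
  have hin : w.asIdeal.inertia Gal(L/K) = ⊥ := by
    rw [eq_bot_iff]
    intro σ hσ
    rw [Subgroup.mem_bot]
    have h1 : redτ A (j.comp (σ : L →+* L)) = redτ A j := by
      ext x
      have h2 : (σ • x - x : 𝓞 L) ∈ w.asIdeal := hσ x
      rw [hw.mem_iff, map_sub, sub_eq_zero] at h2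
      exact h2
    obtain ⟨τ, hτ, h2⟩ := Fermat.Agent.Classic.Disc.exists_inertia_of_redτ_eq hq hAq h1.symm
    have h3 : ∀ x : L, τ (j x) = j (σ x) := fun x => RingHom.congr_fun h2 x
    have h4 := h τ hτ (fun x => by rw [h3, AlgEquiv.commutes])
    ext x
    apply j.injective
    rw [← h3, h4]
    rfl
  have h1 := Ideal.card_inertia_eq_ramificationIdxIn (G := Gal(L/K)) (w.under (𝓞 K)).asIdeal
    w.asIdeal
  rw [hin, Subgroup.card_bot,
    Ideal.ramificationIdxIn_eq_ramificationIdx (w.under (𝓞 K)).asIdeal w.asIdeal Gal(L/K),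
    ← Ideal.ramificationIdx'_eq_ramificationIdx _ w.asIdeal (w.under (𝓞 K)).ne_bot] at h1
  exact h1.symm

omit [IsGalois K L] in
/-- **Decomposition law**: if the inertia elements at `A` which fix `K` fix `L`, `g` is a Frobenius
element of `G_K` at `A`: the place `w` of `L` under `A` is of degree one over `K` if and only if `g`
fixes `L`. -/
theorem fdeg_eq_one_iff (hw : Over j A w)
    (h : ∀ τ ∈ A.inertiaSubgroupIn ℚ, (∀ x : K, τ (j (algebraMap K L x)) = j (algebraMap K L x)) →
      ∀ x : L, τ (j x) = j x) {g : GQ}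
    (hgK : ∀ x : K, g (j (algebraMap K L x)) = j (algebraMap K L x))
    (hg : A.IsFrobeniusAt g (Ideal.absNorm (w.under (𝓞 K)).asIdeal)) :
    LT.NV.fdeg K w = 1 ↔ ∀ x : L, g (j x) = j x := by
  obtain ⟨q, hq, hqw⟩ := exists_prime_mem w
  have hAq : A.LiesOverPrime q := hw.natCast_mem_iff.mp hqw
  have hN := absNorm_eq_pow_fdeg (K := K) w
  constructor
  · intro hf
    rw [hf, pow_one] at hN
    have h1 : redτ A ((gh g).comp j) = redτ A j := by
      ext x
      rw [redτ_frob hg, ← hN]
      exact hw.redτ_pow_absNorm x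
    obtain ⟨τ, hτ, h2⟩ := Fermat.Agent.Classic.Disc.exists_inertia_of_redτ_eq hq hAq h1
    have h3 : ∀ x : L, τ (g (j x)) = j x := fun x => RingHom.congr_fun h2 x
    have h4 := h τ hτ (fun x => by
      have h5 := h3 (algebraMap K L x)
      rwa [hgK] at h5)
    intro x
    apply τ.injective
    rw [h3, h4]
  · intro hfix
    have h1 : ∀ x : 𝓞 L ⧸ w.asIdeal, x ^ Ideal.absNorm (w.under (𝓞 K)).asIdeal = x := by
      intro x
      obtain ⟨x, rfl⟩ := Ideal.Quotient.mk_surjective x
      have hcomp : (gh g).comp j = j := RingHom.ext hfix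
      rw [← map_pow, Ideal.Quotient.eq, hw.mem_iff, map_sub, map_pow, sub_eq_zero,
        ← redτ_frob hg, hcomp]
    let _ := fieldQuot w
    obtain ⟨y, hy⟩ := IsCyclic.exists_ofOrder_eq_natCard (α := (𝓞 L ⧸ w.asIdeal)ˣ)
    have h2 : orderOf y = Ideal.absNorm w.asIdeal - 1 := by
      rw [hy, Nat.card_units, natCard_quot]
    have hNv : 1 < Ideal.absNorm (w.under (𝓞 K)).asIdeal := by
      obtain ⟨q', hq', hqv⟩ := exists_prime_mem (w.under (𝓞 K))
      obtain ⟨f, hf, hfN⟩ := exists_absNorm_eq_pow hq' hqv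
      rw [hfN]
      exact Nat.one_lt_pow hf.ne' hq'.one_lt
    have h3 : y ^ (Ideal.absNorm (w.under (𝓞 K)).asIdeal - 1) = 1 := by
      have h4 : y ^ Ideal.absNorm (w.under (𝓞 K)).asIdeal = y :=
        Units.ext (by rw [Units.val_pow_eq_pow_val]; exact h1 y)
      have h5 : y ^ (Ideal.absNorm (w.under (𝓞 K)).asIdeal - 1) * y = y := by
        rw [← pow_succ, Nat.sub_add_cancel hNv.le, h4]
      exact mul_eq_right.mp h5
    have h4 : Ideal.absNorm w.asIdeal - 1 ≤ Ideal.absNorm (w.under (𝓞 K)).asIdeal - 1 := by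
      rw [← h2]
      exact Nat.le_of_dvd (by omega) (orderOf_dvd_of_pow_eq_one h3)
    have h5 : Ideal.absNorm w.asIdeal ≤ Ideal.absNorm (w.under (𝓞 K)).asIdeal ^ 1 := by
      rw [pow_one]
      omega
    rw [hN] at h5
    have h6 := (Nat.pow_le_pow_iff_right hNv).mp h5
    have h7 : LT.NV.fdeg K w ≠ 0 := by
      intro h0
      rw [h0, pow_zero] at hN
      obtain ⟨q', hq', hqv⟩ := exists_prime_mem w
      obtain ⟨f, hf, hfN⟩ := exists_absNorm_eq_pow hq' hqv
      rw [hfN] at hN
      exact (Nat.one_lt_pow hf.ne' hq'.one_lt).ne' hN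
    omega

end Ram

/-- **The field of a character of prime order** `ψ : G_K → ZMod p`: a cyclic extension `L/K` of
degree `p`, unramified at all finite places if `ψ` is trivial on all inertia groups. -/
theorem exists_field {p : ℕ} [hp : Fact p.Prime] {K : Type} [Field K] [NumberField K]
    {i : K →+* AlgebraicClosure ℚ} {ψ : GK i →* C p} (lψ : Lev ψ) (hψ : ∃ g, ψ g ≠ 1) :
    ∃ (L : Type) (_ : Field L) (_ : NumberField L) (_ : Algebra K L) (_ : IsGalois K L)
      (j : L →+* AlgebraicClosure ℚ), j.comp (algebraMap K L) = i ∧ Module.finrank K L = p ∧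
      (∀ g : GK i, g.1 ∈ GK j ↔ ψ g = 1) ∧
      ((∀ v A, Over i A v → ∀ g : GK i, g.1 ∈ A.inertiaSubgroupIn ℚ → ψ g = 1) →
        ∀ w : HeightOneSpectrum (𝓞 L), LT.NV.edeg K w = 1) := by
  have hs : Function.Surjective ψ := by
    obtain ⟨g, hg⟩ := hψ
    intro y
    obtain ⟨c, hc⟩ := exists_pow_eq hg y
    exact ⟨g ^ c, by rw [map_pow, hc]⟩
  obtain ⟨L, _, _, _, hgal, j, e, hj, he⟩ := exists_field_of_surjective i ψ lψ hs
  have hjx : ∀ x : K, j (algebraMap K L x) = i x := fun x => RingHom.congr_fun hj x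
  have hiff : ∀ g : GK i, g.1 ∈ GK j ↔ ψ g = 1 := by
    intro g
    constructor
    · intro hg
      have h1 : e.symm (ψ g) = 1 := by
        ext x
        apply j.injective
        rw [he]
        exact hg x
      have h2 := congrArg e h1
      rwa [MulEquiv.apply_symm_apply, map_one] at h2
    · intro hg x
      rw [← he, hg, map_one]
      rfl
  refine ⟨L, inferInstance, inferInstance, inferInstance, hgal, j, hj, ?_, hiff, fun h w => ?_⟩
  · rw [← IsGalois.card_aut_eq_finrank, Nat.card_congr e.toEquiv]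
    exact Nat.card_zmod p
  · obtain ⟨q, A, -, -, hw⟩ := exists_over j w
    apply edeg_eq_one_of_inertia hw
    intro τ hτ hτK
    have hτK' : τ ∈ GK i := fun x => by
      have := hτK x
      rwa [hjx] at this
    have hv : Over i A (w.under (𝓞 K)) := by
      have h1 := hw.under (F := K)
      rwa [hj] at h1
    exact (hiff ⟨τ, hτK'⟩).mpr (h _ A hv ⟨τ, hτK'⟩ hτ)

end Fermat.Agent.Cor.CFTP
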