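import Fermat.Agent.Corollaries.CFTP.Final
import Fermat.Agent.Corollaries.CFTP.Field

set_option autoImplicit false

/-!
# Class fields of prime degree

`K` any number field, `p` a prime, `p ≠ 2` or `K` totally complex.

* `exists_classField`: for a ray character `η ≠ 0` with values in `ZMod p` and modulus on `S` there
  is a Galois extension `L/K` of degree `p`, unramified at all `v ∉ S`, in which `v ∉ S` splits
  completely if and only if `η v = 0`;
* `exists_hilbert`: the case of a character of the class group (`S = ∅`);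
* `exists_unramified`: if `p` divides the class number of `K` then `K` has a Galois extension of
  degree `p` which is unramified at all finite places.
-/

namespace Fermat.Agent.Cor.CFTP

open IsDedekindDomain NumberField
open Fermat.Agent.Frob Fermat.Agent.LT Fermat.Agent.LT.Tower.Fr
open Fermat.Agent.Cor.Diff (GK FrobAt)
open Fermat.Agent.LT.NV (edeg fdeg)

variable {p : ℕ} [hp : Fact p.Prime]

/-- **The class field of a ray character of prime order**: every place `v ∉ S` is unramified, and
splits completely if and only if `η v = 0`. -/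
theorem exists_classField {K : Type} [Field K] [NumberField K] (hK : p ≠ 2 ∨ IsTotallyComplex K)
    {S : Finset (HeightOneSpectrum (𝓞 K))} {n : ℕ} {η : HeightOneSpectrum (𝓞 K) → ZMod p}
    (hη : IsRay S n η) (hne : ∃ v, v ∉ S ∧ η v ≠ 0) :
    ∃ (L : Type) (_ : Field L) (_ : NumberField L) (_ : Algebra K L), IsGalois K L ∧
      Module.finrank K L = p ∧ ∀ w : HeightOneSpectrum (𝓞 L), w.under (𝓞 K) ∉ S →
        (w.under (𝓞 K)).asIdeal.ramificationIdx' w.asIdeal = 1 ∧
        ((w.under (𝓞 K)).asIdeal.inertiaDeg' w.asIdeal = 1 ↔ η (w.under (𝓞 K)) = 0) := by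
  have i : K →ₐ[ℚ] AlgebraicClosure ℚ := IsAlgClosed.lift
  obtain ⟨ψ, lψ, hunr, hex⟩ := artin_existence hK (i : K →+* AlgebraicClosure ℚ) hη
  have hψ : ∃ g, ψ g ≠ 1 := by
    obtain ⟨v, hv, hv0⟩ := hne
    obtain ⟨q, A, hq, hAq, hA⟩ := exists_over (i : K →+* AlgebraicClosure ℚ) v
    obtain ⟨g, hg⟩ := exists_frobAt_over hA
    refine ⟨g, ?_⟩
    rw [hex v hv g ⟨A, hA, hg⟩, Ne, ofAdd_eq_one]
    exact hv0
  obtain ⟨L, fL, nL, aL, gL, j, hj, hL, hiff, -⟩ := exists_field lψ hψ
  refine ⟨L, fL, nL, aL, gL, hL, fun w hw => ?_⟩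
  obtain ⟨q, A, hq, hAq, hA⟩ := exists_over j w
  have hjx : ∀ x : K, j (algebraMap K L x) = (i : K →+* AlgebraicClosure ℚ) x := fun x =>
    RingHom.congr_fun hj x
  have hv : Over (i : K →+* AlgebraicClosure ℚ) A (w.under (𝓞 K)) := by
    have h1 := hA.under (F := K)
    rwa [hj] at h1
  have hin : ∀ τ ∈ A.inertiaSubgroupIn ℚ,
      (∀ x : K, τ (j (algebraMap K L x)) = j (algebraMap K L x)) → ∀ x : L, τ (j x) = j x := by
    intro τ hτ hτK
    have hτK' : τ ∈ GK (i : K →+* AlgebraicClosure ℚ) := fun x => by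
      have := hτK x
      rwa [hjx] at this
    exact (hiff ⟨τ, hτK'⟩).mpr (hunr _ hw A hv ⟨τ, hτK'⟩ hτ)
  refine ⟨edeg_eq_one_of_inertia hA hin, ?_⟩
  obtain ⟨g, hg⟩ := exists_frobAt_over hv
  have h1 := fdeg_eq_one_iff hA hin (g := g.1) (fun x => by rw [hjx, g.2]) hg
  change fdeg K w = 1 ↔ _
  rw [h1]
  change g.1 ∈ GK j ↔ _
  rw [hiff, hex _ hw g ⟨A, hv, hg⟩, ofAdd_eq_one]

/-- **The Hilbert class field, exponent `p`**: a character `χ ≠ 1` of order `p` of the class group
is given by a Galois extension of degree `p` which is unramified at all finite places; `v` splits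
completely in it if and only if `χ` is trivial on the class of `v`. -/
theorem exists_hilbert {K : Type} [Field K] [NumberField K] (hK : p ≠ 2 ∨ IsTotallyComplex K)
    (χ : ClassGroup (𝓞 K) →* C p) (hχ : χ ≠ 1) :
    ∃ (L : Type) (_ : Field L) (_ : NumberField L) (_ : Algebra K L), IsGalois K L ∧
      Module.finrank K L = p ∧ ∀ w : HeightOneSpectrum (𝓞 L),
        (w.under (𝓞 K)).asIdeal.ramificationIdx' w.asIdeal = 1 ∧
        ((w.under (𝓞 K)).asIdeal.inertiaDeg' w.asIdeal = 1 ↔ χ (cl (w.under (𝓞 K))) = 1) := by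
  have hne : ∃ v : HeightOneSpectrum (𝓞 K), v ∉ (∅ : Finset (HeightOneSpectrum (𝓞 K))) ∧
      eta χ v ≠ 0 := by
    by_contra hcon
    push Not at hcon
    exact hχ (eq_one_of_forall χ ∅ fun v hv => hcon v hv)
  obtain ⟨L, fL, nL, aL, gL, hL, h⟩ := exists_classField hK (isRay_eta χ) hne
  refine ⟨L, fL, nL, aL, gL, hL, fun w => ?_⟩
  obtain ⟨h1, h2⟩ := h w (Finset.notMem_empty _)
  refine ⟨h1, h2.trans ?_⟩
  rw [eta]
  exact toAdd_eq_zero

/-- **Unramified extensions of prime degree**: if the prime `p` divides the class number of the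
number field `K` and `p ≠ 2` or `K` is totally complex, then `K` has a Galois extension of degree
`p` which is unramified at all finite places. -/
theorem exists_unramified {K : Type} [Field K] [NumberField K]
    (hK : p ≠ 2 ∨ IsTotallyComplex K) (h : p ∣ classNumber K) :
    ∃ (L : Type) (_ : Field L) (_ : NumberField L) (_ : Algebra K L), IsGalois K L ∧
      Module.finrank K L = p ∧ ∀ w : HeightOneSpectrum (𝓞 L),
        (w.under (𝓞 K)).asIdeal.ramificationIdx' w.asIdeal = 1 := by
  obtain ⟨χ, hχ⟩ := exists_char_ne_one (p := p) (A := ClassGroup (𝓞 K)) (by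
    rw [Nat.card_eq_fintype_card]
    exact h)
  obtain ⟨L, fL, nL, aL, gL, hL, hU⟩ := exists_hilbert hK χ hχ
  exact ⟨L, fL, nL, aL, gL, hL, fun w => (hU w).1⟩

end Fermat.Agent.Cor.CFTP
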