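import Fermat.Agent.Corollaries.CFTP.Kum
import Fermat.Agent.CFT.SClass

set_option autoImplicit false

/-!
# Characters of order `p` of the class group as ray characters of modulus one
-/

namespace Fermat.Agent.Cor.CFTP

open NumberField IsDedekindDomain
open Fermat.Agent.LT (IsRay rayVal divVal divVal_single rayVal_apply)
open Fermat.Agent.CFT.SUnits (ord div idealOf classOf classOf_surjective classOf_eq_one_iff)
open scoped nonZeroDivisors

variable {K : Type*} [Field K] [NumberField K] {p : ℕ} [hp : Fact p.Prime]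

/-- the class of a place -/
noncomputable def cl (v : HeightOneSpectrum (𝓞 K)) : ClassGroup (𝓞 K) :=
  ClassGroup.mk0 ⟨v.asIdeal, mem_nonZeroDivisors_of_ne_zero v.ne_bot⟩

/-- a character of order `p` of the class group as a function on the places -/
noncomputable def eta (χ : ClassGroup (𝓞 K) →* C p) (v : HeightOneSpectrum (𝓞 K)) : ZMod p :=
  (χ (cl v)).toAdd

theorem classOf_single (v : HeightOneSpectrum (𝓞 K)) (m : ℤ) :
    classOf (Multiplicative.ofAdd (Finsupp.single v m)) = cl v ^ m := by
  change ClassGroup.mk K (idealOf K (Finsupp.single v m)) = _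
  rw [idealOf, Finsupp.prod_single_index (zpow_zero _), map_zpow]
  congr 1
  rw [cl, ← ClassGroup.mk_mk0 K]
  congr 1

theorem ofAdd_divVal (χ : ClassGroup (𝓞 K) →* C p) (D : HeightOneSpectrum (𝓞 K) →₀ ℤ) :
    Multiplicative.ofAdd (divVal ∅ (eta χ) D) = χ (classOf (Multiplicative.ofAdd D)) := by
  induction D using Finsupp.induction_linear with
  | zero =>
    rw [map_zero, ofAdd_zero, ofAdd_zero, map_one, map_one]
  | add D E hD hE =>
    rw [map_add, ofAdd_add, hD, hE, ofAdd_add, map_mul, map_mul]
  | single v m =>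
    rw [divVal_single ∅ (eta χ) (Finset.notMem_empty v) m, classOf_single, map_zpow, ofAdd_zsmul]
    rfl

/-- A character of the class group is a ray character of modulus one. -/
theorem isRay_eta (χ : ClassGroup (𝓞 K) →* C p) : IsRay ∅ 0 (eta χ) := by
  intro x _
  have h : classOf (Multiplicative.ofAdd (div (R := 𝓞 K) x)) = 1 :=
    (classOf_eq_one_iff _).mpr ⟨x, rfl⟩
  rw [rayVal_apply, ofAdd_divVal, h, map_one]

/-- A character of the class group which is trivial on almost all primes is trivial. -/
theorem eq_one_of_forall (χ : ClassGroup (𝓞 K) →* C p) (T : Finset (HeightOneSpectrum (𝓞 K)))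
    (h : ∀ v, v ∉ T → χ (cl v) = 1) : χ = 1 := by
  have h1 := Fermat.Agent.LT.Quad.eq_zero_of_large (isRay_eta χ) (T := T)
    (fun v hv => toAdd_eq_zero.mpr (h v hv))
  have h2 : eta χ = fun _ => 0 := funext fun v => h1 v (Finset.notMem_empty v)
  ext D
  obtain ⟨D, rfl⟩ := classOf_surjective D
  have h3 : divVal ∅ (eta χ) D.toAdd = 0 := by
    rw [h2, Fermat.Agent.LT.divVal_apply]
    refine Finset.sum_eq_zero fun v _ => ?_
    simp
  have h4 := ofAdd_divVal χ D.toAdd
  rw [h3, ofAdd_zero, ofAdd_toAdd] at h4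
  rw [← h4]
  rfl

/-- A ray character of modulus one is a character of the class group. -/
theorem exists_char_of_isRay {n : ℕ} {η : HeightOneSpectrum (𝓞 K) → ZMod p} (h : IsRay ∅ n η) :
    ∃ χ : ClassGroup (𝓞 K) →* C p, ∀ v, χ (cl v) = Multiplicative.ofAdd (η v) := by
  let f : Multiplicative (HeightOneSpectrum (𝓞 K) →₀ ℤ) →* C p :=
    AddMonoidHom.toMultiplicative (divVal ∅ η)
  have hf : ∀ D : Multiplicative (HeightOneSpectrum (𝓞 K) →₀ ℤ), (classOf D : ClassGroup (𝓞 K)) = 1 → f D = 1 := by
    intro D hD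
    obtain ⟨x, hx⟩ := (classOf_eq_one_iff _).mp hD
    have h1 := h x fun v hv => absurd hv (Finset.notMem_empty v)
    rw [rayVal_apply] at h1
    have h2 : f D = Multiplicative.ofAdd (divVal ∅ η D.toAdd) := rfl
    rw [h2, ← hx]
    exact h1
  choose s hs using fun c : ClassGroup (𝓞 K) => classOf_surjective c
  have key : ∀ D D' : Multiplicative (HeightOneSpectrum (𝓞 K) →₀ ℤ),
      (classOf D : ClassGroup (𝓞 K)) = classOf D' → f D = f D' := by
    intro D D' hDD
    have h1 := hf (D * D'⁻¹) (by rw [map_mul, map_inv, hDD, mul_inv_cancel])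
    rw [map_mul, map_inv, mul_inv_eq_one] at h1
    exact h1
  refine ⟨{ toFun := fun c => f (s c)
            map_one' := by
              rw [← map_one f]
              exact key _ _ (by rw [hs, map_one])
            map_mul' := fun a b => by
              rw [← map_mul f]
              exact key _ _ (by rw [hs, map_mul, hs, hs]) }, fun v => ?_⟩
  change f (s (cl v)) = _
  rw [key (s (cl v)) (Multiplicative.ofAdd (Finsupp.single v 1)) (by
    rw [hs, classOf_single, zpow_one])]
  change Multiplicative.ofAdd (divVal ∅ η (Finsupp.single v 1)) = _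
  rw [divVal_single ∅ η (Finset.notMem_empty v) 1, one_smul]

/-- A finite abelian group whose order is divisible by `p` has a character of order `p`. -/
theorem exists_char_ne_one {A : Type*} [CommGroup A] [Finite A] (h : p ∣ Nat.card A) :
    ∃ χ : A →* C p, χ ≠ 1 := by
  have hc : Nat.card (A →* (AlgebraicClosure ℚ)ˣ) = Nat.card A :=
    Nat.card_congr
      (CommGroup.monoidHom_mulEquiv_of_hasEnoughRootsOfUnity A (AlgebraicClosure ℚ)).some.toEquiv
  have : Finite (A →* (AlgebraicClosure ℚ)ˣ) := Nat.finite_of_card_ne_zero (by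
    rw [hc]
    exact Nat.card_pos.ne')
  obtain ⟨f, hf⟩ := exists_prime_orderOf_dvd_card' (G := A →* (AlgebraicClosure ℚ)ˣ) p (by rwa [hc])
  obtain ⟨χ, hχ⟩ := exists_char (p := p) f (fun g => by
    have h1 := pow_orderOf_eq_one f
    rw [hf] at h1
    exact DFunLike.congr_fun h1 g)
  refine ⟨χ, ?_⟩
  rintro rfl
  have h1 : f = 1 := MonoidHom.ext fun g => (hχ g).mp rfl
  rw [h1, orderOf_one] at hf
  exact hp.out.one_lt.ne hf

end Fermat.Agent.Cor.CFTP
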