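import Fermat.Agent.Corollaries.CFTP.Final

set_option autoImplicit false

/-!
# Every character of order `p` is a class character

`artin_reciprocity`: `K` any number field, `p` odd or `K` totally complex, `ψ : G_K → ZMod p`
continuous; then `v ↦ ψ(Frob_v)` is a ray character.
-/

namespace Fermat.Agent.Cor.CFTP

open IsDedekindDomain NumberField
open Fermat.Agent.Frob Fermat.Agent.FrobDensity Fermat.Agent.Minkowski
open Fermat.Agent.LT Fermat.Agent.LT.Tower.Fr
open Fermat.Agent.Cor.Diff (GK FrobAt)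
open Fermat.Agent.CFT.Global (above mem_above)
open Fermat.Agent.LT.NV (fdeg edeg edeg_fdeg_eq pull card_conj_eq)
open Fermat.Agent.LT.Psi (finite_under resF exists_conj_eq)
open scoped Pointwise

variable {p : ℕ} [hp : Fact p.Prime]

/-- `∑ e f = [K' : K]`. -/
theorem sum_edeg_mul_fdeg {K K' : Type*} [Field K] [NumberField K] [Field K'] [NumberField K']
    [Algebra K K'] [IsGalois K K'] (W : HeightOneSpectrum (𝓞 K')) :
    ∑ V ∈ (finite_under (L := K') (W.under (𝓞 K))).toFinset, edeg K V * fdeg K V =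
      Nat.card (K' ≃ₐ[K] K') := by
  classical
  have h1 : ∀ V ∈ (finite_under (L := K') (W.under (𝓞 K))).toFinset, edeg K V * fdeg K V =
      (Finset.univ.filter fun σ : K' ≃ₐ[K] K' =>
        Fermat.Agent.CFT.Places.conj σ W = V).card := by
    intro V hV
    rw [Set.Finite.mem_toFinset, Set.mem_ofPred_eq] at hV
    have h2 := card_conj_eq (K := K) hV
    rw [Nat.card_eq_fintype_card, Fintype.card_subtype] at h2
    rw [h2, (edeg_fdeg_eq hV).1, (edeg_fdeg_eq hV).2]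
  rw [Finset.sum_congr rfl h1, Nat.card_eq_fintype_card, ← Finset.card_univ]
  symm
  apply Finset.card_eq_sum_card_fiberwise
  intro σ _
  rw [Finset.mem_coe, Set.Finite.mem_toFinset, Set.mem_ofPred_eq,
    Fermat.Agent.CFT.Places.below_conj]

/-- **Artin's reciprocity law for characters of prime order, every number field** (`p` odd or `K`
totally complex). -/
theorem artin_reciprocity {K : Type} [Field K] [NumberField K] (hK : p ≠ 2 ∨ IsTotallyComplex K)
    (i : K →+* AlgebraicClosure ℚ) (ψ : GK i →* C p) (lψ : Lev ψ) :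
    ∃ (S : Finset (HeightOneSpectrum (𝓞 K))) (n : ℕ) (η : HeightOneSpectrum (𝓞 K) → ZMod p),
      IsRay S n η ∧ ∀ v, v ∉ S → ∀ g : GK i, FrobAt g v → ψ g = Multiplicative.ofAdd (η v) := by
  classical
  obtain ⟨K', _, _, _, _, _, ζ, i', hζ, hi, -, hcard⟩ := exists_tower (p := p) hK i
  subst hi
  obtain ⟨S', n', η', hη', m'⟩ := exists_ray_of_char hζ i' (ψ.comp (res K i')) lψ.res
  obtain ⟨a, ha, hex⟩ := exact_of_mat hζ hη' lψ.res m'
  have ha' : (a : ZMod p) ≠ 0 := fun h => ha ((ZMod.natCast_eq_zero_iff _ _).mp h)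
  obtain ⟨T, hT⟩ := lψ.unr
  let S : Finset (HeightOneSpectrum (𝓞 K)) := S'.image (fun w => w.under (𝓞 K)) ∪ T
  have hS'S : S' ⊆ above K' S := by
    intro w hw
    rw [mem_above]
    exact Finset.mem_union_left _ (Finset.mem_image_of_mem _ hw)
  have hm : ((Nat.card (K' ≃ₐ[K] K') : ℕ) : ZMod p) ≠ 0 := by
    intro h
    have h1 := Nat.le_of_dvd Nat.card_pos ((ZMod.natCast_eq_zero_iff _ _).mp h)
    omega
  have hray : IsRay (above K' S) n' (fun w => (a : ZMod p)⁻¹ * η' w) :=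
    (isRay_mul hη' _).mono_set hS'S
  refine ⟨S, n', fun v => ((Nat.card (K' ≃ₐ[K] K') : ℕ) : ZMod p)⁻¹ *
    resF (K := K) (fun w => (a : ZMod p)⁻¹ * η' w) v,
    isRay_mul (Fermat.Agent.LT.Psi.IsRay.res hray) _, fun v hv g hg => ?_⟩
  have hvS' : ∀ w : HeightOneSpectrum (𝓞 K'), w.under (𝓞 K) = v → w ∉ S' := fun w hw h =>
    hv (Finset.mem_union_left _ (Finset.mem_image.mpr ⟨w, h, hw⟩))
  have hvT : v ∉ T := fun h => hv (Finset.mem_union_right _ h)
  obtain ⟨A, hA, hF⟩ := hg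
  obtain ⟨q, hq, hqv⟩ := exists_prime_mem v
  have hAq : A.LiesOverPrime q := hA.natCast_mem_iff.mp hqv
  obtain ⟨w₁, hw₁⟩ := exists_over_of_liesOver i' hq hAq
  have hwv : w₁.under (𝓞 K) = v := hw₁.under.unique hA
  subst hwv
  obtain ⟨φ, hφ⟩ := exists_frobAt_over hw₁
  have h0 : A.IsFrobeniusAt (g ^ fdeg K w₁).1 (Ideal.absNorm w₁.asIdeal) := by
    rw [absNorm_eq_pow_fdeg (K := K) w₁]
    exact isFrobeniusAt_pow hF _
  have hφψ : ψ (res K i' φ) = ψ g ^ fdeg K w₁ := by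
    rw [← map_pow]
    exact frob_unique_of_unr ψ (hT _ hvT A hA) (g := res K i' φ) hφ h0
  -- the value of `η'` at all `w ∣ v`
  have key : ∀ w : HeightOneSpectrum (𝓞 K'), w.under (𝓞 K) = w₁.under (𝓞 K) →
      (a : ZMod p)⁻¹ * η' w = fdeg K w * (ψ g).toAdd := by
    intro w hw
    obtain ⟨τ, hτ⟩ := Fermat.Agent.LT.Psi.exists_conj_eq hw.symm
    obtain ⟨σ, hσ⟩ := Fermat.Agent.LT.Tower.Fr.exists_extend i' (i'.comp (τ : K' →+* K'))
    have hσ' : ∀ x, σ (i' x) = i' (τ x) := fun x => RingHom.congr_fun hσ x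
    have hσK : σ ∈ GK (i'.comp (algebraMap K K')) := by
      intro x
      change σ (i' (algebraMap K K' x)) = _
      rw [hσ', τ.commutes]
      rfl
    have h1 : FrobAt (conjHom i' hσK φ) w := by
      refine ⟨σ • A, ?_, ?_⟩
      · rw [← hτ]
        exact Fermat.Agent.LT.Tower.Fr.Over.conj hw₁ τ hσ'
      · rw [absNorm_eq_of_under_eq hw]
        exact isFrobeniusAt_conj hφ
    have h2 := hex w (hvS' w hw) _ h1
    have h3 : (ψ.comp (res K i')) (conjHom i' hσK φ) = ψ g ^ fdeg K w₁ := by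
      have h4 : res K i' (conjHom i' hσK φ) = ⟨σ, hσK⟩ * res K i' φ * ⟨σ, hσK⟩⁻¹ := rfl
      rw [MonoidHom.comp_apply, h4, map_mul, map_mul, map_inv, mul_comm (ψ ⟨σ, hσK⟩),
        mul_inv_cancel_right, hφψ]
    rw [h3] at h2
    have h5 := congrArg Multiplicative.toAdd h2
    rw [toAdd_pow, toAdd_pow, toAdd_ofAdd, nsmul_eq_mul, nsmul_eq_mul] at h5
    rw [← h5, (edeg_fdeg_eq hw).2, inv_mul_cancel_left₀ ha']
  apply Multiplicative.toAdd.injective
  rw [toAdd_ofAdd]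
  have hsum : resF (K := K) (fun w => (a : ZMod p)⁻¹ * η' w) (w₁.under (𝓞 K)) =
      ((Nat.card (K' ≃ₐ[K] K') : ℕ) : ZMod p) * (ψ g).toAdd := by
    rw [← sum_edeg_mul_fdeg w₁, Nat.cast_sum, Finset.sum_mul, resF]
    refine Finset.sum_congr rfl fun w hw => ?_
    rw [Set.Finite.mem_toFinset, Set.mem_ofPred_eq] at hw
    rw [key w hw, nsmul_eq_mul, Nat.cast_mul, mul_assoc, edeg, hw]
  change (ψ g).toAdd = ((Nat.card (K' ≃ₐ[K] K') : ℕ) : ZMod p)⁻¹ *
    resF (K := K) (fun w => (a : ZMod p)⁻¹ * η' w) (w₁.under (𝓞 K))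
  rw [hsum, inv_mul_cancel_left₀ hm]

end Fermat.Agent.Cor.CFTP
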