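import Fermat.Agent.Corollaries.Diff.Real
import Fermat.Agent.LT.NormPull

set_option autoImplicit false

/-!
# Class field theory of prime exponent: definitions

`K` a number field, `i : K → ℚ̄`, `G_K = GK i ≤ G_ℚ`. A continuous character `ψ : G_K → ZMod p` and a
function `η` on the places with values in `ZMod p` are matched (`Mat i η ψ`) if for almost all
places `v` the Frobenius elements at `v` are in the kernel of `ψ` if and only if `η v = 0`.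

* `exists_frob`: Frobenius' density theorem for `G_K`;
* `ker_le_of_mat`: inclusions between zero sets give inclusions between kernels.
-/

namespace Fermat.Agent.Cor.CFTP

open IsDedekindDomain NumberField
open Fermat.Agent.Frob Fermat.Agent.FrobDensity Fermat.Agent.Minkowski
open Fermat.Agent.LT.Tower.Fr
open Fermat.Agent.Cor.Diff (GK FrobAt exists_frobAt exists_nat_mem exists_nat_mem'
  finite_natCast_mem exists_emb)

/-- the group `ZMod p`, written multiplicatively -/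
abbrev C (p : ℕ) : Type := Multiplicative (ZMod p)

/-- `ψ` is trivial on the automorphisms fixing a number field (continuity). -/
def Lev {G : Subgroup GQ} {M : Type*} [Group M] (ψ : G →* M) : Prop :=
  ∃ L : IntermediateField ℚ (AlgebraicClosure ℚ), FiniteDimensional ℚ L ∧
    ∀ g : G, (∀ x ∈ L, g.1 x = x) → ψ g = 1

lemma Lev.pow {G : Subgroup GQ} {M : Type*} [CommGroup M] {ψ : G →* M} (h : Lev ψ) (n : ℕ) :
    Lev (ψ ^ n) := by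
  obtain ⟨L, hL, h⟩ := h
  exact ⟨L, hL, fun g hg => by rw [MonoidHom.pow_apply, h g hg, one_pow]⟩

lemma Lev.mul {G : Subgroup GQ} {M : Type*} [CommGroup M] {ψ ψ' : G →* M} (h : Lev ψ)
    (h' : Lev ψ') : Lev (ψ * ψ') := by
  obtain ⟨L, hL, h⟩ := h
  obtain ⟨L', hL', h'⟩ := h'
  refine ⟨L ⊔ L', IntermediateField.finiteDimensional_sup L L', fun g hg => ?_⟩
  rw [MonoidHom.mul_apply, h g fun x hx => hg x ((le_sup_left : L ≤ L ⊔ L') hx),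
    h' g fun x hx => hg x ((le_sup_right : L' ≤ L ⊔ L') hx), one_mul]

section Mat

variable {K : Type*} [Field K] [NumberField K] {p : ℕ}

/-- `η` and `ψ` have the same zeros: for almost all `v`, `η v = 0` iff `ψ (Frob v) = 1`. -/
def Mat (i : K →+* AlgebraicClosure ℚ) (η : HeightOneSpectrum (𝓞 K) → ZMod p)
    (ψ : GK i →* C p) : Prop :=
  ∃ T : Finset (HeightOneSpectrum (𝓞 K)), ∀ v, v ∉ T → ∀ g : GK i, FrobAt g v →
    (η v = 0 ↔ ψ g = 1)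

/-- **Frobenius' density theorem** for `G_K`: every `g` is, on a given number field, a power of a
Frobenius element which is a power of `g`; the place can be chosen of degree one, outside a given
finite set. -/
theorem exists_frob {i : K →+* AlgebraicClosure ℚ} (g : GK i)
    (L₂ : IntermediateField ℚ (AlgebraicClosure ℚ)) [FiniteDimensional ℚ L₂] {D : ℕ} (hD : D ≠ 0) :
    ∃ (v : HeightOneSpectrum (𝓞 K)) (φ : GK i) (k k' : ℕ), (D : 𝓞 K) ∉ v.asIdeal ∧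
      FrobAt φ v ∧ (Ideal.absNorm v.asIdeal).Prime ∧
      ∀ {M : Type} [Group M] (ψ : GK i →* M), (∀ h : GK i, (∀ x ∈ L₂, h.1 x = x) → ψ h = 1) →
        ψ φ = ψ g ^ k ∧ ψ g = ψ φ ^ k' := by
  classical
  obtain ⟨D₁, hD₁, hgood⟩ := exists_good K
  let L₁ : IntermediateField ℚ (AlgebraicClosure ℚ) := i.toRatAlgHom.fieldRange
  have hL₁ : FiniteDimensional ℚ L₁ :=
    LinearEquiv.finiteDimensional
      (AlgEquiv.ofInjectiveField i.toRatAlgHom).toLinearEquiv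
  let L : IntermediateField ℚ (AlgebraicClosure ℚ) := L₁ ⊔ L₂
  have hL : FiniteDimensional ℚ L := IntermediateField.finiteDimensional_sup _ _
  have hLi : ∀ x : K, i x ∈ L := fun x => (le_sup_left : L₁ ≤ L) ⟨x, rfl⟩
  obtain ⟨q, hq, hqS, A, hA, φ, hφ, k, k', hk, hk'⟩ := exists_frobenius_on L g.1
    {q : ℕ | q ∣ D * D₁} (by
      refine (Nat.divisors (D * D₁)).finite_toSet.subset fun q hq => ?_
      exact Nat.mem_divisors.mpr ⟨hq, mul_ne_zero hD hD₁⟩)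
  have hqD : ¬ q ∣ D := fun h => hqS (Dvd.dvd.mul_right h D₁)
  have hqD₁ : ¬ q ∣ D₁ := fun h => hqS (Dvd.dvd.mul_left h D)
  have hφK : ∀ x, φ (i x) = i x := by
    intro x
    rw [hk _ (hLi x)]
    exact ((GK i).pow_mem g.2 k) x
  obtain ⟨v, hv⟩ := exists_over_of_liesOver i hq hA
  have hqv : (q : 𝓞 K) ∈ v.asIdeal := hv.natCast_mem_iff.mpr hA
  obtain ⟨f, -, hf⟩ := exists_absNorm_eq_pow hq hqv
  have hf1 : f = 1 := by
    have h1 := (hv.frob_pow_comp_iff hq (hgood q hq hqD₁) hA hφ hf 1).mp (by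
      rw [pow_one]
      exact RingHom.ext hφK)
    exact Nat.dvd_one.mp h1
  rw [hf1, pow_one] at hf
  refine ⟨v, ⟨φ, hφK⟩, k, k', ?_, ⟨A, hv, by rw [hf]; exact hφ⟩, by rw [hf]; exact hq, ?_⟩
  · intro hDv
    have hcop : IsCoprime (q : ℤ) (D : ℤ) :=
      Nat.isCoprime_iff_coprime.mpr ((Nat.Prime.coprime_iff_not_dvd hq).mpr hqD)
    obtain ⟨a, b, hab⟩ := hcop
    apply v.isPrime.ne_top
    rw [Ideal.eq_top_iff_one]
    have h2 : (1 : 𝓞 K) = (a : 𝓞 K) * (q : 𝓞 K) + (b : 𝓞 K) * (D : 𝓞 K) := by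
      exact_mod_cast congrArg (fun z : ℤ => (z : 𝓞 K)) hab.symm
    rw [h2]
    exact v.asIdeal.add_mem (v.asIdeal.mul_mem_left _ hqv) (v.asIdeal.mul_mem_left _ hDv)
  · intro M _ ψ hψ
    constructor
    · have h1 : ψ (⟨φ, hφK⟩ * (g ^ k)⁻¹) = 1 := by
        -- conjugate form: `φ⁻¹ g ^ k` fixes `L₂`
        have h2 : ψ ((⟨φ, hφK⟩ : GK i)⁻¹ * g ^ k) = 1 := by
          apply hψ
          intro x hx
          have h3 := hk x ((le_sup_right : L₂ ≤ L) hx)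
          change φ⁻¹ ((g ^ k : GK i).1 x) = x
          have h4 : ((g ^ k : GK i) : GQ) = g.1 ^ k := rfl
          rw [h4, ← h3]
          exact φ.symm_apply_apply x
        rw [map_mul, map_inv, inv_mul_eq_one] at h2
        rw [map_mul, map_inv, h2, mul_inv_cancel]
      rw [map_mul, map_inv, map_pow, mul_inv_eq_one] at h1
      exact h1
    · have h2 : ψ (g⁻¹ * (⟨φ, hφK⟩ : GK i) ^ k') = 1 := by
        apply hψ
        intro x hx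
        have h3 := hk' x ((le_sup_right : L₂ ≤ L) hx)
        change g.1⁻¹ (((⟨φ, hφK⟩ : GK i) ^ k').1 x) = x
        have h4 : (((⟨φ, hφK⟩ : GK i) ^ k' : GK i) : GQ) = φ ^ k' := rfl
        rw [h4, ← h3]
        exact g.1.symm_apply_apply x
      rw [map_mul, map_inv, map_pow, inv_mul_eq_one] at h2
      exact h2

/-- Three characters. -/
theorem ker_le_of_mat {i : K →+* AlgebraicClosure ℚ}
    {η₁ η₂ η₃ : HeightOneSpectrum (𝓞 K) → ZMod p} {ψ₁ ψ₂ ψ₃ : GK i →* C p}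
    (h₁ : Mat i η₁ ψ₁) (h₂ : Mat i η₂ ψ₂) (h₃ : Mat i η₃ ψ₃)
    (l₁ : Lev ψ₁) (l₂ : Lev ψ₂) (l₃ : Lev ψ₃) (T : Finset (HeightOneSpectrum (𝓞 K)))
    (hT : ∀ v, v ∉ T → η₁ v = 0 → η₂ v = 0 → η₃ v = 0) (g : GK i) (hg₁ : ψ₁ g = 1)
    (hg₂ : ψ₂ g = 1) : ψ₃ g = 1 := by
  classical
  obtain ⟨T₁, h₁⟩ := h₁
  obtain ⟨T₂, h₂⟩ := h₂
  obtain ⟨T₃, h₃⟩ := h₃
  obtain ⟨L₁, hL₁, l₁⟩ := l₁
  obtain ⟨L₂, hL₂, l₂⟩ := l₂
  obtain ⟨L₃, hL₃, l₃⟩ := l₃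
  obtain ⟨D, hD, hDv⟩ := exists_nat_mem ((T ∪ T₁ ∪ T₂ ∪ T₃ : Finset (HeightOneSpectrum (𝓞 K))) :
    Set (HeightOneSpectrum (𝓞 K))) (Finset.finite_toSet _)
  have hL : FiniteDimensional ℚ (L₁ ⊔ L₂ ⊔ L₃ : IntermediateField ℚ (AlgebraicClosure ℚ)) := by
    have := IntermediateField.finiteDimensional_sup L₁ L₂
    exact IntermediateField.finiteDimensional_sup _ _
  obtain ⟨v, φ, k, k', hv, hφ, -, h⟩ := exists_frob g (L₁ ⊔ L₂ ⊔ L₃) hD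
  have hvT : v ∉ T ∪ T₁ ∪ T₂ ∪ T₃ := fun h => hv (hDv v h)
  simp only [Finset.mem_union, not_or] at hvT
  obtain ⟨⟨⟨hvT, hv₁⟩, hv₂⟩, hv₃⟩ := hvT
  have e₁ := (h ψ₁ fun h' hh => l₁ h' fun x hx =>
    hh x ((le_sup_left.trans le_sup_left : L₁ ≤ L₁ ⊔ L₂ ⊔ L₃) hx)).1
  have e₂ := (h ψ₂ fun h' hh => l₂ h' fun x hx =>
    hh x ((le_sup_right.trans le_sup_left : L₂ ≤ L₁ ⊔ L₂ ⊔ L₃) hx)).1
  have e₃ := (h ψ₃ fun h' hh => l₃ h' fun x hx =>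
    hh x ((le_sup_right : L₃ ≤ L₁ ⊔ L₂ ⊔ L₃) hx)).2
  rw [hg₁, one_pow] at e₁
  rw [hg₂, one_pow] at e₂
  rw [e₃, (h₃ v hv₃ φ hφ).mp (hT v hvT ((h₁ v hv₁ φ hφ).mpr e₁) ((h₂ v hv₂ φ hφ).mpr e₂)), one_pow]

/-- Two characters. -/
theorem ker_le_of_mat' {i : K →+* AlgebraicClosure ℚ}
    {η₁ η₃ : HeightOneSpectrum (𝓞 K) → ZMod p} {ψ₁ ψ₃ : GK i →* C p}
    (h₁ : Mat i η₁ ψ₁) (h₃ : Mat i η₃ ψ₃) (l₁ : Lev ψ₁) (l₃ : Lev ψ₃)
    (T : Finset (HeightOneSpectrum (𝓞 K)))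
    (hT : ∀ v, v ∉ T → η₁ v = 0 → η₃ v = 0) (g : GK i) (hg₁ : ψ₁ g = 1) : ψ₃ g = 1 :=
  ker_le_of_mat h₁ h₁ h₃ l₁ l₁ l₃ T (fun v hv h _ => hT v hv h) g hg₁ hg₁

/-- Inclusions between kernels give inclusions between zero sets. -/
theorem zeros_of_ker_le {i : K →+* AlgebraicClosure ℚ}
    {η₁ η₂ η₃ : HeightOneSpectrum (𝓞 K) → ZMod p} {ψ₁ ψ₂ ψ₃ : GK i →* C p}
    (h₁ : Mat i η₁ ψ₁) (h₂ : Mat i η₂ ψ₂) (h₃ : Mat i η₃ ψ₃)
    (h : ∀ g, ψ₁ g = 1 → ψ₂ g = 1 → ψ₃ g = 1) :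
    ∃ T : Finset (HeightOneSpectrum (𝓞 K)), ∀ v, v ∉ T → η₁ v = 0 → η₂ v = 0 → η₃ v = 0 := by
  classical
  obtain ⟨T₁, h₁⟩ := h₁
  obtain ⟨T₂, h₂⟩ := h₂
  obtain ⟨T₃, h₃⟩ := h₃
  obtain ⟨DF, hDF, hfrob⟩ := exists_frobAt i
  refine ⟨T₁ ∪ T₂ ∪ T₃ ∪ (finite_natCast_mem hDF).toFinset, fun v hv e₁ e₂ => ?_⟩
  simp only [Finset.mem_union, not_or, Set.Finite.mem_toFinset, Set.mem_ofPred_eq] at hv
  obtain ⟨⟨⟨hv₁, hv₂⟩, hv₃⟩, hvF⟩ := hv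
  obtain ⟨g, hg⟩ := hfrob v hvF
  exact (h₃ v hv₃ g hg).mpr (h g ((h₁ v hv₁ g hg).mp e₁) ((h₂ v hv₂ g hg).mp e₂))

end Mat

/-! ### Characters of order `p` -/

section Chars

variable {p : ℕ} [hp : Fact p.Prime] {G : Type*} [Group G]

lemma C.pow_p (x : C p) : x ^ p = 1 := by
  apply Multiplicative.toAdd.injective
  rw [toAdd_pow, toAdd_one, nsmul_eq_mul, CharP.cast_eq_zero, zero_mul]

lemma exists_pow_eq {x : C p} (hx : x ≠ 1) (y : C p) : ∃ c : ℕ, y = x ^ c := by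
  have hx' : x.toAdd ≠ 0 := fun h => hx (toAdd_eq_zero.mp h)
  refine ⟨(y.toAdd / x.toAdd).val, ?_⟩
  apply Multiplicative.toAdd.injective
  rw [toAdd_pow, nsmul_eq_mul, ZMod.natCast_val, ZMod.cast_id', id_eq, div_mul_cancel₀ _ hx']

/-- Two characters of order `p` with `ker κ₁ ≤ ker κ`. -/
lemma eq_pow_of_ker (κ κ₁ : G →* C p) (h : ∀ g, κ₁ g = 1 → κ g = 1) :
    ∃ c : ℕ, κ = κ₁ ^ c := by
  by_cases h1 : ∀ g, κ₁ g = 1
  · exact ⟨0, MonoidHom.ext fun g => by rw [pow_zero]; exact h g (h1 g)⟩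
  push Not at h1
  obtain ⟨g₁, hg₁⟩ := h1
  obtain ⟨c, hc⟩ := exists_pow_eq hg₁ (κ g₁)
  refine ⟨c, MonoidHom.ext fun g => ?_⟩
  obtain ⟨d, hd⟩ := exists_pow_eq hg₁ (κ₁ g)
  have h2 := h (g * (g₁ ^ d)⁻¹) (by rw [map_mul, map_inv, map_pow, hd, mul_inv_cancel])
  rw [map_mul, map_inv, mul_inv_eq_one, map_pow, hc, ← pow_mul, mul_comm, pow_mul, ← hd] at h2
  rw [h2, MonoidHom.pow_apply]

/-- A character trivial on `ker κ₁ ∩ ker κ₂` is `κ₁ ^ a κ₂ ^ b`. -/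
lemma eq_pow_mul_pow_of_ker (κ κ₁ κ₂ : G →* C p) (h : ∀ g, κ₁ g = 1 → κ₂ g = 1 → κ g = 1) :
    ∃ a b : ℕ, κ = κ₁ ^ a * κ₂ ^ b := by
  obtain ⟨b, h1⟩ := eq_pow_of_ker (κ.comp κ₁.ker.subtype) (κ₂.comp κ₁.ker.subtype)
    (fun g hg => h g g.2 hg)
  obtain ⟨a, h2⟩ := eq_pow_of_ker (κ * (κ₂ ^ b)⁻¹) κ₁ (fun g hg => by
    have h3 := DFunLike.congr_fun h1 (⟨g, hg⟩ : κ₁.ker)
    have h4 : κ g = κ₂ g ^ b := h3
    rw [MonoidHom.mul_apply, MonoidHom.inv_apply, MonoidHom.pow_apply, h4, mul_inv_cancel])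
  exact ⟨a, b, by rw [← h2, inv_mul_cancel_right]⟩

end Chars

end Fermat.Agent.Cor.CFTP
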