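import Fermat.Agent.Corollaries.CFTP.Field
import Fermat.Agent.Corollaries.CFTP.ConvKum
import Fermat.Agent.CFT.Global2.Unramified
import Fermat.Agent.CFT.Global2.Second2

set_option autoImplicit false

/-!
# Frobenius elements and local `p`-th powers at every place

`K ∋ ζ_p`, `b ∈ Kˣ`, `α ^ p = b`, `v` ANY place of `K` (above `p` or not) such that the inertia
group fixes `α`: a Frobenius element at `v` fixes `α` if and only if `b` is a `p`-th power in the
completion `K_v` (`frob_fix_iff_mem_locPow`).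
-/

namespace Fermat.Agent.Cor.CFTP

open IsDedekindDomain NumberField WithZero
open Fermat.Agent.Frob Fermat.Agent.FrobDensity Fermat.Agent.Minkowski
open Fermat.Agent.LT.Tower.Fr
open Fermat.Agent.Cor.Diff (GK FrobAt)
open Fermat.Agent.CFT.Global (locPow mem_locPow pow_mem_locPow cong mem_cong indep_cong
  ord_eq_zero_of_mem_cong Rad irreducible_of_not_pow numberField_rad adjoin_root_rad
  exists_ord_eq_one)
open Fermat.Agent.CFT.SUnits (ord ord_eq_zero_iff valuation_eq_exp_neg_ord)
open Fermat.Agent.CFT.Places (conj conj_one conj_mul valuation_conj)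
open Fermat.Agent.CFT.FirstIneq (conj_ne_of_mem_locPow)
open Fermat.Agent.LT.NV (edeg fdeg card_stab)
open Polynomial
open scoped Pointwise

namespace LocAll

section Split

variable {K L : Type*} [Field K] [NumberField K] [Field L] [NumberField L] [Algebra K L]
  [IsGalois K L]

/-- If the place `w` of `L` is unramified over `K` with trivial decomposition group, and
`b ∈ K` is a `p`-th power in `L`, then `b` is a local `p`-th power at the place under `w`. -/
theorem mem_locPow_of_split {p : ℕ} (hp : p ≠ 0) {α : L} {b : Kˣ} (hα : α ^ p = algebraMap K L b)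
    {w : HeightOneSpectrum (𝓞 L)} (hw : ∀ τ : L ≃ₐ[K] L, conj τ w = w → τ = 1)
    (he : edeg K w = 1) : b ∈ locPow p (w.under (𝓞 K)) := by
  classical
  have hval := Fermat.Agent.CFT.Global2.Unr.valuation_algebraMap_of_unr (K := K) he
  set v := w.under (𝓞 K) with hv
  rw [mem_locPow]
  intro n
  have hα0 : α ≠ 0 := by
    rintro rfl
    rw [zero_pow hp] at hα
    exact (map_ne_zero (algebraMap K L)).mpr b.ne_zero hα.symm
  obtain ⟨π, hπ⟩ := exists_ord_eq_one v
  set c : Lˣ := Units.map (algebraMap K L : K →* L) (π ^ (n + 1)) with hc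
  obtain ⟨δ, hδ⟩ := indep_cong (Finset.univ.image (fun τ : L ≃ₐ[K] L => conj τ w)) n
    (fun w₁ => if w₁ = w then 1 else c)
  have h3 : w.valuation L ((δ : L) - 1) ≤ exp (-((n : ℤ) + 1)) := by
    have h4 := hδ w (Finset.mem_image.mpr ⟨1, Finset.mem_univ _, conj_one w⟩)
    rw [if_pos rfl, div_one, mem_cong] at h4
    exact h4
  have h4 : ∀ τ : L ≃ₐ[K] L, τ ≠ 1 → w.valuation L (τ (δ : L)) = exp (-((n : ℤ) + 1)) := by
    intro τ hτ
    have hw' : conj τ⁻¹ w ≠ w := fun h => hτ (inv_eq_one.mp (hw _ h))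
    have h5 := hδ (conj τ⁻¹ w) (Finset.mem_image.mpr ⟨τ⁻¹, Finset.mem_univ _, rfl⟩)
    rw [if_neg hw'] at h5
    have h6 := ord_eq_zero_of_mem_cong h5
    rw [ord_eq_zero_iff, Units.val_div_eq_div_val, map_div₀] at h6
    have h7 : (conj τ⁻¹ w).valuation L (c : L) = exp (-((n : ℤ) + 1)) := by
      have h8 : τ⁻¹ (c : L) = c := (τ⁻¹).commutes _
      rw [← h8, valuation_conj, hc, Units.coe_map]
      change w.valuation L (algebraMap K L ((π ^ (n + 1) : Kˣ) : K)) = _
      rw [hval, Units.val_pow_eq_pow_val, map_pow, valuation_eq_exp_neg_ord, hπ, ← exp_nsmul]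
      simp
    have h9 : (conj τ⁻¹ w).valuation L (δ : L) = exp (-((n : ℤ) + 1)) := by
      rw [← h7]
      exact (div_eq_one_iff_eq ((Valuation.ne_zero_iff _).mpr c.ne_zero)).mp h6
    have h10 : τ⁻¹ (τ (δ : L)) = δ := τ.symm_apply_apply _
    rw [← h9]
    conv_rhs => rw [← h10]
    rw [valuation_conj]
  -- the conjugates of `α` have the same valuation
  have hατ : ∀ τ : L ≃ₐ[K] L, w.valuation L (τ α) = w.valuation L α := by
    intro τ
    have h5 : w.valuation L (τ α) ^ p = w.valuation L α ^ p := by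
      rw [← map_pow, ← map_pow, ← map_pow, hα, AlgEquiv.commutes]
    exact (pow_left_inj₀ zero_le zero_le hp).mp h5
  set y₀ : K := Algebra.trace K L (α * δ) with hy₀
  have hsum : algebraMap K L y₀ = α * δ +
      ∑ τ ∈ Finset.univ.erase (1 : L ≃ₐ[K] L), τ α * τ (δ : L) := by
    rw [hy₀, trace_eq_sum_automorphisms,
      ← Finset.add_sum_erase Finset.univ _ (Finset.mem_univ (1 : L ≃ₐ[K] L))]
    simp only [map_mul, AlgEquiv.one_apply]
  have h5 : w.valuation L (algebraMap K L y₀ - α) ≤
      exp (-((n : ℤ) + 1)) * w.valuation L α := by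
    have h6 : algebraMap K L y₀ - α = ((δ : L) - 1) * α +
        ∑ τ ∈ Finset.univ.erase (1 : L ≃ₐ[K] L), τ α * τ (δ : L) := by
      rw [hsum]
      ring
    rw [h6]
    refine (Valuation.map_add _ _ _).trans (max_le ?_ ?_)
    · rw [map_mul]
      exact mul_le_mul_left h3 _
    · refine Valuation.map_sum_le _ fun τ hτ => ?_
      rw [map_mul, hατ, h4 τ (Finset.ne_of_mem_erase hτ), mul_comm]
  have hvα : w.valuation L α ≠ 0 := (Valuation.ne_zero_iff _).mpr hα0
  set r := algebraMap K L y₀ / α with hr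
  have h6 : w.valuation L (r - 1) ≤ exp (-((n : ℤ) + 1)) := by
    have h7 : r - 1 = (algebraMap K L y₀ - α) / α := by
      rw [hr, sub_div, div_self hα0]
    rw [h7, map_div₀]
    exact div_le_of_le_mul₀ zero_le zero_le h5
  have h7 : w.valuation L (r - 1) < 1 := by
    refine lt_of_le_of_lt h6 ?_
    rw [← exp_zero, exp_lt_exp]
    omega
  have hr0 : r ≠ 0 := by
    intro h
    rw [h, zero_sub, Valuation.map_neg, map_one] at h7
    exact lt_irrefl _ h7
  have h8 : Units.mk0 r hr0 ∈ cong w n := by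
    rw [mem_cong]
    exact h6
  have h9 := inv_mem (pow_mem h8 p)
  rw [mem_cong] at h9
  have hy0 : y₀ ≠ 0 := by
    intro h
    apply hr0
    rw [hr, h, map_zero, zero_div]
  refine ⟨Units.mk0 y₀ hy0, ?_⟩
  rw [← hval, map_sub, map_one]
  convert h9 using 3
  rw [Units.val_div_eq_div_val, Units.val_pow_eq_pow_val, Units.val_mk0, map_div₀, map_pow,
    ← hα, Units.val_inv_eq_inv_val, Units.val_pow_eq_pow_val, Units.val_mk0, hr, div_pow, inv_div]

end Split

/-- The Kummer extension `L = K(α)` of degree `p`, with its embedding and the automorphism given by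
an element `g` of `G_K` which moves `α`. -/
theorem exists_ext {p : ℕ} (hp : p.Prime) {K : Type} [Field K] [NumberField K] {ζ : K}
    (hζ : IsPrimitiveRoot ζ p) {i : K →+* AlgebraicClosure ℚ} {b : Kˣ} {α : AlgebraicClosure ℚ}
    (hα : α ^ p = i b) {g : GK i} (hne : g.1 α ≠ α) :
    ∃ (L : Type) (_ : Field L) (_ : NumberField L) (_ : Algebra K L) (_ : IsGalois K L)
      (j : L →+* AlgebraicClosure ℚ) (r : L) (ζ' : K) (σ : L ≃ₐ[K] L),
      j.comp (algebraMap K L) = i ∧ j r = α ∧ r ^ p = algebraMap K L b ∧ IsPrimitiveRoot ζ' p ∧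
      σ r = algebraMap K L ζ' * r ∧ (∀ x : L, j (σ x) = g.1 (j x)) ∧
      ∀ τ : GQ, (∀ x : K, τ (i x) = i x) → τ α = α → ∀ x : L, τ (j x) = j x := by
  have : NeZero p := ⟨hp.ne_zero⟩
  have hζi : IsPrimitiveRoot (i ζ) p := hζ.map_of_injective i.injective
  have hα0 : α ≠ 0 := by
    rintro rfl
    rw [zero_pow hp.ne_zero] at hα
    exact b.ne_zero (i.injective (by rw [← hα, map_zero]))
  -- `b` is not a `p`-th power in `K`
  have hna : ∀ c : Kˣ, c ^ p ≠ b := by
    rintro c rfl
    apply hne
    have hc0 : i c ≠ 0 := by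
      rw [Ne, map_eq_zero]
      exact c.ne_zero
    obtain ⟨k, -, hk⟩ := hζi.eq_pow_of_pow_eq_one (ξ := α / i c) (by
      rw [div_pow, hα, Units.val_pow_eq_pow_val, map_pow, div_self (pow_ne_zero _ hc0)])
    have h1 : α = i (ζ ^ k * c) := by
      rw [map_mul, map_pow, hk, div_mul_cancel₀ _ hc0]
    rw [h1]
    exact g.2 _
  -- the root of unity by which `g` acts
  obtain ⟨k, -, hk⟩ := hζi.eq_pow_of_pow_eq_one (ξ := g.1 α / α) (by
    rw [div_pow, ← map_pow, hα, g.2, div_self]
    rw [← hα]
    exact pow_ne_zero _ hα0)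
  have hgα : g.1 α = i (ζ ^ k) * α := by
    rw [map_pow, hk, div_mul_cancel₀ _ hα0]
  have hζ' : IsPrimitiveRoot (ζ ^ k) p := by
    have hpf : Fact p.Prime := ⟨hp⟩
    have h1 : orderOf (ζ ^ k) = p := by
      apply orderOf_eq_prime
      · rw [← pow_mul, mul_comm, pow_mul, hζ.pow_eq_one, one_pow]
      · intro h1
        apply hne
        rw [hgα, h1, map_one, one_mul]
    have h2 := IsPrimitiveRoot.orderOf (ζ ^ k)
    rwa [h1] at h2
  -- the extension `L = K(α)`
  have hirr : Irreducible (X ^ p - Polynomial.C (b : K)) := irreducible_of_not_pow hp hna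
  have : Fact (Irreducible (X ^ p - Polynomial.C (b : K))) := ⟨hirr⟩
  have : NumberField (Rad p b) := numberField_rad hp
  have hr : (AdjoinRoot.root (X ^ p - Polynomial.C (b : K)) : Rad p b) ^ p =
    algebraMap K (Rad p b) (b : K) := root_X_pow_sub_C_pow p (b : K)
  obtain ⟨hgal, σ, hσ, hσgen, hσord⟩ := Fermat.Agent.CFT.KummerExt.exists_gen hp hζ'
    (a := (b : K)) (fun c hc => by
      have hc0 : c ≠ 0 := by
        rintro rfl
        rw [zero_pow hp.ne_zero] at hc
        exact b.ne_zero hc.symm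
      exact hna (Units.mk0 c hc0) (Units.ext (by simpa using hc)))
    hr (adjoin_root_rad p b)
  let j : Rad p b →+* AlgebraicClosure ℚ := AdjoinRoot.lift i α (by
    rw [eval₂_sub, eval₂_X_pow, eval₂_C, hα, sub_self])
  have hjr : j (AdjoinRoot.root _) = α := AdjoinRoot.lift_root _
  have hjK : ∀ x : K, j (algebraMap K (Rad p b) x) = i x := fun x => AdjoinRoot.lift_of _
  have hjσ : ∀ x : Rad p b, j (σ x) = g.1 (j x) := by
    have h1 : j.comp (σ : Rad p b →+* Rad p b) = (gh g.1).comp j := by
      apply AdjoinRoot.ringHom_ext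
      · ext x
        change j (σ (algebraMap K (Rad p b) x)) = g.1 (j (algebraMap K (Rad p b) x))
        rw [AlgEquiv.commutes, hjK, g.2]
      · change j (σ (AdjoinRoot.root _)) = g.1 (j (AdjoinRoot.root _))
        rw [hσ, map_mul, hjK, hjr, hgα]
    exact fun x => RingHom.congr_fun h1 x
  refine ⟨Rad p b, inferInstance, inferInstance, inferInstance, hgal, j, AdjoinRoot.root _, ζ ^ k,
    σ, RingHom.ext hjK, hjr, hr, hζ', hσ, hjσ, fun τ hτ hτα => ?_⟩
  have h1 : (gh τ).comp j = j := by
    apply AdjoinRoot.ringHom_ext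
    · ext x
      change τ (j (algebraMap K (Rad p b) x)) = j (algebraMap K (Rad p b) x)
      rw [hjK, hτ]
    · change τ (j (AdjoinRoot.root _)) = j (AdjoinRoot.root _)
      rw [hjr, hτα]
  exact fun x => RingHom.congr_fun h1 x

end LocAll

/-- **Frobenius elements and local `p`-th powers, at every place**: `K ∋ ζ_p`, `α ^ p = b`, `v` any
place of `K` (above `p` or not) such that the inertia elements of `G_K` at `A` (over `v`) fix `α`.
A Frobenius element at `A` fixes `α` if and only if `b` is a `p`-th power in the completion. -/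
theorem frob_fix_iff_mem_locPow {p : ℕ} [hp : Fact p.Prime] {K : Type} [Field K] [NumberField K]
    {ζ : K} (hζ : IsPrimitiveRoot ζ p) {i : K →+* AlgebraicClosure ℚ} {b : Kˣ}
    {α : AlgebraicClosure ℚ} (hα : α ^ p = i b) {v : HeightOneSpectrum (𝓞 K)}
    {A : ValuationSubring (AlgebraicClosure ℚ)} (hA : Over i A v)
    (hu : ∀ g : GK i, g.1 ∈ A.inertiaSubgroupIn ℚ → g.1 α = α) {g : GK i}
    (hg : A.IsFrobeniusAt g.1 (Ideal.absNorm v.asIdeal)) : g.1 α = α ↔ b ∈ locPow p v := by
  have hpp := hp.out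
  have : NeZero p := ⟨hpp.ne_zero⟩
  obtain ⟨q, hq, hqv⟩ := exists_prime_mem v
  have hAq : A.LiesOverPrime q := hA.natCast_mem_iff.mp hqv
  constructor
  · intro hfix
    by_cases hall : ∀ g' : GK i, g'.1 α = α
    · obtain ⟨c, hc⟩ := ConvKum.mem_range_of_fixed i hall
      have hc0 : c ≠ 0 := by
        rintro rfl
        rw [map_zero] at hc
        rw [← hc, zero_pow hpp.ne_zero] at hα
        exact b.ne_zero (i.injective (by rw [← hα, map_zero]))
      have h1 : Units.mk0 c hc0 ^ p = b := by
        apply Units.ext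
        apply i.injective
        rw [Units.val_pow_eq_pow_val, Units.val_mk0, map_pow, hc, hα]
      rw [← h1]
      exact pow_mem_locPow p v _
    · push Not at hall
      obtain ⟨g', hg'⟩ := hall
      obtain ⟨L, _, _, _, hgal, j, r, ζ', σ, hj, hjr, hr, hζ', hσ, hjσ, hτ⟩ :=
        LocAll.exists_ext hpp hζ hα hg'
      have hjx : ∀ x : K, j (algebraMap K L x) = i x := fun x => RingHom.congr_fun hj x
      obtain ⟨w, hw⟩ := exists_over_of_liesOver j hq hAq
      have hwv : w.under (𝓞 K) = v := by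
        have h1 := hw.under (F := K)
        rw [hj] at h1
        exact h1.unique hA
      have hin : ∀ τ ∈ A.inertiaSubgroupIn ℚ,
          (∀ x : K, τ (j (algebraMap K L x)) = j (algebraMap K L x)) →
          ∀ x : L, τ (j x) = j x := by
        intro τ hτI hτK
        have hτK' : ∀ x : K, τ (i x) = i x := fun x => by
          have := hτK x
          rwa [hjx] at this
        exact hτ τ hτK' (hu ⟨τ, hτK'⟩ hτI)
      have he : edeg K w = 1 := edeg_eq_one_of_inertia hw hin
      have hf : fdeg K w = 1 := by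
        rw [fdeg_eq_one_iff hw hin (g := g.1) (fun x => by rw [hjx, g.2]) (by rw [hwv]; exact hg)]
        exact hτ g.1 g.2 hfix
      have hcard := card_stab (K := K) w
      rw [he, hf, mul_one] at hcard
      have hw1 : ∀ τ : L ≃ₐ[K] L, conj τ w = w → τ = 1 := by
        intro τ h1
        have hsub : Subsingleton {σ : L ≃ₐ[K] L // conj σ w = w} :=
          (Nat.card_eq_one_iff_unique.mp hcard).1
        exact congrArg Subtype.val
          (Subsingleton.elim (⟨τ, h1⟩ : {σ : L ≃ₐ[K] L // conj σ w = w}) ⟨1, conj_one w⟩)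
      rw [← hwv]
      exact LocAll.mem_locPow_of_split hpp.ne_zero hr hw1 he
  · intro hloc
    by_contra hne
    obtain ⟨L, _, _, _, hgal, j, r, ζ', σ, hj, hjr, hr, hζ', hσ, hjσ, -⟩ :=
      LocAll.exists_ext hpp hζ hα hne
    obtain ⟨w, hw⟩ := exists_over_of_liesOver j hq hAq
    have hwv : w.under (𝓞 K) = v := by
      have h1 := hw.under (F := K)
      rw [hj] at h1
      exact h1.unique hA
    have hconj : conj σ w = w := by
      ext x
      rw [Fermat.Agent.CFT.Places.mem_conj, over_iff.mp hw, over_iff.mp hw]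
      set y : 𝓞 L := (RingOfIntegers.mapRingEquiv (σ : L ≃+* L)).symm x
      have h1 : (x : L) = σ (y : L) := (σ.apply_symm_apply (x : L)).symm
      rw [h1, hjσ]
      have h2 : g.1 • A = A := mem_decomposition_iff.mp hg.mem_decompositionSubgroup
      conv_rhs => rw [← h2]
      exact mem_nonunits_smul_iff.symm
    exact conj_ne_of_mem_locPow hpp hζ' hr hloc hσ w hwv hconj

end Fermat.Agent.Cor.CFTP
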