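import Fermat.Agent.Corollaries.CFTP.Hilbert
import Fermat.Agent.Corollaries.CFTP.LocAll

set_option autoImplicit false

/-!
# Matching at every place outside the modulus

`K` totally complex, `ζ_p ∈ K`: if `η` (a ray character with modulus on `S`) and `ψ` have the same
zeros at almost all places then they have the same zeros at all `v ∉ S`, those above `p` included.
-/

namespace Fermat.Agent.Cor.CFTP

open IsDedekindDomain NumberField
open Fermat.Agent.LT
open Fermat.Agent.Cor.Diff (GK FrobAt)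
open Fermat.Agent.CFT.Global (exists_ord_eq_one)
open Fermat.Agent.CFT.Global2

variable {p : ℕ} [hp : Fact p.Prime]

/-- **Strong matching.** -/
theorem mat_strong {K : Type} [Field K] [NumberField K] [IsTotallyComplex K] {ζ : K}
    (hζ : IsPrimitiveRoot ζ p) {i : K →+* AlgebraicClosure ℚ}
    {S : Finset (HeightOneSpectrum (𝓞 K))} {n : ℕ} {η : HeightOneSpectrum (𝓞 K) → ZMod p}
    (hη : IsRay S n η) {ψ : GK i →* C p} (lψ : Lev ψ) (hm : Mat i η ψ)
    {v : HeightOneSpectrum (𝓞 K)} (hvS : v ∉ S) {g : GK i} (hg : FrobAt g v) :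
    η v = 0 ↔ ψ g = 1 := by
  obtain ⟨b, α, hα, hψ⟩ := ConvKum.exists_kummer hζ i ψ lψ
  obtain ⟨LS, c, hc, hpf⟩ := exists_productFormula (p := p) K hζ
  obtain ⟨C, hC, hsym⟩ := sym_eq_of_mat hζ LS hpf hc hη hα hψ lψ hm
  obtain ⟨A, hA, hF⟩ := hg
  rw [hψ, frob_fix_iff_mem_locPow hζ hα hA
    (fun g hg => (hψ g).mp (unr_of_mat_kum hζ hη lψ hm hvS hA g hg)) hF, LS.mem_locPow_iff]
  constructor
  · intro h x
    have h2 := hsym v hvS x
    rw [h, mul_zero, mul_zero] at h2
    exact toAdd_eq_zero.mp ((mul_eq_zero.mp h2).resolve_left (hc v))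
  · intro h
    obtain ⟨π, hπ⟩ := exists_ord_eq_one (K := K) v
    have h2 := hsym v hvS π
    rw [h π, toAdd_one, mul_zero, hπ, Int.cast_one, one_mul] at h2
    exact (mul_eq_zero.mp h2.symm).resolve_left hC

end Fermat.Agent.Cor.CFTP
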