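import Fermat.Agent.Corollaries.CFTP.Pull
import Fermat.Agent.Corollaries.CFTP.Strong
import Fermat.Agent.Corollaries.CFTP.Split
import Fermat.Agent.Corollaries.CFTP.AuxPrime

set_option autoImplicit false

/-!
# Artin's reciprocity law for characters of order `p`, over fields containing `ζ_p`

`K` totally complex, `ζ_p ∈ K`. If the ray character `η` and the character `ψ` of `G_K` have the
same zeros (almost everywhere) then, after multiplication of `ψ` by a scalar, `ψ(Frob_v) = η(v)`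
for ALL `v` outside the modulus of `η`, those above `p` included.
-/

namespace Fermat.Agent.Cor.CFTP

open IsDedekindDomain NumberField
open Fermat.Agent.Frob Fermat.Agent.FrobDensity Fermat.Agent.Minkowski
open Fermat.Agent.LT Fermat.Agent.LT.Tower.Fr
open Fermat.Agent.Cor.Diff (GK FrobAt finite_natCast_mem exists_nat_mem)
open Fermat.Agent.CFT.Global (above mem_above)
open Fermat.Agent.LT.NV (fdeg edeg edeg_fdeg_eq pull)

variable {p : ℕ} [hp : Fact p.Prime]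

lemma natCast_mem_under {K K' : Type*} [Field K] [NumberField K] [Field K'] [NumberField K']
    [Algebra K K'] {w : HeightOneSpectrum (𝓞 K')} {m : ℕ} :
    (m : 𝓞 K) ∈ (w.under (𝓞 K)).asIdeal ↔ (m : 𝓞 K') ∈ w.asIdeal := by
  change algebraMap (𝓞 K) (𝓞 K') (m : 𝓞 K) ∈ w.asIdeal ↔ _
  rw [map_natCast]

/-- **Exactness.** -/
theorem exact_of_mat {K : Type} [Field K] [NumberField K] [IsTotallyComplex K]
    {ζ : K} (hζ : IsPrimitiveRoot ζ p) {i : K →+* AlgebraicClosure ℚ}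
    {S : Finset (HeightOneSpectrum (𝓞 K))} {n : ℕ} {η : HeightOneSpectrum (𝓞 K) → ZMod p}
    (hη : IsRay S n η) {ψ : GK i →* C p} (lψ : Lev ψ) (mψ : Mat i η ψ) :
    ∃ a : ℕ, ¬ p ∣ a ∧ ∀ v, v ∉ S → ∀ g : GK i, FrobAt g v →
      ψ g ^ a = Multiplicative.ofAdd (η v) := by
  classical
  by_cases hψ1 : ∀ g, ψ g = 1
  · refine ⟨1, hp.out.one_lt.ne' ∘ Nat.dvd_one.mp, fun v hv g hg => ?_⟩
    rw [(mat_strong hζ hη lψ mψ hv hg).mpr (hψ1 g), hψ1 g, one_pow, ofAdd_zero]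
  push Not at hψ1
  obtain ⟨g₀, hg₀⟩ := hψ1
  -- the reference character `κ₁`
  obtain ⟨L, hL, hLψ⟩ := id lψ
  obtain ⟨ℓ₁, κ₁, θ₁, S₁, n₁, hℓ₁, -, -, hθ₁, lκ₁, hex₁, g₁, hg₁, hκg₁⟩ :=
    exists_aux_fresh (p := p) i L 0
  have hψg₁ : ψ g₁ = 1 := hLψ g₁ hg₁
  obtain ⟨a, ha, T₁, hT₁⟩ := exists_scale hη hθ₁ lψ (lev_restrict lκ₁) mψ
    (κ := κ₁.comp (GK i).subtype) ⟨S₁, hex₁⟩ (by
      obtain ⟨t, ht⟩ := exists_pow_eq hκg₁ (κ₁ g₀.1)⁻¹
      refine ⟨g₀ * g₁ ^ t, ?_, ?_⟩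
      · change κ₁ (g₀.1 * g₁.1 ^ t) = 1
        rw [map_mul, map_pow, ← ht, mul_inv_cancel]
      · rw [map_mul, map_pow, hψg₁, one_pow, mul_one]
        exact hg₀) ⟨g₁, hψg₁, hκg₁⟩
  have ha' : (a : ZMod p) ≠ 0 := fun h => ha ((ZMod.natCast_eq_zero_iff _ _).mp h)
  refine ⟨a, ha, fun v₀ hv₀S g hg => ?_⟩
  -- an element on which `ψ` and `κ₁` are non-trivial
  obtain ⟨gc, hgcψ, hgcκ⟩ : ∃ gc : GK i, ψ gc ≠ 1 ∧ κ₁ gc.1 ≠ 1 := by
    by_cases h : κ₁ g₀.1 = 1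
    · refine ⟨g₀ * g₁, ?_, ?_⟩
      · rw [map_mul, hψg₁, mul_one]
        exact hg₀
      · change κ₁ (g₀.1 * g₁.1) ≠ 1
        rw [map_mul, h, one_mul]
        exact hκg₁
    · exact ⟨g₀, hg₀, h⟩
  -- the auxiliary prime `ℓ`
  obtain ⟨L₁, hL₁, hLκ⟩ := id lκ₁
  let Li : IntermediateField ℚ (AlgebraicClosure ℚ) := i.toRatAlgHom.fieldRange
  have hLi : FiniteDimensional ℚ Li :=
    LinearEquiv.finiteDimensional (AlgEquiv.ofInjectiveField i.toRatAlgHom).toLinearEquiv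
  have hLL : FiniteDimensional ℚ (L ⊔ L₁ : IntermediateField ℚ (AlgebraicClosure ℚ)) :=
    IntermediateField.finiteDimensional_sup _ _
  let N : IntermediateField ℚ (AlgebraicClosure ℚ) := Li ⊔ (L ⊔ L₁)
  have hN : FiniteDimensional ℚ N := IntermediateField.finiteDimensional_sup _ _
  have hNF : NumberField N := ⟨⟩
  obtain ⟨D, hD, hgood⟩ := exists_good N
  have hNv : 1 < Ideal.absNorm v₀.asIdeal := NumberField.HeightOneSpectrum.one_lt_absNorm v₀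
  obtain ⟨ℓ, hℓ, hDℓ, hℓN, hord⟩ := exists_prime_dvd_orderOf hp.out hNv D
  have hℓF : Fact ℓ.Prime := ⟨hℓ⟩
  have hG : Good N ℓ := hgood ℓ hℓ fun h =>
    absurd (Nat.le_of_dvd (Nat.pos_of_ne_zero hD) h) (by omega)
  have hv₀ℓ : (ℓ : 𝓞 K) ∉ v₀.asIdeal := by
    intro h
    obtain ⟨f, hf0, hf⟩ := exists_absNorm_eq_pow hℓ h
    exact hℓN (hf ▸ dvd_pow_self ℓ hf0.ne')
  have hord' : p ∣ orderOf (Recip.nres ℓ v₀) := by
    rw [← orderOf_units, Recip.nres_coe hv₀ℓ]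
    exact hord
  have hu : ∀ u : (ZMod ℓ)ˣ, ∃ h : GK i, ψ h = 1 ∧ κ₁ h.1 = 1 ∧ KW.Kap.kap ℓ h.1 = u := by
    intro u
    obtain ⟨h, hh⟩ := exists_kap_eq (algebraMap N (AlgebraicClosure ℚ)) hG u
    refine ⟨⟨h.1, fun x => h.2 ⟨i x, (le_sup_left : Li ≤ N) ⟨x, rfl⟩⟩⟩, ?_, ?_, hh⟩
    · exact hLψ _ fun x hx => h.2 ⟨x, (le_sup_left.trans le_sup_right : L ≤ N) hx⟩
    · exact hLκ _ fun x hx => h.2 ⟨x, (le_sup_right.trans le_sup_right : L₁ ≤ N) hx⟩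
  -- the field `K₂`
  obtain ⟨K₂, _, _, _, _, _, i₂, κ', θ', S', n', hi, lκ', hS', hθ', hex', hsplit, hmem1, hmemN⟩ :=
    exists_split (p := p) i hv₀ℓ hord'
  subst hi
  obtain ⟨n₂, hη₂⟩ := hη.pull (L := K₂)
  have l₁ : Lev (ψ ^ a) := lψ.pow a
  have l₂ : Lev ((ψ ^ a).comp (res K i₂)) := l₁.res
  have m₂ : Mat i₂ (pull K₂ η) ((ψ ^ a).comp (res K i₂)) := mat_pull l₁ (mψ.pow ha')
  have e' : Exact i₂ θ' κ' := ⟨S', hex'⟩
  -- elements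
  obtain ⟨h₀, hψh₀, hκh₀, hkh₀⟩ := hu (Recip.nres ℓ v₀)
  obtain ⟨hm₀, hκ'h₀⟩ := hmemN h₀ hkh₀
  set hh : GK i₂ := ⟨h₀.1, hm₀⟩ with hhh
  have hψhh : (ψ ^ a).comp (res K i₂) hh = 1 := by
    change ψ h₀ ^ a = 1
    rw [hψh₀, one_pow]
  obtain ⟨h₁, hψh₁, hκh₁, hkh₁⟩ := hu (KW.Kap.kap ℓ gc.1)⁻¹
  have hm₁ : (gc * h₁).1 ∈ GK i₂ := hmem1 _ (by
    change KW.Kap.kap ℓ (gc.1 * h₁.1) = 1
    rw [map_mul, hkh₁, mul_inv_cancel])
  set gd : GK i₂ := ⟨(gc * h₁).1, hm₁⟩ with hgd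
  have hψgd : (ψ ^ a).comp (res K i₂) gd ≠ 1 := by
    change ψ (gc * h₁) ^ a ≠ 1
    rw [map_mul, hψh₁, mul_one, Ne, C.pow_eq_one_iff ha']
    exact hgcψ
  have hκgd : κ₁ gd.1 ≠ 1 := by
    change κ₁ (gc.1 * h₁.1) ≠ 1
    rw [map_mul, hκh₁, mul_one]
    exact hgcκ
  have hκhh : κ₁ hh.1 = 1 := hκh₀
  obtain ⟨ge, hψge, hκge, hκ'ge⟩ : ∃ ge : GK i₂, (ψ ^ a).comp (res K i₂) ge ≠ 1 ∧
      κ₁ ge.1 ≠ 1 ∧ κ' ge ≠ 1 := by
    by_cases h : κ' gd = 1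
    · refine ⟨gd * hh, ?_, ?_, ?_⟩
      · rw [map_mul, hψhh, mul_one]
        exact hψgd
      · change κ₁ (gd.1 * hh.1) ≠ 1
        rw [map_mul, hκhh, mul_one]
        exact hκgd
      · rw [map_mul, h, one_mul]
        exact hκ'h₀
    · exact ⟨gd, hψgd, hκgd, h⟩
  obtain ⟨a₂, ha₂, T₂, hT₂⟩ := exists_scale hη₂ hθ' l₂ lκ' m₂ e' (by
      obtain ⟨t, ht⟩ := exists_pow_eq hκ'h₀ (κ' gd)⁻¹
      refine ⟨gd * hh ^ t, ?_, ?_⟩
      · rw [map_mul, map_pow, ← ht, mul_inv_cancel]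
      · rw [map_mul, map_pow, hψhh, one_pow, mul_one]
        exact hψgd) ⟨hh, hψhh, hκ'h₀⟩
  -- comparison of the scalars at a place of degree one
  have ha₂1 : (a₂ : ZMod p) = 1 := by
    obtain ⟨L₂, hL₂, hLκ'⟩ := id lκ'
    have hLL₂ : FiniteDimensional ℚ
        (L ⊔ L₁ ⊔ L₂ : IntermediateField ℚ (AlgebraicClosure ℚ)) :=
      IntermediateField.finiteDimensional_sup _ _
    obtain ⟨D₂, hD₂, hD₂v⟩ := exists_nat_mem
      ((T₂ ∪ above K₂ T₁ : Finset (HeightOneSpectrum (𝓞 K₂))) :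
        Set (HeightOneSpectrum (𝓞 K₂))) (Finset.finite_toSet _)
    obtain ⟨w, φ, k, k', hwD, hφ, hprime, hpow⟩ := exists_frob ge (L ⊔ L₁ ⊔ L₂) hD₂
    have hwT : w ∉ T₂ ∪ above K₂ T₁ := fun h => hwD (hD₂v w h)
    rw [Finset.mem_union, not_or, mem_above] at hwT
    have hne : ∀ (χ : GK i₂ →* C p), (∀ h : GK i₂, (∀ x ∈ L ⊔ L₁ ⊔ L₂, h.1 x = x) → χ h = 1) →
        χ ge ≠ 1 → χ φ ≠ 1 := by
      intro χ hχ h1 h2
      apply h1
      rw [(hpow χ hχ).2, h2, one_pow]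
    have hψφ : (ψ ^ a).comp (res K i₂) φ ≠ 1 := hne _ (fun h hh' => by
      change ψ (res K i₂ h) ^ a = 1
      rw [hLψ _ fun x hx => hh' x ((le_sup_left.trans le_sup_left : L ≤ L ⊔ L₁ ⊔ L₂) hx),
        one_pow]) hψge
    have hκφ : κ₁ φ.1 ≠ 1 := hne (κ₁.comp (GK i₂).subtype) (fun h hh' =>
      hLκ _ fun x hx => hh' x ((le_sup_right.trans le_sup_left : L₁ ≤ L ⊔ L₁ ⊔ L₂) hx)) hκge
    have hκ'φ : κ' φ ≠ 1 := hne κ' (fun h hh' =>
      hLκ' _ fun x hx => hh' x ((le_sup_right : L₂ ≤ L ⊔ L₁ ⊔ L₂) hx)) hκ'ge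
    have hfd : fdeg K w = 1 := by
      rw [absNorm_eq_pow_fdeg (K := K) w] at hprime
      by_contra hf
      rcases Nat.lt_or_gt_of_ne hf with h | h
      · have h0 : fdeg K w = 0 := by omega
        rw [h0, pow_zero] at hprime
        exact Nat.not_prime_one hprime
      · exact Nat.Prime.not_prime_pow h hprime
    have hnorm : Ideal.absNorm w.asIdeal = Ideal.absNorm (w.under (𝓞 K)).asIdeal := by
      rw [absNorm_eq_pow_fdeg (K := K) w, hfd, pow_one]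
    have hφK : FrobAt (res K i₂ φ) (w.under (𝓞 K)) := by
      obtain ⟨A, hA, hF⟩ := hφ
      rw [hnorm] at hF
      exact ⟨A, hA.under, hF⟩
    have e1 := hT₁ _ hwT.2 (res K i₂ φ) hφK hκφ
    have e2 := hT₂ w hwT.1 φ hφ hκ'φ
    have e3 : pull K₂ η w = η (w.under (𝓞 K)) := by rw [pull, hfd, one_smul]
    rw [e3, ← e1] at e2
    have e4 : ((ψ ^ a).comp (res K i₂) φ) ^ a₂ = (ψ ^ a).comp (res K i₂) φ := e2
    have e5 := congrArg Multiplicative.toAdd e4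
    rw [toAdd_pow, nsmul_eq_mul] at e5
    have e6 : ((ψ ^ a).comp (res K i₂) φ).toAdd ≠ 0 := fun h => hψφ (toAdd_eq_zero.mp h)
    exact mul_right_cancel₀ e6 (by rw [e5, one_mul])
  have hex₂ : ∀ w, w ∉ T₂ → ∀ g : GK i₂, FrobAt g w → κ' g ≠ 1 →
      ((ψ ^ a).comp (res K i₂) g).toAdd = pull K₂ η w := by
    intro w hw g hg hκ
    have h1 := congrArg Multiplicative.toAdd (hT₂ w hw g hg hκ)
    rw [toAdd_pow, nsmul_eq_mul, ha₂1, one_mul, toAdd_ofAdd] at h1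
    exact h1
  -- the place `w₀` of `K₂`
  have hkg : KW.Kap.kap ℓ g.1 = Recip.nres ℓ v₀ := kap_frobAt hv₀ℓ hg
  obtain ⟨hmg, hκ'g⟩ := hmemN g hkg
  obtain ⟨A, hA, hF⟩ := hg
  obtain ⟨q, hq, hqv⟩ := exists_prime_mem v₀
  have hAq : A.LiesOverPrime q := hA.natCast_mem_iff.mp hqv
  obtain ⟨w₀, hw₀⟩ := exists_over_of_liesOver i₂ hq hAq
  have hwv : w₀.under (𝓞 K) = v₀ := hw₀.under.unique hA
  obtain ⟨hθw₀, hfw₀⟩ := hsplit w₀ hwv
  have hFw : FrobAt (⟨g.1, hmg⟩ : GK i₂) w₀ := by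
    refine ⟨A, hw₀, ?_⟩
    rw [absNorm_eq_pow_fdeg (K := K) w₀, hfw₀, pow_one, hwv]
    exact hF
  have hw₀S' : w₀ ∉ S' := by
    rw [hS', ← natCast_mem_under (K := K), hwv]
    exact hv₀ℓ
  have hw₀S : w₀ ∉ above K₂ S := by
    rw [mem_above, hwv]
    exact hv₀S
  obtain ⟨c, hc⟩ := C.exists_natCast (-(pull K₂ η w₀ / θ' w₀))
  have hray : IsRay (above K₂ S ∪ S') (max n₂ n') (fun w => pull K₂ η w + (c : ZMod p) * θ' w) :=
    ((hη₂.mono (le_max_left n₂ n')).mono_set Finset.subset_union_left).add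
      (((isRay_mul hθ' (c : ZMod p)).mono (le_max_right n₂ n')).mono_set Finset.subset_union_right)
  have hmat : Mat i₂ (fun w => pull K₂ η w + (c : ZMod p) * θ' w)
      ((ψ ^ a).comp (res K i₂) * κ' ^ c) := by
    obtain ⟨T₃, hT₃⟩ := m₂
    refine ⟨T₂ ∪ S' ∪ T₃, fun w hw g hg => ?_⟩
    simp only [Finset.mem_union, not_or] at hw
    obtain ⟨⟨hw2, hwS'⟩, hw3⟩ := hw
    have h1 := hex' w hwS' g hg
    change pull K₂ η w + (c : ZMod p) * θ' w = 0 ↔ _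
    by_cases hκ : κ' g = 1
    · have h2 : θ' w = 0 := by
        rw [hκ] at h1
        exact (ofAdd_eq_one.mp h1.symm)
      rw [h2, mul_zero, add_zero, MonoidHom.mul_apply, MonoidHom.pow_apply, hκ, one_pow, mul_one]
      exact hT₃ w hw3 g hg
    · rw [← toAdd_eq_zero, MonoidHom.mul_apply, MonoidHom.pow_apply, toAdd_mul, toAdd_pow,
        nsmul_eq_mul, hex₂ w hw2 g hg hκ, h1, toAdd_ofAdd]
  have hfinal := (mat_strong (hζ.map_of_injective (algebraMap K K₂).injective) hray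
    (l₂.mul (lκ'.pow c)) hmat (by
      rw [Finset.mem_union, not_or]
      exact ⟨hw₀S, hw₀S'⟩) hFw).mp (by
      rw [hc]
      field_simp
      ring)
  have h1 := hex' w₀ hw₀S' _ hFw
  rw [MonoidHom.mul_apply, MonoidHom.pow_apply, ← toAdd_eq_zero, toAdd_mul, toAdd_pow,
    nsmul_eq_mul, h1, toAdd_ofAdd, hc] at hfinal
  have e3 : pull K₂ η w₀ = η v₀ := by rw [pull, hfw₀, one_smul, hwv]
  have h2 : ((ψ ^ a).comp (res K i₂) ⟨g.1, hmg⟩).toAdd = pull K₂ η w₀ := by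
    have h3 : -(pull K₂ η w₀ / θ' w₀) * θ' w₀ = - pull K₂ η w₀ := by
      field_simp
    rw [h3] at hfinal
    linear_combination hfinal
  rw [e3] at h2
  apply Multiplicative.toAdd.injective
  rw [toAdd_ofAdd]
  exact h2

end Fermat.Agent.Cor.CFTP
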