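import Mathlib.GroupTheory.Transfer
import Mathlib.GroupTheory.OrderOfElement
import Mathlib.Data.ZMod.Basic
import Mathlib.FieldTheory.Finite.Basic

set_option autoImplicit false

/-!
# Class field theory of prime exponent: extension of characters

Let `H` be a normal subgroup of finite index of a group `G` and `φ : H → A` a homomorphism into a
commutative group which is invariant under conjugation by `G`. The transfer `G → A` of `φ` is
`h ↦ φ h ^ [G : H]` on `H` (`transfer_apply_of_normal`). So if `A` has exponent `p`, prime to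
`[G : H]`, then `φ` can be extended to `G` (`exists_extend_of_normal`, `exists_extend`).
-/

namespace Fermat.Agent.Cor.CFTP

open Subgroup Subgroup.leftTransversals MonoidHom

section

variable {G A : Type*} [Group G] [CommGroup A] {H : Subgroup G}

/-- The transfer of an invariant homomorphism `φ : H → A`, `H` normal of finite index in `G`, is
`h ↦ φ h ^ [G : H]` on `H`. -/
theorem transfer_apply_of_normal [H.Normal] [H.FiniteIndex] (φ : H →* A)
    (hinv : ∀ (g : G) (h h' : H), (h' : G) = g * h * g⁻¹ → φ h' = φ h) (h : H) :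
    MonoidHom.transfer φ (h : G) = φ h ^ H.index := by
  classical
  let _ := H.fintypeQuotientOfFiniteIndex
  have hq : ∀ q : G ⧸ H, (h : G)⁻¹ • q = q := by
    intro q
    obtain ⟨g, rfl⟩ := QuotientGroup.mk_surjective q
    rw [MulAction.Quotient.smul_coe, QuotientGroup.eq, smul_eq_mul, mul_inv_rev, inv_inv]
    simpa [mul_assoc] using Subgroup.Normal.conj_mem ‹H.Normal› (h : G) h.2 g⁻¹
  rw [MonoidHom.transfer_def φ (default : H.LeftTransversal) (h : G)]
  unfold Subgroup.leftTransversals.diff
  have : ∀ q : G ⧸ H, ∀ hm, φ ⟨((default : H.LeftTransversal).2.leftQuotientEquiv q : G)⁻¹ *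
      ((h : G) • (default : H.LeftTransversal)).2.leftQuotientEquiv q, hm⟩ = φ h := by
    intro q hm
    refine hinv ((default : H.LeftTransversal).2.leftQuotientEquiv q : G)⁻¹ h _ ?_
    simp only [Subgroup.smul_apply_eq_smul_apply_inv_smul, hq, smul_eq_mul, inv_inv, mul_assoc]
  rw [Finset.prod_congr rfl fun q _ => this q _, Finset.prod_const, Finset.card_univ,
    Subgroup.index_eq_card, Nat.card_eq_fintype_card]

/-- **Extension of characters of exponent `p` from a normal subgroup of finite index prime to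
`p`**: they extend if and only if they are invariant under conjugation. -/
theorem exists_extend_of_normal [H.Normal] [H.FiniteIndex] {p : ℕ} (hp : p.Coprime H.index)
    (hA : ∀ a : A, a ^ p = 1) (φ : H →* A)
    (hinv : ∀ (g : G) (h h' : H), (h' : G) = g * h * g⁻¹ → φ h' = φ h) :
    ∃ ψ : G →* A, ∀ h : H, ψ h = φ h := by
  obtain ⟨k, hk⟩ : ∃ k : ℕ, H.index * k ≡ 1 [MOD p] := by
    rcases Nat.eq_zero_or_pos p with rfl | hp0
    · exact ⟨1, by rw [(Nat.coprime_zero_left _).1 hp]⟩
    · rcases Nat.eq_or_lt_of_le (Nat.succ_le_of_lt hp0) with h1 | h1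
      · exact ⟨0, by rw [← h1]; exact Nat.modEq_one⟩
      · obtain ⟨m, -, hm⟩ := Nat.exists_mul_mod_eq_one_of_coprime hp.symm h1
        exact ⟨m, by rw [Nat.ModEq, hm, Nat.mod_eq_of_lt h1]⟩
  refine ⟨(MonoidHom.transfer φ) ^ k, fun h => ?_⟩
  rw [MonoidHom.pow_apply, transfer_apply_of_normal φ hinv, ← pow_mul]
  have ho : orderOf (φ h) ∣ p := orderOf_dvd_of_pow_eq_one (hA _)
  have := (pow_eq_pow_iff_modEq (x := φ h)).2 (hk.of_dvd ho)
  rw [this, pow_one]

end

/-- Let `κ : G → N` be a homomorphism to a finite group whose order is prime to `p`. A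
homomorphism `ψ' : ker κ → ZMod p` which is invariant under conjugation by `G` extends to `G`. -/
theorem exists_extend {p : ℕ} [Fact p.Prime] {G N : Type*} [Group G] [Group N] [Finite N]
    (κ : G →* N) (hN : ¬ p ∣ Nat.card N) (ψ' : κ.ker →* Multiplicative (ZMod p))
    (hinv : ∀ (g : G) (h h' : κ.ker), (h' : G) = g * h * g⁻¹ → ψ' h' = ψ' h) :
    ∃ ψ : G →* Multiplicative (ZMod p), ∀ h : κ.ker, ψ h = ψ' h := by
  have hf : Finite (G ⧸ κ.ker) :=
    Finite.of_injective _ (QuotientGroup.kerLift_injective κ)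
  have : κ.ker.FiniteIndex := Subgroup.finiteIndex_of_finite_quotient
  refine exists_extend_of_normal (p := p) ?_ (fun a => ?_) ψ' hinv
  · refine ((Fact.out : p.Prime).coprime_iff_not_dvd).2 fun h => hN (h.trans ?_)
    rw [Subgroup.index_ker]
    exact Subgroup.card_subgroup_dvd_card _
  · rw [← ofAdd_toAdd a, ← ofAdd_nsmul, nsmul_eq_mul, CharP.cast_eq_zero, zero_mul, ofAdd_zero]

end Fermat.Agent.Cor.CFTP
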