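import Fermat.Agent.Corollaries.CFTP.Kum
import Fermat.Agent.Corollaries.CFTP.Tower
import Fermat.Agent.Corollaries.CFTP.Ext
import Fermat.Agent.Corollaries.CFTP.AuxChar
import Fermat.Agent.Corollaries.KW.Cond

set_option autoImplicit false

/-!
# The existence theorem for characters of order `p` over every number field

The descent from `K' = K(ζ_p)` to `K`.
-/

namespace Fermat.Agent.Cor.CFTP

open IsDedekindDomain NumberField
open Fermat.Agent.Frob Fermat.Agent.FrobDensity Fermat.Agent.Minkowski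
open Fermat.Agent.LT Fermat.Agent.LT.Tower.Fr
open Fermat.Agent.Cor.Diff (GK FrobAt finite_natCast_mem exists_emb)
open Fermat.Agent.CFT.Global (above mem_above)
open Fermat.Agent.LT.NV (fdeg edeg edeg_fdeg_eq edeg_ne_zero card_stab pull)

variable {p : ℕ} [hp : Fact p.Prime]

section Frob

variable {K K' : Type*} [Field K] [NumberField K] [Field K'] [NumberField K'] [Algebra K K']
  {i' : K' →+* AlgebraicClosure ℚ}

/-- A Frobenius element at `v` has its `f`-th power in `G_{K'}`, a Frobenius element at `w ∣ v`. -/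
theorem frobAt_pow {g : GK (i'.comp (algebraMap K K'))} {A : ValuationSubring (AlgebraicClosure ℚ)}
    {w : HeightOneSpectrum (𝓞 K')} {q : ℕ} (hA : A.LiesOverPrime q)
    (hG : Good K' q) (hw : Over i' A w)
    (hF : A.IsFrobeniusAt g.1 (Ideal.absNorm (w.under (𝓞 K)).asIdeal)) :
    ∃ h : g.1 ^ fdeg K w ∈ GK i', FrobAt (i := i') ⟨g.1 ^ fdeg K w, h⟩ w := by
  have h1 : A.IsFrobeniusAt (g.1 ^ fdeg K w) (Ideal.absNorm w.asIdeal) := by
    rw [absNorm_eq_pow_fdeg (K := K) w]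
    exact isFrobeniusAt_pow hF _
  have h2 : (gh (g.1 ^ fdeg K w)).comp i' = i' := by
    apply hG A hA
    ext x
    rw [redτ_frob h1]
    exact hw.redτ_pow_absNorm x
  exact ⟨fun x => RingHom.congr_fun h2 x, A, hw, h1⟩

omit hp in
lemma fdeg_lt_of_card [IsGalois K K'] (hc : Nat.card (K' ≃ₐ[K] K') < p)
    (w : HeightOneSpectrum (𝓞 K')) : ¬ p ∣ fdeg K w := by
  have h1 := card_stab (K := K) w
  have h2 : Nat.card {σ : K' ≃ₐ[K] K' // Fermat.Agent.CFT.Places.conj σ w = w} ≤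
      Nat.card (K' ≃ₐ[K] K') := Nat.card_le_card_of_injective _ Subtype.val_injective
  have h3 : 0 < Nat.card {σ : K' ≃ₐ[K] K' // Fermat.Agent.CFT.Places.conj σ w = w} := by
    rw [Nat.card_pos_iff]
    exact ⟨⟨1, Fermat.Agent.CFT.Places.conj_one w⟩, inferInstance⟩
  intro h
  have h4 : fdeg K w ∣ Nat.card {σ : K' ≃ₐ[K] K' // Fermat.Agent.CFT.Places.conj σ w = w} := by
    rw [h1]
    exact dvd_mul_left _ _
  have h5 := Nat.le_of_dvd h3 (h.trans h4)
  omega

end Frob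

/-- **The descent.** -/
theorem exists_mat_of_tower {K K' : Type} [Field K]
    [NumberField K] [Field K'] [NumberField K'] [Algebra K K'] [IsGalois K K']
    [IsTotallyComplex K'] {ζ : K'} (hζ : IsPrimitiveRoot ζ p) (i' : K' →+* AlgebraicClosure ℚ)
    (hgen : ∀ g ∈ GK (i'.comp (algebraMap K K')), g (i' ζ) = i' ζ → g ∈ GK i')
    (hc : Nat.card (K' ≃ₐ[K] K') < p) {S : Finset (HeightOneSpectrum (𝓞 K))} {n : ℕ}
    {η : HeightOneSpectrum (𝓞 K) → ZMod p} (hη : IsRay S n η) :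
    ∃ ψ : GK (i'.comp (algebraMap K K')) →* C p, Lev ψ ∧
      Mat (i'.comp (algebraMap K K')) η ψ := by
  classical
  have hne : NeZero p := ⟨hp.out.ne_zero⟩
  obtain ⟨n', hη'⟩ := hη.pull (L := K')
  obtain ⟨ψ', l', m'⟩ := exists_mat hζ i' hη'
  obtain ⟨ℓ, κ, θ, S₀, n₀, hℓ, -, hS₀, hθ, lκ, hκθ, hκ, hN⟩ := exists_aux (p := p) i' 0
  have hinv : ∀ (σ : GQ) (hσ : σ ∈ GK (i'.comp (algebraMap K K'))) (g : GK i'),
      ψ' (conjHom i' hσ g) = ψ' g := by
    intro σ hσ g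
    refine conj_eq_of_mat (κ := κ.comp (GK i').subtype) (fun S n η h => exists_mat hζ i' h) hη' hθ
      (fun w w' h => ?_) (fun w w' h => hN _ _ (absNorm_eq_of_under_eq h)) l' ?_ m'
      ⟨S₀, fun w hw g hg => ?_⟩ hκ hσ (fun g => ?_) g
    · change fdeg K w • η (w.under (𝓞 K)) = fdeg K w' • η (w'.under (𝓞 K))
      rw [h, (edeg_fdeg_eq h).2]
    · obtain ⟨L, hL, h⟩ := lκ
      exact ⟨L, hL, fun g hg => h g.1 hg⟩
    · change _ ↔ κ g.1 = 1
      rw [hκθ w hw g hg, ofAdd_eq_one]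
    · change κ (σ * g.1 * σ⁻¹) = κ g.1
      rw [map_mul, map_mul, map_inv, mul_comm (κ σ), mul_inv_cancel_right]
  let kp : GK (i'.comp (algebraMap K K')) →* (ZMod p)ˣ :=
    (KW.Kap.kap p).comp (GK (i'.comp (algebraMap K K'))).subtype
  have hkp : ∀ g : GK (i'.comp (algebraMap K K')), kp g = 1 ↔ g.1 (i' ζ) = i' ζ := by
    intro g
    change KW.Kap.kap p g.1 = 1 ↔ _
    rw [← KW.mem_Fix_iff_kap, KW.mem_Fix]
    constructor
    · intro h
      exact h _ (by rw [← map_pow, hζ.pow_eq_one, map_one])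
    · intro h x hx
      obtain ⟨k, -, rfl⟩ := (hζ.map_of_injective i'.injective).eq_pow_of_pow_eq_one hx
      rw [map_pow, h]
  have hmem : ∀ g : kp.ker, g.1.1 ∈ GK i' := fun g => hgen _ g.1.2 ((hkp g.1).mp g.2)
  let ψ₁ : kp.ker →* C p := ψ'.comp
    { toFun := fun g => ⟨g.1.1, hmem g⟩
      map_one' := rfl
      map_mul' := fun a b => rfl }
  obtain ⟨ψ, hψ⟩ := exists_extend kp (by
    rw [Nat.card_eq_fintype_card, ZMod.card_units_eq_totient, Nat.totient_prime hp.out]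
    intro h
    have h1 := Nat.le_of_dvd (Nat.sub_pos_of_lt hp.out.one_lt) h
    have h2 := hp.out.one_lt
    omega) ψ₁ (by
    intro g h h' hh
    have h1 := hinv g.1 g.2 ⟨h.1.1, hmem h⟩
    have h2 : conjHom i' g.2 ⟨h.1.1, hmem h⟩ = ⟨h'.1.1, hmem h'⟩ := by
      ext1
      rw [coe_conjHom]
      exact (congrArg Subtype.val hh).symm
    rw [h2] at h1
    exact h1)
  refine ⟨ψ, ?_, ?_⟩
  · obtain ⟨L, hL, h⟩ := l'
    have : FiniteDimensional ℚ (IntermediateField.adjoin ℚ {i' ζ}) :=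
      IntermediateField.adjoin.finiteDimensional (Algebra.IsIntegral.isIntegral _)
    refine ⟨L ⊔ IntermediateField.adjoin ℚ {i' ζ}, IntermediateField.finiteDimensional_sup _ _,
      fun g hg => ?_⟩
    have h1 : kp g = 1 := (hkp g).mpr (hg _ ((le_sup_right :
      IntermediateField.adjoin ℚ {i' ζ} ≤ L ⊔ IntermediateField.adjoin ℚ {i' ζ})
      (IntermediateField.mem_adjoin_simple_self ℚ _)))
    have h2 := hψ ⟨g, h1⟩
    rw [h2]
    exact h _ fun x hx => hg x ((le_sup_left : L ≤ _) hx)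
  · obtain ⟨T, m'⟩ := m'
    obtain ⟨D, hD, hgood⟩ := exists_good K'
    refine ⟨T.image (fun w => w.under (𝓞 K)) ∪ (finite_natCast_mem (K := K) hD).toFinset,
      fun v hv g hg => ?_⟩
    simp only [Finset.mem_union, not_or, Set.Finite.mem_toFinset, Set.mem_ofPred_eq] at hv
    obtain ⟨hvT, hvD⟩ := hv
    obtain ⟨A, hA, hF⟩ := hg
    obtain ⟨q, hq, hqv⟩ := exists_prime_mem v
    have hAq : A.LiesOverPrime q := hA.natCast_mem_iff.mp hqv
    obtain ⟨w, hw⟩ := exists_over_of_liesOver i' hq hAq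
    have hwv : w.under (𝓞 K) = v := hw.under.unique hA
    have hqD : ¬ q ∣ D := by
      rintro ⟨c, rfl⟩
      apply hvD
      rw [Nat.cast_mul]
      exact v.asIdeal.mul_mem_right _ hqv
    subst hwv
    obtain ⟨hm, hFw⟩ := frobAt_pow hAq (hgood q hq hqD) hw hF
    have hwT : w ∉ T := fun h => hvT (Finset.mem_image_of_mem _ h)
    have hf := fdeg_lt_of_card hc w
    have h1 : (pull K' η w = 0 ↔ ψ' ⟨g.1 ^ fdeg K w, hm⟩ = 1) := m' w hwT _ hFw
    have h2 : kp (g ^ fdeg K w) = 1 := (hkp _).mpr (hm ζ)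
    have h3 : ψ (g ^ fdeg K w) = ψ' ⟨g.1 ^ fdeg K w, hm⟩ := hψ ⟨g ^ fdeg K w, h2⟩
    rw [← h3, map_pow, pull] at h1
    have hf' : (fdeg K w : ZMod p) ≠ 0 := fun h => hf ((ZMod.natCast_eq_zero_iff _ _).mp h)
    have h4 : fdeg K w • η (w.under (𝓞 K)) = 0 ↔ η (w.under (𝓞 K)) = 0 := by
      rw [nsmul_eq_mul, mul_eq_zero, or_iff_right hf']
    have h5 : ψ g ^ fdeg K w = 1 ↔ ψ g = 1 := by
      rw [← toAdd_eq_zero, toAdd_pow, nsmul_eq_mul, mul_eq_zero, or_iff_right hf', toAdd_eq_zero]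
    rw [← h4, h1, h5]

end Fermat.Agent.Cor.CFTP
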