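import Fermat.Agent.Corollaries.CFTP.Artin
import Fermat.Agent.Corollaries.CFTP.ClassField

set_option autoImplicit false

/-!
# Galois extensions of prime degree are class fields

`K` any number field, `p` a prime, `p ≠ 2` or `K` totally complex.

* `exists_char_of_field`: a Galois extension `L/K` of degree `p` defines a continuous character
  `ψ ≠ 1` of `G_K`, which is unramified at all places of `K` which are unramified in `L`;
* `exists_ray_of_field`: every Galois extension `L/K` of degree `p`, unramified outside `S`, is the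
  class field of a ray character with modulus on `S`: `v ∉ S` splits completely if and only if
  `η v = 0`;
* `dvd_classNumber_iff`: `p` divides the class number of `K` if and only if `K` has a Galois
  extension of degree `p` which is unramified at all finite places.
-/

namespace Fermat.Agent.Cor.CFTP

open IsDedekindDomain NumberField
open Fermat.Agent.Frob Fermat.Agent.FrobDensity Fermat.Agent.Minkowski
open Fermat.Agent.LT Fermat.Agent.LT.Tower.Fr
open Fermat.Agent.Cor.Diff (GK FrobAt)
open Fermat.Agent.LT.NV (edeg fdeg)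

variable {p : ℕ} [hp : Fact p.Prime]

section Restr

variable {K L : Type*} [Field K] [Field L] [Algebra K L] [IsGalois K L]
  (j : L →+* AlgebraicClosure ℚ)

/-- The restriction `G_K → Gal(L/K)`. -/
noncomputable def restrHom : GK (j.comp (algebraMap K L)) →* (L ≃ₐ[K] L) where
  toFun g := (exists_gal j g.2).choose
  map_one' := by
    have h := (exists_gal j (one_mem (GK (j.comp (algebraMap K L))))).choose_spec
    ext x
    apply j.injective
    exact (h x).symm
  map_mul' g g' := by
    have h := (exists_gal j (g * g').2).choose_spec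
    have h1 := (exists_gal j g.2).choose_spec
    have h2 := (exists_gal j g'.2).choose_spec
    ext x
    apply j.injective
    rw [AlgEquiv.mul_apply, ← h1, ← h2]
    exact (h x).symm

lemma restrHom_apply (g : GK (j.comp (algebraMap K L))) (x : L) :
    j (restrHom j g x) = g.1 (j x) :=
  ((exists_gal j g.2).choose_spec x).symm

lemma restrHom_eq_one_iff (g : GK (j.comp (algebraMap K L))) :
    restrHom j g = 1 ↔ g.1 ∈ GK j := by
  constructor
  · intro h x
    rw [← restrHom_apply, h]
    rfl
  · intro h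
    ext x
    apply j.injective
    rw [restrHom_apply]
    exact h x

lemma restrHom_surjective [NumberField L] :
    Function.Surjective (restrHom (K := K) j) := by
  intro τ
  obtain ⟨σ, hσ⟩ := Fermat.Agent.LT.Tower.Fr.exists_extend j (j.comp (τ : L →+* L))
  have hσ' : ∀ x, σ (j x) = j (τ x) := fun x => RingHom.congr_fun hσ x
  refine ⟨⟨σ, fun x => ?_⟩, ?_⟩
  · change σ (j (algebraMap K L x)) = _
    rw [hσ', τ.commutes]
    rfl
  · ext x
    apply j.injective
    rw [restrHom_apply]
    exact hσ' x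

lemma lev_restrHom [NumberField L] : Lev (restrHom (K := K) j) := by
  refine ⟨j.toRatAlgHom.fieldRange,
    LinearEquiv.finiteDimensional (AlgEquiv.ofInjectiveField j.toRatAlgHom).toLinearEquiv,
    fun g hg => (restrHom_eq_one_iff j g).mpr fun x => hg _ ⟨x, rfl⟩⟩

/-- Inertia elements act trivially on `L` if the place is unramified. -/
lemma restrHom_inertia [NumberField K] [NumberField L] {w : HeightOneSpectrum (𝓞 L)}
    {A : ValuationSubring (AlgebraicClosure ℚ)} (hA : Over j A w) (he : edeg K w = 1)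
    {g : GK (j.comp (algebraMap K L))} (hg : g.1 ∈ A.inertiaSubgroupIn ℚ) :
    restrHom j g = 1 := by
  have h1 := Ideal.card_inertia_eq_ramificationIdxIn (G := Gal(L/K)) (w.under (𝓞 K)).asIdeal
    w.asIdeal
  rw [Ideal.ramificationIdxIn_eq_ramificationIdx (w.under (𝓞 K)).asIdeal w.asIdeal Gal(L/K),
    ← Ideal.ramificationIdx'_eq_ramificationIdx _ w.asIdeal (w.under (𝓞 K)).ne_bot] at h1
  have h2 : Nat.card (w.asIdeal.inertia Gal(L/K)) = 1 := h1.trans he
  have h3 : restrHom j g ∈ w.asIdeal.inertia Gal(L/K) := by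
    intro x
    have h4 : redτ A (j.comp (restrHom j g : L →+* L)) = redτ A j := by
      rw [show j.comp (restrHom j g : L →+* L) = (gh g.1).comp j from
        RingHom.ext fun x => restrHom_apply j g x]
      exact Fermat.Agent.Classic.Disc.redτ_comp_inertia hg j
    change (restrHom j g • x - x : 𝓞 L) ∈ w.asIdeal
    rw [hA.mem_iff, map_sub, sub_eq_zero]
    exact RingHom.congr_fun h4 x
  rw [Subgroup.card_eq_one.mp h2] at h3
  exact Subgroup.mem_bot.mp h3

/-- **The character of a Galois extension of degree `p`.** -/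
theorem exists_char_of_field [NumberField K] [NumberField L] (hL : Module.finrank K L = p) :
    ∃ ψ : GK (j.comp (algebraMap K L)) →* C p, Lev ψ ∧ (∀ g, ψ g = 1 ↔ g.1 ∈ GK j) ∧
      (∃ g, ψ g ≠ 1) ∧ ∀ (w : HeightOneSpectrum (𝓞 L))
        (A : ValuationSubring (AlgebraicClosure ℚ)), Over j A w → edeg K w = 1 →
          ∀ g : GK (j.comp (algebraMap K L)), g.1 ∈ A.inertiaSubgroupIn ℚ → ψ g = 1 := by
  let e : (L ≃ₐ[K] L) ≃* C p := mulEquivOfPrimeCardEq (p := p)
    (by rw [IsGalois.card_aut_eq_finrank, hL]) (Nat.card_zmod p)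
  refine ⟨e.toMonoidHom.comp (restrHom j), ?_, fun g => ?_, ?_, fun w A hA he g hg => ?_⟩
  · obtain ⟨N, hN, h⟩ := lev_restrHom (K := K) j
    exact ⟨N, hN, fun g hg => by
      rw [MonoidHom.comp_apply, h g hg, map_one]⟩
  · rw [← restrHom_eq_one_iff]
    exact e.map_eq_one_iff
  · obtain ⟨g, hg⟩ := restrHom_surjective (K := K) j (e.symm (Multiplicative.ofAdd 1))
    refine ⟨g, ?_⟩
    change e (restrHom j g) ≠ 1
    rw [hg, MulEquiv.apply_symm_apply]
    exact fun h => one_ne_zero (congrArg Multiplicative.toAdd h : (1 : ZMod p) = 0)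
  · change e (restrHom j g) = 1
    rw [restrHom_inertia j hA he hg, map_one]

end Restr

/-- **Every Galois extension of prime degree is a class field** (`p` odd or `K` totally complex):
if `L/K` is unramified outside `S`, there is a ray character `η` with modulus on `S` such that
`v ∉ S` splits completely in `L` if and only if `η v = 0`. -/
theorem exists_ray_of_field {K L : Type} [Field K] [NumberField K] [Field L] [NumberField L]
    [Algebra K L] [IsGalois K L] (hK : p ≠ 2 ∨ IsTotallyComplex K) (hL : Module.finrank K L = p)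
    {S : Finset (HeightOneSpectrum (𝓞 K))} (hS : ∀ w : HeightOneSpectrum (𝓞 L),
      w.under (𝓞 K) ∉ S → (w.under (𝓞 K)).asIdeal.ramificationIdx' w.asIdeal = 1) :
    ∃ (n : ℕ) (η : HeightOneSpectrum (𝓞 K) → ZMod p), IsRay S n η ∧ (∃ v, v ∉ S ∧ η v ≠ 0) ∧
      ∀ w : HeightOneSpectrum (𝓞 L), w.under (𝓞 K) ∉ S →
        ((w.under (𝓞 K)).asIdeal.inertiaDeg' w.asIdeal = 1 ↔ η (w.under (𝓞 K)) = 0) := by
  have j₀ : L →ₐ[ℚ] AlgebraicClosure ℚ := IsAlgClosed.lift
  set j : L →+* AlgebraicClosure ℚ := (j₀ : L →+* AlgebraicClosure ℚ) with hj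
  clear_value j
  obtain ⟨ψ, lψ, hψ, ⟨g₀, hg₀⟩, hunr⟩ := exists_char_of_field (p := p) (K := K) j hL
  have hu : ∀ v, v ∉ S → ∀ A : ValuationSubring (AlgebraicClosure ℚ),
      Over (j.comp (algebraMap K L)) A v → ∀ g : GK (j.comp (algebraMap K L)),
        g.1 ∈ A.inertiaSubgroupIn ℚ → ψ g = 1 := by
    intro v hv A hA g hg
    obtain ⟨q, hq, hqv⟩ := exists_prime_mem v
    have hAq : A.LiesOverPrime q := hA.natCast_mem_iff.mp hqv
    obtain ⟨w, hw⟩ := exists_over_of_liesOver j hq hAq
    have hwv : w.under (𝓞 K) = v := hw.under.unique hA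
    exact hunr w A hw (hS w (by rwa [hwv])) g hg
  obtain ⟨n, η, hη, hex⟩ := artin_reciprocity_outside hK lψ hu
  refine ⟨n, η, hη, ?_, fun w hw => ?_⟩
  · by_contra hcon
    push Not at hcon
    have h1 : ψ = 1 := eq_of_exact (η := 0) lψ ⟨⊥, inferInstance, fun _ _ => rfl⟩
      ⟨S, fun v hv g hg => by rw [hex v hv g hg, hcon v hv]; rfl⟩ ⟨S, fun v _ g _ => rfl⟩
    exact hg₀ (by rw [h1]; rfl)
  · obtain ⟨q, A, hq, hAq, hA⟩ := exists_over j w
    obtain ⟨g, hg⟩ := exists_frobAt_over (hA.under (F := K))
    have hin : ∀ τ ∈ A.inertiaSubgroupIn ℚ,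
        (∀ x : K, τ (j (algebraMap K L x)) = j (algebraMap K L x)) → ∀ x : L, τ (j x) = j x := by
      intro τ hτ hτK
      exact (hψ ⟨τ, hτK⟩).mp (hunr w A hA (hS w hw) ⟨τ, hτK⟩ hτ)
    have h1 := fdeg_eq_one_iff hA hin (g := g.1) g.2 hg
    change fdeg K w = 1 ↔ _
    rw [h1]
    change g.1 ∈ GK j ↔ _
    rw [← hψ, hex _ hw g ⟨A, hA.under, hg⟩, ofAdd_eq_one]

/-- **The class number and unramified extensions**: `p` divides the class number of `K` (`p` odd or
`K` totally complex) if and only if `K` has a Galois extension of degree `p` which is unramified at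
all finite places. -/
theorem dvd_classNumber_iff {K : Type} [Field K] [NumberField K]
    (hK : p ≠ 2 ∨ IsTotallyComplex K) : p ∣ classNumber K ↔
      ∃ (L : Type) (_ : Field L) (_ : NumberField L) (_ : Algebra K L), IsGalois K L ∧
        Module.finrank K L = p ∧ ∀ w : HeightOneSpectrum (𝓞 L),
          (w.under (𝓞 K)).asIdeal.ramificationIdx' w.asIdeal = 1 := by
  refine ⟨exists_unramified hK, ?_⟩
  rintro ⟨L, _, _, _, hgal, hL, hunr⟩
  obtain ⟨n, η, hη, ⟨v, -, hv⟩, -⟩ := exists_ray_of_field (p := p) (L := L) hK hL (S := ∅)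
    fun w _ => hunr w
  obtain ⟨χ, hχ⟩ := exists_char_of_isRay hη
  have hne : χ (cl v) ≠ 1 := by
    rw [hχ, Ne, ofAdd_eq_one]
    exact hv
  have hs : Function.Surjective χ := by
    intro y
    obtain ⟨c, hc⟩ := exists_pow_eq hne y
    exact ⟨cl v ^ c, by rw [map_pow, hc]⟩
  have h1 := Subgroup.card_dvd_of_surjective χ hs
  rwa [Nat.card_eq_fintype_card (α := ClassGroup (𝓞 K)),
    show Nat.card (C p) = p from Nat.card_zmod p] at h1

end Fermat.Agent.Cor.CFTP
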