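import Fermat.Agent.Corollaries.CFTP.UnrConv
import Fermat.Agent.Corollaries.CFTP.Conv

set_option autoImplicit false

/-!
# The Hilbert class field of exponent `p`

`K` any number field, `p` a prime, `p ≠ 2` or `K` totally complex.

* `exists_hilbert_char`: a character `χ` of order `p` of the class group of `K` gives a continuous
  `ψ : G_K → ZMod p`, unramified at all finite places, with `ψ(Frob_v) = χ([v])` for ALL `v`;
* `exists_char_of_unramified`: conversely every continuous `ψ : G_K → ZMod p` which is unramified at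
  all finite places arises in this way;
* `exists_hilbertEquiv`: so the group of characters of order `p` of the class group is isomorphic
  to the group `Unr p i` of unramified characters of `G_K`.
-/

namespace Fermat.Agent.Cor.CFTP

open IsDedekindDomain NumberField
open Fermat.Agent.Frob Fermat.Agent.FrobDensity Fermat.Agent.Minkowski
open Fermat.Agent.LT Fermat.Agent.LT.Tower.Fr
open Fermat.Agent.Cor.Diff (GK FrobAt)
open Fermat.Agent.CFT.Global (above mem_above)
open Fermat.Agent.LT.NV (fdeg edeg edeg_fdeg_eq pull card_conj_eq)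
open Fermat.Agent.LT.Psi (finite_under resF exists_conj_eq)
open scoped Pointwise

variable {p : ℕ} [hp : Fact p.Prime]

/-- **Unramified characters from the class group**: exact values at all places. -/
theorem exists_hilbert_char {K : Type} [Field K] [NumberField K]
    (hK : p ≠ 2 ∨ IsTotallyComplex K) (i : K →+* AlgebraicClosure ℚ)
    (χ : ClassGroup (𝓞 K) →* C p) : ∃ ψ : GK i →* C p, Lev ψ ∧
      (∀ (v : HeightOneSpectrum (𝓞 K)) (A : ValuationSubring (AlgebraicClosure ℚ)), Over i A v →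
        ∀ g : GK i, g.1 ∈ A.inertiaSubgroupIn ℚ → ψ g = 1) ∧
      ∀ (v : HeightOneSpectrum (𝓞 K)) (g : GK i), FrobAt g v → ψ g = χ (cl v) := by
  obtain ⟨ψ, lψ, h1, h2⟩ := artin_existence hK i (isRay_eta χ)
  exact ⟨ψ, lψ, fun v => h1 v (Finset.notMem_empty v), fun v => h2 v (Finset.notMem_empty v)⟩

/-- **Descent**: the values of `ψ` at the Frobenius elements of `K'` determine those of `K`. -/
theorem descend {K K' : Type} [Field K] [NumberField K] [Field K'] [NumberField K'] [Algebra K K']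
    [IsGalois K K'] {i' : K' →+* AlgebraicClosure ℚ} (hcard : Nat.card (K' ≃ₐ[K] K') < p)
    {ψ : GK (i'.comp (algebraMap K K')) →* C p} {S : Finset (HeightOneSpectrum (𝓞 K))}
    (hu : ∀ v, v ∉ S → ∀ A : ValuationSubring (AlgebraicClosure ℚ),
      Over (i'.comp (algebraMap K K')) A v → ∀ g : GK (i'.comp (algebraMap K K')),
        g.1 ∈ A.inertiaSubgroupIn ℚ → ψ g = 1) {n : ℕ} {η' : HeightOneSpectrum (𝓞 K') → ZMod p}
    (hη' : IsRay (above K' S) n η')
    (hex : ∀ w, w ∉ above K' S → ∀ g : GK i', FrobAt g w →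
      ψ (res K i' g) = Multiplicative.ofAdd (η' w)) :
    ∃ η : HeightOneSpectrum (𝓞 K) → ZMod p, IsRay S n η ∧
      ∀ v, v ∉ S → ∀ g : GK (i'.comp (algebraMap K K')), FrobAt g v →
        ψ g = Multiplicative.ofAdd (η v) := by
  classical
  have hm : ((Nat.card (K' ≃ₐ[K] K') : ℕ) : ZMod p) ≠ 0 := by
    intro h
    have h1 := Nat.le_of_dvd Nat.card_pos ((ZMod.natCast_eq_zero_iff _ _).mp h)
    omega
  refine ⟨fun v => ((Nat.card (K' ≃ₐ[K] K') : ℕ) : ZMod p)⁻¹ * resF (K := K) η' v,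
    isRay_mul (Fermat.Agent.LT.Psi.IsRay.res hη') _, fun v hv g hg => ?_⟩
  obtain ⟨A, hA, hF⟩ := hg
  obtain ⟨q, hq, hqv⟩ := exists_prime_mem v
  have hAq : A.LiesOverPrime q := hA.natCast_mem_iff.mp hqv
  obtain ⟨w₁, hw₁⟩ := exists_over_of_liesOver i' hq hAq
  have hwv : w₁.under (𝓞 K) = v := hw₁.under.unique hA
  subst hwv
  obtain ⟨φ, hφ⟩ := exists_frobAt_over hw₁
  have h0 : A.IsFrobeniusAt (g ^ fdeg K w₁).1 (Ideal.absNorm w₁.asIdeal) := by
    rw [absNorm_eq_pow_fdeg (K := K) w₁]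
    exact isFrobeniusAt_pow hF _
  have hφψ : ψ (res K i' φ) = ψ g ^ fdeg K w₁ := by
    rw [← map_pow]
    exact frob_unique_of_unr ψ (hu _ hv A hA) (g := res K i' φ) hφ h0
  -- the value of `η'` at all `w ∣ v`
  have key : ∀ w : HeightOneSpectrum (𝓞 K'), w.under (𝓞 K) = w₁.under (𝓞 K) →
      η' w = fdeg K w * (ψ g).toAdd := by
    intro w hw
    obtain ⟨τ, hτ⟩ := Fermat.Agent.LT.Psi.exists_conj_eq hw.symm
    obtain ⟨σ, hσ⟩ := Fermat.Agent.LT.Tower.Fr.exists_extend i' (i'.comp (τ : K' →+* K'))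
    have hσ' : ∀ x, σ (i' x) = i' (τ x) := fun x => RingHom.congr_fun hσ x
    have hσK : σ ∈ GK (i'.comp (algebraMap K K')) := by
      intro x
      change σ (i' (algebraMap K K' x)) = _
      rw [hσ', τ.commutes]
      rfl
    have h1 : FrobAt (conjHom i' hσK φ) w := by
      refine ⟨σ • A, ?_, ?_⟩
      · rw [← hτ]
        exact Fermat.Agent.LT.Tower.Fr.Over.conj hw₁ τ hσ'
      · rw [absNorm_eq_of_under_eq hw]
        exact isFrobeniusAt_conj hφ
    have h2 := hex w (by rwa [mem_above, hw]) _ h1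
    have h3 : ψ (res K i' (conjHom i' hσK φ)) = ψ g ^ fdeg K w₁ := by
      have h4 : res K i' (conjHom i' hσK φ) = ⟨σ, hσK⟩ * res K i' φ * ⟨σ, hσK⟩⁻¹ := rfl
      rw [h4, map_mul, map_mul, map_inv, mul_comm (ψ ⟨σ, hσK⟩), mul_inv_cancel_right, hφψ]
    rw [h3] at h2
    have h5 := congrArg Multiplicative.toAdd h2
    rw [toAdd_pow, toAdd_ofAdd, nsmul_eq_mul] at h5
    rw [← h5, (edeg_fdeg_eq hw).2]
  apply Multiplicative.toAdd.injective
  rw [toAdd_ofAdd]
  have hsum : resF (K := K) η' (w₁.under (𝓞 K)) =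
      ((Nat.card (K' ≃ₐ[K] K') : ℕ) : ZMod p) * (ψ g).toAdd := by
    rw [← sum_edeg_mul_fdeg w₁, Nat.cast_sum, Finset.sum_mul, resF]
    refine Finset.sum_congr rfl fun w hw => ?_
    rw [Set.Finite.mem_toFinset, Set.mem_ofPred_eq] at hw
    rw [key w hw, nsmul_eq_mul, Nat.cast_mul, mul_assoc, edeg, hw]
  change (ψ g).toAdd = ((Nat.card (K' ≃ₐ[K] K') : ℕ) : ZMod p)⁻¹ *
    resF (K := K) η' (w₁.under (𝓞 K))
  rw [hsum, inv_mul_cancel_left₀ hm]

/-- **Every unramified character comes from the class group.** -/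
theorem exists_char_of_unramified {K : Type} [Field K] [NumberField K]
    (hK : p ≠ 2 ∨ IsTotallyComplex K) {i : K →+* AlgebraicClosure ℚ} {ψ : GK i →* C p}
    (lψ : Lev ψ) (hu : ∀ (v : HeightOneSpectrum (𝓞 K)) (A : ValuationSubring (AlgebraicClosure ℚ)),
      Over i A v → ∀ g : GK i, g.1 ∈ A.inertiaSubgroupIn ℚ → ψ g = 1) :
    ∃ χ : ClassGroup (𝓞 K) →* C p, ∀ (v : HeightOneSpectrum (𝓞 K)) (g : GK i), FrobAt g v →
      ψ g = χ (cl v) := by
  classical
  obtain ⟨K', _, _, _, _, _, ζ, i', hζ, hi, -, hcard⟩ := exists_tower (p := p) hK i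
  subst hi
  obtain ⟨η', hη', hex'⟩ := exists_ray_of_unramified hζ (i := i') (ψ := ψ.comp (res K i')) lψ.res
    (fun w A hA g hg => hu _ A hA.under (res K i' g) hg)
  obtain ⟨η, hη, hex⟩ := descend (S := ∅) hcard (fun v _ => hu v)
    (hη'.mono_set (Finset.empty_subset _)) (fun w _ g hg => hex' w g hg)
  obtain ⟨χ, hχ⟩ := exists_char_of_isRay hη
  exact ⟨χ, fun v g hg => by rw [hex v (Finset.notMem_empty v) g hg, hχ]⟩

/-- The group of the continuous characters `G_K → ZMod p` which are unramified at all finite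
places. -/
def Unr (p : ℕ) {K : Type*} [Field K] [NumberField K] (i : K →+* AlgebraicClosure ℚ) :
    Subgroup (GK i →* C p) where
  carrier := {ψ | Lev ψ ∧ ∀ (v : HeightOneSpectrum (𝓞 K))
    (A : ValuationSubring (AlgebraicClosure ℚ)), Over i A v → ∀ g : GK i,
      g.1 ∈ A.inertiaSubgroupIn ℚ → ψ g = 1}
  one_mem' := ⟨⟨⊥, inferInstance, fun _ _ => rfl⟩, fun _ _ _ _ _ => rfl⟩
  mul_mem' := fun {a b} ha hb => ⟨ha.1.mul hb.1, fun v A hA g hg => by
    rw [MonoidHom.mul_apply, ha.2 v A hA g hg, hb.2 v A hA g hg, one_mul]⟩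
  inv_mem' := fun {a} ha => by
    refine ⟨?_, fun v A hA g hg => by rw [MonoidHom.inv_apply, ha.2 v A hA g hg, inv_one]⟩
    obtain ⟨L, hL, h⟩ := ha.1
    exact ⟨L, hL, fun g hg => by rw [MonoidHom.inv_apply, h g hg, inv_one]⟩

/-- **The Hilbert class field, exponent `p`**: the characters of order `p` of the class group are
exactly the unramified characters of order `p` of `G_K`; the class of `v` corresponds to the
Frobenius elements at `v`. -/
theorem exists_hilbertEquiv {K : Type} [Field K] [NumberField K]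
    (hK : p ≠ 2 ∨ IsTotallyComplex K) (i : K →+* AlgebraicClosure ℚ) :
    ∃ e : (ClassGroup (𝓞 K) →* C p) ≃* Unr p i, ∀ (χ : ClassGroup (𝓞 K) →* C p)
      (v : HeightOneSpectrum (𝓞 K)) (g : GK i), FrobAt g v → (e χ).1 g = χ (cl v) := by
  choose ψ lψ uψ eψ using fun χ => exists_hilbert_char hK i (p := p) χ
  -- a character is determined by its values at the Frobenius elements
  have huniq : ∀ {ψ₁ ψ₂ : GK i →* C p} (χ : ClassGroup (𝓞 K) →* C p), Lev ψ₁ → Lev ψ₂ →
      (∀ (v : HeightOneSpectrum (𝓞 K)) (g : GK i), FrobAt g v → ψ₁ g = χ (cl v)) →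
      (∀ (v : HeightOneSpectrum (𝓞 K)) (g : GK i), FrobAt g v → ψ₂ g = χ (cl v)) → ψ₁ = ψ₂ := by
    intro ψ₁ ψ₂ χ l₁ l₂ h₁ h₂
    exact eq_of_exact (η := eta χ) l₁ l₂ ⟨∅, fun v _ g hg => h₁ v g hg⟩
      ⟨∅, fun v _ g hg => h₂ v g hg⟩
  let f : (ClassGroup (𝓞 K) →* C p) →* Unr p i :=
    { toFun := fun χ => ⟨ψ χ, lψ χ, uψ χ⟩
      map_one' := by
        apply Subtype.ext
        exact huniq 1 (lψ 1) ⟨⊥, inferInstance, fun _ _ => rfl⟩ (eψ 1) fun _ _ _ => rfl
      map_mul' := fun χ χ' => by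
        apply Subtype.ext
        refine huniq (χ * χ') (lψ _) ((lψ χ).mul (lψ χ')) (eψ _) fun v g hg => ?_
        change ψ χ g * ψ χ' g = χ (cl v) * χ' (cl v)
        rw [eψ χ v g hg, eψ χ' v g hg] }
  have hf : Function.Bijective f := by
    constructor
    · rw [injective_iff_map_eq_one]
      intro χ hχ
      have h1 : ψ χ = 1 := congrArg Subtype.val hχ
      refine eq_one_of_forall χ ∅ fun v _ => ?_
      obtain ⟨q, A, hq, hAq, hA⟩ := exists_over i v
      obtain ⟨g, hg⟩ := exists_frobAt_over hA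
      have h2 := eψ χ v g ⟨A, hA, hg⟩
      rw [h1, MonoidHom.one_apply] at h2
      exact toAdd_eq_zero.mpr h2.symm
    · rintro ⟨ψ', l', u'⟩
      obtain ⟨χ, hχ⟩ := exists_char_of_unramified hK l' u'
      exact ⟨χ, Subtype.ext (huniq χ (lψ χ) l' (eψ χ) hχ)⟩
  exact ⟨MulEquiv.ofBijective f hf, fun χ v g hg => eψ χ v g hg⟩

end Fermat.Agent.Cor.CFTP
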