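import Fermat.Agent.Corollaries.CFTP.FieldConv

set_option autoImplicit false

/-!
# The `p`-Hilbert class field with its Artin map

* `exists_field_of_finite`: a finite group `X` of continuous characters `G_K → ZMod p` defines a
  Galois extension `L/K` with `Gal(L/K) ≃ Hom(X, ZMod p)`;
* `exists_hilbertField`: `K` any number field (`p` odd or `K` totally complex): there is a Galois
  extension `L/K`, unramified at all finite places, and an isomorphism
  `e : Gal(L/K) ≃ Cl(K)/Cl(K)^p` which maps every Frobenius element at `w` to the class of the place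
  under `w`; `v` splits completely in `L` if and only if its class is a `p`-th power; every Galois
  extension of `K` of degree `p`, unramified at all finite places, embeds in `L`.
-/

namespace Fermat.Agent.Cor.CFTP

open IsDedekindDomain NumberField
open Fermat.Agent.Frob Fermat.Agent.FrobDensity Fermat.Agent.Minkowski
open Fermat.Agent.LT Fermat.Agent.LT.Tower.Fr
open Fermat.Agent.Cor.Diff (GK FrobAt)
open Fermat.Agent.LT.NV (edeg fdeg)

variable {p : ℕ} [hp : Fact p.Prime]

section Duality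

/-- A group of characters of `X` without common zero is the whole dual. -/
theorem eq_top_of_ann {X : Type*} [CommGroup X] [Finite X] (H : Subgroup (X →* C p))
    (h : ∀ x : X, (∀ f ∈ H, f x = 1) → x = 1) : H = ⊤ := by
  obtain ⟨hf, hle⟩ := card_hom_le (p := p) X
  obtain ⟨hf', hle'⟩ := card_hom_le (p := p) H
  let s : X →* (H →* C p) :=
    { toFun := fun x =>
        { toFun := fun f => f.1 x
          map_one' := rfl
          map_mul' := fun _ _ => rfl }
      map_one' := by
        ext f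
        exact map_one f.1
      map_mul' := fun x y => by
        ext f
        exact map_mul f.1 x y }
  have hs : Function.Injective s := (injective_iff_map_eq_one s).mpr fun x hx =>
    h x fun f hf => DFunLike.congr_fun hx ⟨f, hf⟩
  exact Subgroup.eq_top_of_le_card H
    (hle.trans ((Nat.card_le_card_of_injective s hs).trans hle'))

/-- Every element which is not a `p`-th power is detected by a character of order `p`. -/
theorem exists_char_apply_ne_one {A : Type*} [CommGroup A] [Finite A] {a : A}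
    (ha : a ∉ (powMonoidHom p : A →* A).range) : ∃ χ : A →* C p, χ a ≠ 1 := by
  have h1 : (QuotientGroup.mk a : A ⧸ (powMonoidHom p : A →* A).range) ≠ 1 := by
    rwa [Ne, QuotientGroup.eq_one_iff]
  obtain ⟨f, hf⟩ := CommGroup.exists_apply_ne_one_of_hasEnoughRootsOfUnity
    (A ⧸ (powMonoidHom p : A →* A).range) (AlgebraicClosure ℚ) h1
  obtain ⟨χ, hχ⟩ := exists_char (p := p) f (fun q => by
    obtain ⟨b, rfl⟩ := QuotientGroup.mk_surjective q
    have h2 : (QuotientGroup.mk (b ^ p) : A ⧸ (powMonoidHom p : A →* A).range) = 1 :=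
      (QuotientGroup.eq_one_iff _).mpr ⟨b, rfl⟩
    rw [← map_pow, ← QuotientGroup.mk_pow, h2, map_one])
  exact ⟨χ.comp (QuotientGroup.mk' _), fun h => hf ((hχ _).mp h)⟩

/-- The evaluation map of a finite commutative group. -/
def evHom (p : ℕ) (A : Type*) [CommGroup A] : A →* ((A →* C p) →* C p) where
  toFun a :=
    { toFun := fun χ => χ a
      map_one' := rfl
      map_mul' := fun _ _ => rfl }
  map_one' := by
    ext χ
    exact map_one χ
  map_mul' a b := by
    ext χ
    exact map_mul χ a b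

theorem evHom_ker (A : Type*) [CommGroup A] [Finite A] :
    (evHom p A).ker = (powMonoidHom p : A →* A).range := by
  ext a
  rw [MonoidHom.mem_ker]
  constructor
  · intro h
    by_contra hcon
    obtain ⟨χ, hχ⟩ := exists_char_apply_ne_one hcon
    exact hχ (DFunLike.congr_fun h χ)
  · rintro ⟨b, rfl⟩
    ext χ
    change χ (b ^ p) = 1
    rw [map_pow, C.pow_p]

theorem evHom_surjective (A : Type*) [CommGroup A] [Finite A] :
    Function.Surjective (evHom p A) := by
  obtain ⟨hf, -⟩ := card_hom_le (p := p) A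
  rw [← MonoidHom.range_eq_top]
  apply eq_top_of_ann
  intro χ h
  ext a
  exact h _ ⟨a, rfl⟩

/-- `A/A^p` is its double dual. -/
noncomputable def evEquiv (p : ℕ) [Fact p.Prime] (A : Type*) [CommGroup A] [Finite A] :
    A ⧸ (powMonoidHom p : A →* A).range ≃* ((A →* C p) →* C p) :=
  (QuotientGroup.quotientMulEquivOfEq (evHom_ker A).symm).trans
    (QuotientGroup.quotientKerEquivOfSurjective _ (evHom_surjective A))

lemma evEquiv_mk (A : Type*) [CommGroup A] [Finite A] (a : A) :
    evEquiv p A (QuotientGroup.mk a) = evHom p A a := rfl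

end Duality

/-- **The extension of a finite group of characters.** -/
theorem exists_field_of_finite {K : Type} [Field K] [NumberField K]
    (i : K →+* AlgebraicClosure ℚ) (X : Subgroup (GK i →* C p)) [Finite X]
    (hX : ∀ ψ ∈ X, Lev ψ) :
    ∃ (L : Type) (_ : Field L) (_ : NumberField L) (_ : Algebra K L) (_ : IsGalois K L)
      (j : L →+* AlgebraicClosure ℚ) (e : (L ≃ₐ[K] L) ≃* (X →* C p)),
      j.comp (algebraMap K L) = i ∧ ∀ (g : GK i) (σ : L ≃ₐ[K] L),
        (∀ x, j (σ x) = g.1 (j x)) → ∀ ψ : X, e σ ψ = ψ.1 g := by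
  let Φ : GK i →* (X →* C p) :=
    { toFun := fun g =>
        { toFun := fun ψ => ψ.1 g
          map_one' := rfl
          map_mul' := fun _ _ => rfl }
      map_one' := by
        ext ψ
        exact map_one ψ.1
      map_mul' := fun g h => by
        ext ψ
        exact map_mul ψ.1 g h }
  have lΦ : Lev Φ := by
    choose L hL h using fun ψ : X => hX ψ.1 ψ.2
    refine ⟨⨆ ψ, L ψ, IntermediateField.finiteDimensional_iSup_of_finite, fun g hg => ?_⟩
    ext ψ
    exact h ψ g fun x hx => hg x ((le_iSup L ψ : L ψ ≤ ⨆ ψ, L ψ) hx)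
  have hs : Function.Surjective Φ := by
    rw [← MonoidHom.range_eq_top]
    apply eq_top_of_ann
    intro ψ h
    apply Subtype.ext
    ext g
    exact h _ ⟨g, rfl⟩
  obtain ⟨L, fL, nL, aL, gL, j, e, hj, he⟩ := exists_field_of_surjective i Φ lΦ hs
  refine ⟨L, fL, nL, aL, gL, j, e, hj, fun g σ hσ ψ => ?_⟩
  have h1 : e.symm (Φ g) = σ := by
    ext x
    apply j.injective
    rw [he, hσ]
  rw [← h1, MulEquiv.apply_symm_apply]
  rfl

/-- At an unramified place the Frobenius elements of `G_K` restrict to the Frobenius of `L/K`. -/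
theorem eq_of_isArithFrobAt {K L : Type*} [Field K] [NumberField K] [Field L] [NumberField L]
    [Algebra K L] [IsGalois K L] {j : L →+* AlgebraicClosure ℚ} {w : HeightOneSpectrum (𝓞 L)}
    {A : ValuationSubring (AlgebraicClosure ℚ)} (hA : Over j A w) (he : edeg K w = 1)
    {σ : L ≃ₐ[K] L} (hσ : IsArithFrobAt (𝓞 K) σ w.asIdeal) {g : GK (j.comp (algebraMap K L))}
    (hg : A.IsFrobeniusAt g.1 (Ideal.absNorm (w.under (𝓞 K)).asIdeal)) :
    restrHom j g = σ := by
  have h1 := Ideal.card_inertia_eq_ramificationIdxIn (G := Gal(L/K)) (w.under (𝓞 K)).asIdeal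
    w.asIdeal
  rw [Ideal.ramificationIdxIn_eq_ramificationIdx (w.under (𝓞 K)).asIdeal w.asIdeal Gal(L/K),
    ← Ideal.ramificationIdx'_eq_ramificationIdx _ w.asIdeal (w.under (𝓞 K)).ne_bot] at h1
  have h2 : Nat.card (w.asIdeal.inertia Gal(L/K)) = 1 := h1.trans he
  have h3 : IsArithFrobAt (𝓞 K) (restrHom j g) w.asIdeal := by
    intro x
    change (restrHom j g • x - x ^ Nat.card (𝓞 K ⧸ (w.under (𝓞 K)).asIdeal) : 𝓞 L) ∈ w.asIdeal
    have h4 : redτ A (j.comp (restrHom j g : L →+* L)) x =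
        redτ A j x ^ Ideal.absNorm (w.under (𝓞 K)).asIdeal := by
      rw [show j.comp (restrHom j g : L →+* L) = (gh g.1).comp j from
        RingHom.ext fun x => restrHom_apply j g x]
      exact redτ_frob hg j x
    have h5 : Nat.card (𝓞 K ⧸ (w.under (𝓞 K)).asIdeal) =
        Ideal.absNorm (w.under (𝓞 K)).asIdeal := by
      rw [Ideal.absNorm_apply, Submodule.cardQuot_apply]
    rw [hA.mem_iff, map_sub, map_pow, sub_eq_zero, h5]
    exact h4
  have h6 := h3.mul_inv_mem_inertia hσ
  rw [Subgroup.card_eq_one.mp h2, Subgroup.mem_bot, mul_inv_eq_one] at h6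
  exact h6

/-- **The `p`-Hilbert class field with its Artin map.** -/
theorem exists_hilbertField {K : Type} [Field K] [NumberField K]
    (hK : p ≠ 2 ∨ IsTotallyComplex K) :
    ∃ (L : Type) (_ : Field L) (_ : NumberField L) (_ : Algebra K L) (_ : IsGalois K L)
      (e : (L ≃ₐ[K] L) ≃* ClassGroup (𝓞 K) ⧸
        (powMonoidHom p : ClassGroup (𝓞 K) →* ClassGroup (𝓞 K)).range),
      (∀ w : HeightOneSpectrum (𝓞 L), (w.under (𝓞 K)).asIdeal.ramificationIdx' w.asIdeal = 1) ∧
      (∀ (w : HeightOneSpectrum (𝓞 L)) (σ : L ≃ₐ[K] L), IsArithFrobAt (𝓞 K) σ w.asIdeal →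
        e σ = QuotientGroup.mk (cl (w.under (𝓞 K)))) ∧
      (∀ w : HeightOneSpectrum (𝓞 L), (w.under (𝓞 K)).asIdeal.inertiaDeg' w.asIdeal = 1 ↔
        cl (w.under (𝓞 K)) ∈ (powMonoidHom p : ClassGroup (𝓞 K) →* ClassGroup (𝓞 K)).range) ∧
      ∀ (M : Type) [Field M] [NumberField M] [Algebra K M] [IsGalois K M],
        Module.finrank K M = p → (∀ w : HeightOneSpectrum (𝓞 M),
          (w.under (𝓞 K)).asIdeal.ramificationIdx' w.asIdeal = 1) → Nonempty (M →ₐ[K] L) := by
  have i₀ : K →ₐ[ℚ] AlgebraicClosure ℚ := IsAlgClosed.lift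
  set i : K →+* AlgebraicClosure ℚ := (i₀ : K →+* AlgebraicClosure ℚ) with hi
  clear_value i
  obtain ⟨f, hf⟩ := exists_hilbertEquiv (p := p) hK i
  obtain ⟨hfin, -⟩ := card_hom_le (p := p) (ClassGroup (𝓞 K))
  have hfinU : Finite (Unr p i) := Finite.of_equiv _ f.toEquiv
  obtain ⟨L, fL, nL, aL, gL, j, e₀, hj, he₀⟩ := exists_field_of_finite i (Unr p i)
    fun ψ hψ => hψ.1
  subst hj
  -- `Hom(Unr, ZMod p) = Hom(Hom(Cl, ZMod p), ZMod p) = Cl/p`
  let e₁ : (Unr p (j.comp (algebraMap K L)) →* C p) ≃* ((ClassGroup (𝓞 K) →* C p) →* C p) :=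
    { toFun := fun φ => φ.comp f.toMonoidHom
      invFun := fun φ => φ.comp f.symm.toMonoidHom
      left_inv := fun φ => MonoidHom.ext fun ψ => congrArg φ (f.apply_symm_apply ψ)
      right_inv := fun φ => MonoidHom.ext fun χ => congrArg φ (f.symm_apply_apply χ)
      map_mul' := fun _ _ => rfl }
  let e : (L ≃ₐ[K] L) ≃* ClassGroup (𝓞 K) ⧸
      (powMonoidHom p : ClassGroup (𝓞 K) →* ClassGroup (𝓞 K)).range :=
    (e₀.trans e₁).trans (evEquiv p (ClassGroup (𝓞 K))).symm
  have hfix : ∀ g : GK (j.comp (algebraMap K L)),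
      g.1 ∈ GK j ↔ ∀ ψ : Unr p (j.comp (algebraMap K L)), ψ.1 g = 1 := by
    intro g
    have h1 := he₀ g (restrHom j g) (restrHom_apply j g)
    rw [← restrHom_eq_one_iff]
    constructor
    · intro h ψ
      rw [← h1 ψ, h, map_one]
      rfl
    · intro h
      apply e₀.injective
      rw [map_one]
      ext ψ
      rw [h1 ψ, h ψ]
      rfl
  have hin : ∀ (w : HeightOneSpectrum (𝓞 L)) (A : ValuationSubring (AlgebraicClosure ℚ)),
      Over j A w → ∀ τ ∈ A.inertiaSubgroupIn ℚ,
        (∀ x : K, τ (j (algebraMap K L x)) = j (algebraMap K L x)) →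
          ∀ x : L, τ (j x) = j x := by
    intro w A hA τ hτ hτK
    exact (hfix ⟨τ, hτK⟩).mpr fun ψ => ψ.2.2 _ A hA.under ⟨τ, hτK⟩ hτ
  have hunr : ∀ w : HeightOneSpectrum (𝓞 L), edeg K w = 1 := by
    intro w
    obtain ⟨q, A, hq, hAq, hA⟩ := exists_over j w
    exact edeg_eq_one_of_inertia hA (hin w A hA)
  have hfrob : ∀ (w : HeightOneSpectrum (𝓞 L)) (A : ValuationSubring (AlgebraicClosure ℚ)),
      Over j A w → ∀ g : GK (j.comp (algebraMap K L)),
        A.IsFrobeniusAt g.1 (Ideal.absNorm (w.under (𝓞 K)).asIdeal) →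
          e (restrHom j g) = QuotientGroup.mk (cl (w.under (𝓞 K))) := by
    intro w A hA g hg
    change (evEquiv p (ClassGroup (𝓞 K))).symm (e₁ (e₀ (restrHom j g))) = _
    rw [MulEquiv.symm_apply_eq, evEquiv_mk]
    refine MonoidHom.ext fun χ => ?_
    change e₀ (restrHom j g) (f χ) = χ (cl (w.under (𝓞 K)))
    rw [he₀ g (restrHom j g) (restrHom_apply j g), hf χ _ g ⟨A, hA.under, hg⟩]
  refine ⟨L, fL, nL, aL, gL, e, hunr, fun w σ hσ => ?_, fun w => ?_, ?_⟩
  · obtain ⟨q, A, hq, hAq, hA⟩ := exists_over j w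
    obtain ⟨g, hg⟩ := exists_frobAt_over (hA.under (F := K))
    rw [← eq_of_isArithFrobAt hA (hunr w) hσ hg]
    exact hfrob w A hA g hg
  · obtain ⟨q, A, hq, hAq, hA⟩ := exists_over j w
    obtain ⟨g, hg⟩ := exists_frobAt_over (hA.under (F := K))
    have h1 := fdeg_eq_one_iff hA (hin w A hA) (g := g.1) g.2 hg
    change fdeg K w = 1 ↔ _
    rw [h1]
    change g.1 ∈ GK j ↔ _
    rw [← restrHom_eq_one_iff, ← e.map_eq_one_iff, hfrob w A hA g hg, QuotientGroup.eq_one_iff]
  · intro M _ _ _ _ hM hMu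
    -- an embedding of `M` over `K`
    obtain ⟨jM, hjM⟩ : ∃ jM : M →+* AlgebraicClosure ℚ,
        jM.comp (algebraMap K M) = j.comp (algebraMap K L) := by
      let _ : Algebra K (AlgebraicClosure ℚ) := (j.comp (algebraMap K L)).toAlgebra
      let jM : M →ₐ[K] AlgebraicClosure ℚ := IsAlgClosed.lift
      exact ⟨jM, RingHom.ext fun x => jM.commutes x⟩
    obtain ⟨ψ, lψ, hψ, hψu⟩ : ∃ ψ : GK (j.comp (algebraMap K L)) →* C p, Lev ψ ∧
        (∀ g, ψ g = 1 ↔ g.1 ∈ GK jM) ∧ ∀ (w : HeightOneSpectrum (𝓞 M))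
          (A : ValuationSubring (AlgebraicClosure ℚ)), Over jM A w → edeg K w = 1 →
            ∀ g : GK (j.comp (algebraMap K L)), g.1 ∈ A.inertiaSubgroupIn ℚ → ψ g = 1 := by
      rw [← hjM]
      obtain ⟨ψ, h1, h2, -, h3⟩ := exists_char_of_field (p := p) (K := K) jM hM
      exact ⟨ψ, h1, h2, h3⟩
    have hψU : ψ ∈ Unr p (j.comp (algebraMap K L)) := by
      refine ⟨lψ, fun v A hA g hg => ?_⟩
      obtain ⟨q, hq, hqv⟩ := exists_prime_mem v
      have hAq : A.LiesOverPrime q := hA.natCast_mem_iff.mp hqv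
      obtain ⟨w, hw⟩ := exists_over_of_liesOver jM hq hAq
      exact hψu w A hw (hMu w) g hg
    -- `G_L` fixes `M`
    have hGL : ∀ g : GK j, ∀ x : M, g.1 (jM x) = jM x := by
      intro g
      have hgK : g.1 ∈ GK (j.comp (algebraMap K L)) := fun x => g.2 (algebraMap K L x)
      exact (hψ ⟨g.1, hgK⟩).mp ((hfix ⟨g.1, hgK⟩).mp g.2 ⟨ψ, hψU⟩)
    choose y hy using fun x : M => ConvKum.mem_range_of_fixed j (x := jM x) fun g => hGL g x
    refine ⟨{ toFun := y, map_one' := ?_, map_mul' := ?_, map_zero' := ?_, map_add' := ?_,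
              commutes' := ?_ }⟩
    · exact j.injective (by rw [hy, map_one, map_one])
    · exact fun a b => j.injective (by rw [hy, map_mul, map_mul, hy, hy])
    · exact j.injective (by rw [hy, map_zero, map_zero])
    · exact fun a b => j.injective (by rw [hy, map_add, map_add, hy, hy])
    · exact fun a => j.injective (by rw [hy]; exact RingHom.congr_fun hjM a)

end Fermat.Agent.Cor.CFTP
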