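import Fermat.Agent.Corollaries.CFTP.Defs
import Fermat.Agent.LT.Quad.Exist

set_option autoImplicit false

/-!
# The existence theorem over a totally complex field containing `ζ_p`

`exists_mat`: every ray character with values in `ZMod p` is matched with a (Kummer) character of
`G_K`.
-/

namespace Fermat.Agent.Cor.CFTP

open IsDedekindDomain NumberField
open Fermat.Agent.Frob Fermat.Agent.FrobDensity Fermat.Agent.Minkowski
open Fermat.Agent.LT Fermat.Agent.LT.Tower.Fr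
open Fermat.Agent.Cor.Diff (GK FrobAt)
open Fermat.Agent.CFT.Global (locPow E mem_E AboveP)
open Fermat.Agent.CFT.SUnits (ord)

variable {p : ℕ} [hp : Fact p.Prime]

/-- Homomorphisms to the `p`-th roots of unity. -/
theorem exists_char {G : Type*} [Group G] (f : G →* (AlgebraicClosure ℚ)ˣ)
    (hf : ∀ g, f g ^ p = 1) : ∃ ψ : G →* C p, ∀ g, ψ g = 1 ↔ f g = 1 := by
  have : NeZero p := ⟨hp.out.ne_zero⟩
  obtain ⟨ζ, hζ⟩ : ∃ ζ : AlgebraicClosure ℚ, IsPrimitiveRoot ζ p :=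
    HasEnoughRootsOfUnity.exists_primitiveRoot _ p
  let f' : G →* rootsOfUnity p (AlgebraicClosure ℚ) :=
    f.codRestrict _ fun g => (mem_rootsOfUnity p _).mpr (hf g)
  have hc : Nat.card (rootsOfUnity p (AlgebraicClosure ℚ)) = Nat.card (C p) := by
    rw [hζ.card_rootsOfUnity]
    exact (Nat.card_zmod p).symm
  let e : rootsOfUnity p (AlgebraicClosure ℚ) ≃* C p := mulEquivOfCyclicCardEq hc
  refine ⟨e.toMonoidHom.comp f', fun g => ?_⟩
  have h1 : (e.toMonoidHom.comp f') g = e (f' g) := rfl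
  rw [h1, EmbeddingLike.map_eq_one_iff]
  constructor
  · intro h
    exact congrArg Subtype.val h
  · intro h
    exact Subtype.ext h

variable {K : Type*} [Field K]

/-- The Kummer homomorphism `g ↦ g α / α`. -/
noncomputable def kumHom {ζ : K} (hζ : IsPrimitiveRoot ζ p) (i : K →+* AlgebraicClosure ℚ)
    {b : Kˣ} {α : AlgebraicClosure ℚ} (hα : α ^ p = i b) (hα0 : α ≠ 0) :
    GK i →* (AlgebraicClosure ℚ)ˣ where
  toFun g := Units.mk0 (g.1 α / α)
    (div_ne_zero ((map_ne_zero_iff g.1 g.1.injective).mpr hα0) hα0)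
  map_one' := by
    ext
    exact div_self hα0
  map_mul' g h := by
    ext
    rw [Units.val_mul, Units.val_mk0, Units.val_mk0, Units.val_mk0]
    have h1 : (h.1 α / α) ^ p = 1 := by
      rw [div_pow, ← map_pow, hα, h.2, div_self]
      rw [← hα]
      exact pow_ne_zero _ hα0
    have : NeZero p := ⟨hp.out.ne_zero⟩
    obtain ⟨k, -, hk⟩ := (hζ.map_of_injective i.injective).eq_pow_of_pow_eq_one h1
    have h2 : h.1 α = i ζ ^ k * α := by rw [hk, div_mul_cancel₀ _ hα0]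
    have h3 : (g * h).1 α = i ζ ^ k * g.1 α := by
      change g.1 (h.1 α) = _
      rw [h2, map_mul, map_pow, g.2]
    rw [h3, ← hk]
    field_simp

lemma kumHom_eq_one_iff {ζ : K} (hζ : IsPrimitiveRoot ζ p) (i : K →+* AlgebraicClosure ℚ)
    {b : Kˣ} {α : AlgebraicClosure ℚ} (hα : α ^ p = i b) (hα0 : α ≠ 0) (g : GK i) :
    kumHom hζ i hα hα0 g = 1 ↔ g.1 α = α := by
  rw [Units.ext_iff]
  change g.1 α / α = 1 ↔ _
  rw [div_eq_one_iff_eq hα0]

/-- Kummer characters. -/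
theorem exists_kum_char {ζ : K} (hζ : IsPrimitiveRoot ζ p) (i : K →+* AlgebraicClosure ℚ)
    (b : Kˣ) : ∃ (α : AlgebraicClosure ℚ) (ψ : GK i →* C p), α ^ p = i b ∧ Lev ψ ∧
      ∀ g, ψ g = 1 ↔ g.1 α = α := by
  obtain ⟨α, hα⟩ := IsAlgClosed.exists_pow_nat_eq (i b) hp.out.pos
  have hα0 : α ≠ 0 := by
    rintro rfl
    rw [zero_pow hp.out.ne_zero] at hα
    exact b.ne_zero (i.injective (by rw [← hα, map_zero]))
  obtain ⟨ψ, hψ⟩ := exists_char (p := p) (kumHom hζ i hα hα0) (fun g => by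
    ext
    rw [Units.val_pow_eq_pow_val, Units.val_one]
    change (g.1 α / α) ^ p = 1
    rw [div_pow, ← map_pow, hα, g.2, div_self]
    rw [← hα]
    exact pow_ne_zero _ hα0)
  refine ⟨α, ψ, hα, ?_, fun g => (hψ g).trans (kumHom_eq_one_iff hζ i hα hα0 g)⟩
  refine ⟨IntermediateField.adjoin ℚ {α}, ?_, fun g hg => ?_⟩
  · exact IntermediateField.adjoin.finiteDimensional (Algebra.IsIntegral.isIntegral α)
  · rw [hψ, kumHom_eq_one_iff]
    exact hg α (IntermediateField.mem_adjoin_simple_self ℚ α)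

/-- The zero set of a Kummer character. -/
theorem kum_iff {K : Type*} [Field K] [NumberField K] {ζ : K} (hζ : IsPrimitiveRoot ζ p)
    {i : K →+* AlgebraicClosure ℚ} {b : Kˣ} {α : AlgebraicClosure ℚ} {ψ : GK i →* C p}
    (hα : α ^ p = i b) (hψ : ∀ g, ψ g = 1 ↔ g.1 α = α) {v : HeightOneSpectrum (𝓞 K)}
    (hv : (p : 𝓞 K) ∉ v.asIdeal) (hb : ord v b = 0) {g : GK i} (hg : FrobAt g v) :
    ψ g = 1 ↔ b ∈ locPow p v := by
  obtain ⟨A, hA, hF⟩ := hg
  have : NeZero p := ⟨hp.out.ne_zero⟩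
  rw [hψ]
  exact fix_iff_mem_locPow hp.out hζ.toInteger_isPrimitiveRoot hv hb hα hA g.2 hF

/-- **Existence theorem** over a totally complex field containing `ζ_p`. -/
theorem exists_mat {K : Type} [Field K] [NumberField K] [IsTotallyComplex K] {ζ : K}
    (hζ : IsPrimitiveRoot ζ p) (i : K →+* AlgebraicClosure ℚ)
    {S : Finset (HeightOneSpectrum (𝓞 K))} {n : ℕ} {η : HeightOneSpectrum (𝓞 K) → ZMod p}
    (hη : IsRay S n η) : ∃ ψ : GK i →* C p, Lev ψ ∧ Mat i η ψ := by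
  obtain ⟨b, T, hST, hTp, hb, hbT⟩ := Quad.exists_kummer hζ hη
  obtain ⟨α, ψ, hα, hL, hψ⟩ := exists_kum_char hζ i b
  refine ⟨ψ, hL, T, fun v hv g hg => ?_⟩
  rw [hbT v hv]
  exact (kum_iff hζ hα hψ (fun h => hv (hTp v h)) (mem_E.mp hb v hv) hg).symm

end Fermat.Agent.Cor.CFTP
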