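import Fermat.Agent.Corollaries.CFTP.Exist

set_option autoImplicit false

/-!
# The existence theorem for characters of order `p` over every number field: the final form
-/

namespace Fermat.Agent.Cor.CFTP

open IsDedekindDomain NumberField
open Fermat.Agent.LT
open Fermat.Agent.Cor.Diff (GK FrobAt)

/-- The data of the extension `K(ζ_p) / K`, inside `ℚ̄`. -/
theorem exists_tower {p : ℕ} [hp : Fact p.Prime] {K : Type} [Field K] [NumberField K]
    (hK : p ≠ 2 ∨ IsTotallyComplex K) (i : K →+* AlgebraicClosure ℚ) :
    ∃ (K' : Type) (_ : Field K') (_ : NumberField K') (_ : Algebra K K') (_ : IsGalois K K')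
      (_ : IsTotallyComplex K') (ζ : K') (i' : K' →+* AlgebraicClosure ℚ),
      IsPrimitiveRoot ζ p ∧ i'.comp (algebraMap K K') = i ∧
      (∀ g ∈ GK (i'.comp (algebraMap K K')), g (i' ζ) = i' ζ → g ∈ GK i') ∧
      Nat.card (K' ≃ₐ[K] K') < p := by
  have hne : NeZero p := ⟨hp.out.ne_zero⟩
  have hne' : NeZero (p : K) := ⟨by exact_mod_cast hp.out.ne_zero⟩
  have hnf : NumberField (CyclotomicField p K) :=
    IsCyclotomicExtension.numberField {p} K (CyclotomicField p K)
  have hgal : IsGalois K (CyclotomicField p K) :=
    IsCyclotomicExtension.isGalois {p} K (CyclotomicField p K)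
  have hζ : IsPrimitiveRoot (IsCyclotomicExtension.zeta p K (CyclotomicField p K)) p :=
    IsCyclotomicExtension.zeta_spec p K (CyclotomicField p K)
  have htc : IsTotallyComplex (CyclotomicField p K) := by
    rcases hK with h | h
    · exact nrRealPlaces_eq_zero_iff.1
        (InfinitePlace.IsPrimitiveRoot.nrRealPlaces_eq_zero_of_two_lt
          (lt_of_le_of_ne hp.out.two_le h.symm) hζ)
    · exact isTotallyComplex_of_algebra K (CyclotomicField p K)
  let _ : Algebra K (AlgebraicClosure ℚ) := i.toAlgebra
  let i' : CyclotomicField p K →ₐ[K] AlgebraicClosure ℚ := IsAlgClosed.lift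
  refine ⟨CyclotomicField p K, inferInstance, hnf, inferInstance, hgal, htc, _, i'.toRingHom, hζ,
    i'.comp_algebraMap, ?_, ?_⟩
  · intro g hg h x
    have hx : x ∈ Algebra.adjoin K {IsCyclotomicExtension.zeta p K (CyclotomicField p K)} := by
      rw [IsCyclotomicExtension.adjoin_primitive_root_eq_top hζ]
      exact Algebra.mem_top
    induction hx using Algebra.adjoin_induction with
    | mem y hy =>
      rw [Set.mem_singleton_iff.mp hy]
      exact h
    | algebraMap r => exact hg r
    | add y z _ _ hy hz => rw [map_add, map_add, hy, hz]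
    | mul y z _ _ hy hz => rw [map_mul, map_mul, hy, hz]
  · have h1 := Nat.card_le_card_of_injective _ (hζ.autToPow_injective (K := K))
    rw [Nat.card_eq_fintype_card (α := (ZMod p)ˣ), ZMod.card_units_eq_totient,
      Nat.totient_prime hp.out] at h1
    have h2 := hp.out.one_lt
    omega

/-- **The existence theorem** (up to scalars) for ray characters of order `p`, `p` odd, over every
number field (for `p = 2`: over every totally complex number field). -/
theorem exists_mat_all {p : ℕ} [hp : Fact p.Prime] {K : Type}
    [Field K] [NumberField K] (hK : p ≠ 2 ∨ IsTotallyComplex K) (i : K →+* AlgebraicClosure ℚ)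
    {S : Finset (HeightOneSpectrum (𝓞 K))} {n : ℕ} {η : HeightOneSpectrum (𝓞 K) → ZMod p}
    (hη : IsRay S n η) : ∃ ψ : GK i →* C p, Lev ψ ∧ Mat i η ψ := by
  obtain ⟨K', _, _, _, _, _, ζ, i', hζ, rfl, hgen, hc⟩ := exists_tower (p := p) hK i
  exact exists_mat_of_tower hζ i' hgen hc hη

end Fermat.Agent.Cor.CFTP
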