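import Fermat.Agent.Corollaries.CFTP.MainE

set_option autoImplicit false

/-!
# Uniqueness: ray characters with the same zeros are proportional
-/

namespace Fermat.Agent.Cor.CFTP

open IsDedekindDomain NumberField
open Fermat.Agent.LT
open Fermat.Agent.Cor.Diff (GK FrobAt finite_natCast_mem exists_frobAt)

variable {p : ℕ} [hp : Fact p.Prime]

lemma isRay_mul {K : Type*} [Field K] [NumberField K] {S : Finset (HeightOneSpectrum (𝓞 K))} {n : ℕ}
    {η : HeightOneSpectrum (𝓞 K) → ZMod p} (h : IsRay S n η) (c : ZMod p) :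
    IsRay S n (fun v => c * η v) :=
  h.comp (AddMonoidHom.mulLeft c)

/-- Two ray characters matched with the same character of `G_K` are proportional, outside the
union of their moduli. -/
theorem exists_mul_of_mat {K : Type} [Field K] [NumberField K] (hK : p ≠ 2 ∨ IsTotallyComplex K)
    {i : K →+* AlgebraicClosure ℚ} {S S' : Finset (HeightOneSpectrum (𝓞 K))} {n n' : ℕ}
    {η η' : HeightOneSpectrum (𝓞 K) → ZMod p} (hη : IsRay S n η) (hη' : IsRay S' n' η')
    {ψ : GK i →* C p} (lψ : Lev ψ) (h : Mat i η ψ) (h' : Mat i η' ψ) :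
    ∃ c : ZMod p, c ≠ 0 ∧ ∀ v, v ∉ S → v ∉ S' → η' v = c * η v := by
  classical
  obtain ⟨T, hT⟩ := zeros_of_ker_le h h h' (fun g hg _ => hg)
  obtain ⟨T', hT'⟩ := zeros_of_ker_le h' h' h (fun g hg _ => hg)
  -- a linear combination which vanishes at some place with `η v ≠ 0` vanishes almost everywhere
  have hlin : ∀ c : ZMod p, IsRay (S ∪ S') (max n n') (fun v => η' v + c * η v) := fun c =>
    ((hη'.mono (le_max_right n n')).mono_set Finset.subset_union_right).add
      (((isRay_mul hη c).mono (le_max_left n n')).mono_set Finset.subset_union_left)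
  choose ψc lc mc using fun c : ZMod p => exists_mat_all hK i (hlin c)
  have hker : ∀ c g, ψ g = 1 → ψc c g = 1 := fun c =>
    ker_le_of_mat' h (mc c) lψ (lc c) T fun v hv h0 => by
      rw [hT v hv h0 h0, h0, mul_zero, add_zero]
  choose a ha using fun c : ZMod p => eq_pow_of_ker (ψc c) ψ (hker c)
  -- for each `c`: either `η' + c η` is almost everywhere zero or it has the zeros of `η`
  have hdich : ∀ c : ZMod p, (∃ Tc : Finset (HeightOneSpectrum (𝓞 K)), ∀ v, v ∉ Tc →
      η' v + c * η v = 0) ∨ ∃ Tc : Finset (HeightOneSpectrum (𝓞 K)), ∀ v, v ∉ Tc →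
      η' v + c * η v = 0 → η v = 0 := by
    intro c
    by_cases hac : (a c : ZMod p) = 0
    · left
      obtain ⟨Tc, hTc⟩ := mc c
      obtain ⟨D, hD, hfrob⟩ := exists_frobAt i
      refine ⟨Tc ∪ (finite_natCast_mem (K := K) hD).toFinset, fun v hv => ?_⟩
      simp only [Finset.mem_union, not_or, Set.Finite.mem_toFinset, Set.mem_ofPred_eq] at hv
      obtain ⟨g, hg⟩ := hfrob v hv.2
      refine (hTc v hv.1 g hg).mpr ?_
      apply toAdd_eq_zero.mp
      rw [ha c, MonoidHom.pow_apply, toAdd_pow, nsmul_eq_mul, hac, zero_mul]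
    · right
      obtain ⟨Tc, hTc⟩ := zeros_of_ker_le (mc c) (mc c) h (fun g hg _ => by
        rw [ha c, MonoidHom.pow_apply, ← toAdd_eq_zero, toAdd_pow, nsmul_eq_mul] at hg
        exact toAdd_eq_zero.mp ((mul_eq_zero.mp hg).resolve_left hac))
      exact ⟨Tc, fun v hv h0 => hTc v hv h0 h0⟩
  by_cases hz : ∃ T₁ : Finset (HeightOneSpectrum (𝓞 K)), ∀ v, v ∉ T₁ → η v = 0
  · -- `η` is zero almost everywhere
    obtain ⟨T₁, hT₁⟩ := hz
    refine ⟨1, one_ne_zero, fun v hv hv' => ?_⟩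
    rw [Quad.eq_zero_of_large hη hT₁ v hv, mul_zero]
    refine Quad.eq_zero_of_large hη' (T := T ∪ T₁) (fun w hw => ?_) v hv'
    rw [Finset.mem_union, not_or] at hw
    exact hT w hw.1 (hT₁ w hw.2) (hT₁ w hw.2)
  push Not at hz
  -- the exceptional sets
  have hdich' : ∀ c : ZMod p, ∃ Tc : Finset (HeightOneSpectrum (𝓞 K)),
      (∀ v, v ∉ Tc → η' v + c * η v = 0) ∨ (∀ v, v ∉ Tc → η' v + c * η v = 0 → η v = 0) := by
    intro c
    rcases hdich c with ⟨Tc, h⟩ | ⟨Tc, h⟩
    · exact ⟨Tc, Or.inl h⟩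
    · exact ⟨Tc, Or.inr h⟩
  choose Tc hTc using hdich'
  obtain ⟨v₀, hv₀, hne⟩ := hz (T' ∪ Finset.univ.biUnion Tc)
  simp only [Finset.mem_union, not_or, Finset.mem_biUnion, Finset.mem_univ, true_and,
    not_exists] at hv₀
  have hne' : η' v₀ ≠ 0 := fun h0 => hne (hT' v₀ hv₀.1 h0 h0)
  set c : ZMod p := -(η' v₀ / η v₀) with hc
  have h1 : η' v₀ + c * η v₀ = 0 := by
    rw [hc, neg_mul, div_mul_cancel₀ _ hne, add_neg_cancel]
  have h2 : ∀ v, v ∉ Tc c → η' v + c * η v = 0 := by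
    rcases hTc c with h | h
    · exact h
    · exact absurd (h v₀ (hv₀.2 c) h1) hne
  refine ⟨η' v₀ / η v₀, div_ne_zero hne' hne, fun v hv hv' => ?_⟩
  have h3 := Quad.eq_zero_of_large (hlin c) h2 v (by
    rw [Finset.mem_union, not_or]
    exact ⟨hv, hv'⟩)
  rw [hc, neg_mul, ← sub_eq_add_neg, sub_eq_zero] at h3
  exact h3

end Fermat.Agent.Cor.CFTP
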