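import Fermat.Agent.Corollaries.CFTP.Exact

set_option autoImplicit false

/-!
# Unramified characters and unramified symbols

`K ∋ ζ_p`, `v` any place of `K`.

* `exists_sym_eq`: every homomorphism `Kˣ → ZMod p` which is trivial on the local `p`-th powers is
  a local symbol `(b, ·)_v`;
* `sym_unit_of_inertia`: if the inertia group of `v` fixes `α`, `α ^ p = b`, then `(b, u)_v = 0` for
  all `u` which are units at `v` (the converse of `inertia_fix_of_sym`);
* `exists_ray_of_unramified`: `K` totally complex; a continuous `ψ : G_K → ZMod p` which is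
  unramified at all places is given, at all places, by a ray character of modulus one.
-/

namespace Fermat.Agent.Cor.CFTP

open IsDedekindDomain NumberField
open Fermat.Agent.Frob Fermat.Agent.LT Fermat.Agent.LT.Tower.Fr
open Fermat.Agent.Cor.Diff (GK FrobAt)
open Fermat.Agent.CFT.SUnits (ord ord_one ord_mul ord_inv ord_pow ord_div div div_apply)
open Fermat.Agent.CFT.Global hiding Inputs p_dvd_index exists_notMem_locPow exists_place powE
  mem_powE index_powE index_zpowers_sup_powE second hasse_norm FirstInequality exists_eq_nsmul_add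
  exists_ne_symVec exists_functional_aux exists_inj forall_ne_zero exists_functional index_locPow
open Fermat.Agent.CFT.Global2

variable {p : ℕ} [hp : Fact p.Prime]

/-- A finite commutative group has at most as many characters with values in `ZMod p` as
elements. -/
theorem card_hom_le (V : Type*) [CommGroup V] [Finite V] :
    Finite (V →* C p) ∧ Nat.card (V →* C p) ≤ Nat.card V := by
  have hc : Nat.card (V →* (AlgebraicClosure ℚ)ˣ) = Nat.card V :=
    Nat.card_congr
      (CommGroup.monoidHom_mulEquiv_of_hasEnoughRootsOfUnity V (AlgebraicClosure ℚ)).some.toEquiv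
  have hfin : Finite (V →* (AlgebraicClosure ℚ)ˣ) := Nat.finite_of_card_ne_zero (by
    rw [hc]
    exact Nat.card_pos.ne')
  have : NeZero (p : AlgebraicClosure ℚ) := ⟨by exact_mod_cast hp.out.ne_zero⟩
  obtain ⟨z, hz⟩ := IsAlgClosed.exists_pow_nat_eq (1 : AlgebraicClosure ℚ) hp.out.pos
  obtain ⟨ζ, hζ⟩ := HasEnoughRootsOfUnity.exists_primitiveRoot (AlgebraicClosure ℚ) p
  have hζu : IsPrimitiveRoot (hζ.isUnit hp.out.ne_zero).unit p :=
    hζ.isUnit_unit hp.out.ne_zero
  let e : C p →* (AlgebraicClosure ℚ)ˣ :=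
    (Subgroup.subtype _).comp
      (AddMonoidHom.toMultiplicativeLeft hζu.zmodEquivZPowers.toAddMonoidHom)
  have he : Function.Injective e := by
    intro x y h
    have h1 := Subtype.val_injective h
    exact hζu.zmodEquivZPowers.injective h1
  have hinj : Function.Injective (fun f : V →* C p => e.comp f) := fun f g h =>
    MonoidHom.ext fun x => he (DFunLike.congr_fun h x)
  exact ⟨Finite.of_injective _ hinj, (Nat.card_le_card_of_injective _ hinj).trans hc.le⟩

/-- **Nondegeneracy**: every functional on `Kˣ` modulo local `p`-th powers is a symbol. -/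
theorem exists_sym_eq {K : Type*} [Field K] [NumberField K] {ζ : K} (hζ : IsPrimitiveRoot ζ p)
    (LS : LocalSymbols p K) (v : HeightOneSpectrum (𝓞 K)) (φ : Kˣ →* C p)
    (hφ : ∀ x ∈ locPow p v, φ x = 1) : ∃ b : Kˣ, ∀ x, LS.sym v b x = φ x := by
  have hidx : (locPow p v).index ≠ 0 := by
    rw [Fermat.Agent.CFT.LocalCount.index_locPow v hp.out hζ]
    refine mul_ne_zero (pow_ne_zero _ hp.out.ne_zero) (pow_ne_zero _ ?_)
    rw [Ne, Ideal.absNorm_eq_zero_iff]
    exact v.ne_bot
  have hfi : (locPow p v).FiniteIndex := ⟨hidx⟩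
  obtain ⟨hf1, hf2⟩ := card_hom_le (p := p) (Kˣ ⧸ locPow p v)
  have h1 : ∀ b : Kˣ, ∀ x ∈ locPow p v, LS.sym v b x = 1 := by
    intro b x hx
    have h2 := LS.skew v b x
    rwa [(LS.mem_locPow_iff v x).mp hx b, mul_one] at h2
  let s : Kˣ →* ((Kˣ ⧸ locPow p v) →* C p) :=
    { toFun := fun b => QuotientGroup.lift (locPow p v) (LS.sym v b) (h1 b)
      map_one' := by
        ext x
        change LS.sym v 1 x = 1
        rw [map_one, MonoidHom.one_apply]
      map_mul' := fun a b => by
        ext x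
        change LS.sym v (a * b) x = LS.sym v a x * LS.sym v b x
        rw [map_mul, MonoidHom.mul_apply] }
  have hs : s.ker = locPow p v := by
    ext b
    rw [MonoidHom.mem_ker, LS.mem_locPow_iff]
    constructor
    · intro h x
      exact DFunLike.congr_fun h (QuotientGroup.mk x)
    · intro h
      ext x
      exact congrArg _ (h x)
  have hsurj : Function.Surjective s := by
    rw [← MonoidHom.range_eq_top]
    apply Subgroup.eq_top_of_le_card
    rw [← Subgroup.index_ker, hs]
    exact hf2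
  obtain ⟨b, hb⟩ := hsurj (QuotientGroup.lift (locPow p v) φ hφ)
  exact ⟨b, fun x => DFunLike.congr_fun hb (QuotientGroup.mk x)⟩

/-- **Unramified characters have trivial symbols with the units**, at every place. -/
theorem sym_unit_of_inertia {K : Type} [Field K] [NumberField K] {ζ : K}
    (hζ : IsPrimitiveRoot ζ p) (LS : LocalSymbols p K) {i : K →+* AlgebraicClosure ℚ} {b : Kˣ}
    {α : AlgebraicClosure ℚ} (hα : α ^ p = i b) {v : HeightOneSpectrum (𝓞 K)}
    {A : ValuationSubring (AlgebraicClosure ℚ)} (hA : Over i A v)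
    (hu : ∀ g : GK i, g.1 ∈ A.inertiaSubgroupIn ℚ → g.1 α = α) {u : Kˣ} (hou : ord v u = 0) :
    LS.sym v b u = 1 := by
  have : NeZero p := ⟨hp.out.ne_zero⟩
  -- the unramified element
  obtain ⟨b₀, hb₀⟩ := exists_sym_eq hζ LS v (ordMod p v) (fun x hx => by
    rw [← MonoidHom.mem_ker, mem_ker_ordMod]
    exact dvd_ord_of_mem_locPow hx)
  have hb₀u : ∀ u : Kˣ, ord v u = 0 → LS.sym v b₀ u = 1 := by
    intro u hu
    rw [hb₀, ← MonoidHom.mem_ker, mem_ker_ordMod, hu]
    exact dvd_zero _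
  have hb₀n : b₀ ∉ locPow p v := by
    rw [LS.mem_locPow_iff]
    intro h
    obtain ⟨π, hπ⟩ := exists_ord_eq_one (K := K) v
    have h1 := h π
    rw [hb₀, ← MonoidHom.mem_ker, mem_ker_ordMod, hπ] at h1
    have h4 := Int.natAbs_dvd_natAbs.mpr h1
    simp at h4
    exact hp.out.one_lt.ne' h4
  obtain ⟨α₀, hα₀⟩ := IsAlgClosed.exists_pow_nat_eq (i b₀) hp.out.pos
  have hin₀ := inertia_fix_of_sym hζ LS hα₀ hA hb₀u
  obtain ⟨g, hg⟩ := exists_frobAt_over hA
  have hgα₀ : g.1 α₀ ≠ α₀ := fun h =>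
    hb₀n ((frob_fix_iff_mem_locPow hζ hα₀ hA (fun g hg => hin₀ g hg) hg).mp h)
  have hα0 : α ≠ 0 := by
    rintro rfl
    rw [zero_pow hp.out.ne_zero] at hα
    exact b.ne_zero (i.injective (by rw [← hα, map_zero]))
  have hα₀0 : α₀ ≠ 0 := by
    rintro rfl
    rw [zero_pow hp.out.ne_zero] at hα₀
    exact b₀.ne_zero (i.injective (by rw [← hα₀, map_zero]))
  have hz : IsPrimitiveRoot (i ζ) p := hζ.map_of_injective i.injective
  have hroot : ∀ {a : Kˣ} {β : AlgebraicClosure ℚ}, β ^ p = i a → β ≠ 0 →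
      ∃ s : ℕ, g.1 β = i ζ ^ s * β := by
    intro a β hβ hβ0
    have h1 : (g.1 β / β) ^ p = 1 := by
      rw [div_pow, ← map_pow, hβ, g.2, div_self]
      rw [← hβ]
      exact pow_ne_zero _ hβ0
    obtain ⟨s, -, hs⟩ := hz.eq_pow_of_pow_eq_one h1
    exact ⟨s, by rw [hs, div_mul_cancel₀ _ hβ0]⟩
  obtain ⟨s, hs⟩ := hroot hα hα0
  obtain ⟨t, ht⟩ := hroot hα₀ hα₀0
  have ht0 : (t : ZMod p) ≠ 0 := by
    intro h
    obtain ⟨k, rfl⟩ := (ZMod.natCast_eq_zero_iff _ _).mp h
    rw [pow_mul, hz.pow_eq_one, one_pow, one_mul] at ht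
    exact hgα₀ ht
  obtain ⟨c, hc⟩ := C.exists_natCast (-((s : ZMod p) / (t : ZMod p)))
  have hst : i ζ ^ (s + t * c) = 1 := by
    rw [hz.pow_eq_one_iff_dvd, ← ZMod.natCast_eq_zero_iff, Nat.cast_add, Nat.cast_mul, hc]
    field_simp
    ring
  have hβ : (α * α₀ ^ c) ^ p = i (b * b₀ ^ c : Kˣ) := by
    rw [mul_pow, ← pow_mul, mul_comm c p, pow_mul, hα, hα₀, Units.val_mul, map_mul,
      Units.val_pow_eq_pow_val, map_pow]
  have hfix : g.1 (α * α₀ ^ c) = α * α₀ ^ c := by
    rw [map_mul, map_pow, hs, ht, mul_pow, ← pow_mul]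
    calc i ζ ^ s * α * (i ζ ^ (t * c) * α₀ ^ c) = i ζ ^ (s + t * c) * (α * α₀ ^ c) := by
          rw [pow_add]
          ring
      _ = _ := by rw [hst, one_mul]
  have hmem : b * b₀ ^ c ∈ locPow p v :=
    (frob_fix_iff_mem_locPow hζ hβ hA (fun g hg => by
      rw [map_mul, map_pow, hu g hg, hin₀ g hg]) hg).mp hfix
  have h1 := (LS.mem_locPow_iff v _).mp hmem u
  rwa [map_mul, MonoidHom.mul_apply, map_pow, MonoidHom.pow_apply, hb₀u u hou, one_pow,
    mul_one] at h1

/-- **Unramified characters**, `ζ_p ∈ K` totally complex: a continuous character of `G_K` of order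
`p` which is unramified at all places is given by a ray character of modulus one. -/
theorem exists_ray_of_unramified {K : Type} [Field K] [NumberField K] [IsTotallyComplex K]
    {ζ : K} (hζ : IsPrimitiveRoot ζ p) {i : K →+* AlgebraicClosure ℚ} {ψ : GK i →* C p}
    (lψ : Lev ψ) (hu : ∀ (v : HeightOneSpectrum (𝓞 K)) (A : ValuationSubring (AlgebraicClosure ℚ)),
      Over i A v → ∀ g : GK i, g.1 ∈ A.inertiaSubgroupIn ℚ → ψ g = 1) :
    ∃ η : HeightOneSpectrum (𝓞 K) → ZMod p, IsRay ∅ 0 η ∧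
      ∀ v, ∀ g : GK i, FrobAt g v → ψ g = Multiplicative.ofAdd (η v) := by
  classical
  obtain ⟨b, α, hα, hψ⟩ := ConvKum.exists_kummer hζ i ψ lψ
  obtain ⟨LS, c, hc, hpf⟩ := exists_productFormula (p := p) K hζ
  choose π hπ using fun v : HeightOneSpectrum (𝓞 K) => exists_ord_eq_one (K := K) v
  have hunit : ∀ v, ∀ u : Kˣ, ord v u = 0 → LS.sym v b u = 1 := by
    intro v u hou
    obtain ⟨q, A, hq, hAq, hA⟩ := exists_over i v
    exact sym_unit_of_inertia hζ LS hα hA (fun g hg => (hψ g).mp (hu v A hA g hg)) hou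
  have hsym : ∀ v, ∀ x : Kˣ, LS.sym v b x = LS.sym v b (π v) ^ ord v x := by
    intro v x
    have h1 : ord v (x / π v ^ ord v x) = 0 := by
      rw [ord_div]
      have : ord v (π v ^ ord v x) = ord v x := by
        rcases (ord v x).eq_nat_or_neg with ⟨m, hm | hm⟩
        · rw [hm, zpow_natCast, ord_pow, hπ, mul_one]
        · rw [hm, zpow_neg, zpow_natCast, ord_inv, ord_pow, hπ, mul_one]
      rw [this, sub_self]
    have h3 := hunit v _ h1
    rw [map_div, div_eq_one] at h3
    rw [h3, map_zpow]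
  let η₀ : HeightOneSpectrum (𝓞 K) → ZMod p := fun v => c v * (LS.sym v b (π v)).toAdd
  have hray : IsRay ∅ 0 η₀ := by
    intro y _
    apply Multiplicative.toAdd.injective
    rw [toAdd_one]
    let U := (div y : HeightOneSpectrum (𝓞 K) →₀ ℤ).support
    have hU : ∀ v, v ∉ U → ord v y = 0 := by
      intro v hv
      rwa [Finsupp.notMem_support_iff, div_apply] at hv
    have h1 := sum_sym_eq_zero LS hpf b y U (fun v hv => by
      rw [hsym v y, hU v hv, zpow_zero])
    rw [toAdd_rayVal_eq_sum ∅ U η₀ y (fun v hv _ => by rw [hU v hv, zero_smul])]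
    refine (Finset.sum_congr rfl fun v _ => ?_).trans h1
    rw [if_neg (Finset.notMem_empty v), hsym v y, toAdd_zpow, zsmul_eq_mul, zsmul_eq_mul]
    ring
  have hmat : Mat i η₀ ψ := by
    refine ⟨∅, fun v _ g hg => ?_⟩
    obtain ⟨A, hA, hF⟩ := hg
    rw [hψ, frob_fix_iff_mem_locPow hζ hα hA (fun g hg => (hψ g).mp (hu v A hA g hg)) hF,
      LS.mem_locPow_iff]
    constructor
    · intro h x
      have h2 : LS.sym v b (π v) = 1 :=
        toAdd_eq_zero.mp ((mul_eq_zero.mp h).resolve_left (hc v))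
      rw [hsym, h2, one_zpow]
    · intro h
      change c v * (LS.sym v b (π v)).toAdd = 0
      rw [h, toAdd_one, mul_zero]
  obtain ⟨a, ha, hex⟩ := exact_of_mat hζ hray lψ hmat
  have ha' : (a : ZMod p) ≠ 0 := fun h => ha ((ZMod.natCast_eq_zero_iff _ _).mp h)
  refine ⟨fun v => (a : ZMod p)⁻¹ * η₀ v, isRay_mul hray _, fun v g hg => ?_⟩
  have h1 := congrArg Multiplicative.toAdd (hex v (Finset.notMem_empty v) g hg)
  rw [toAdd_pow, nsmul_eq_mul, toAdd_ofAdd] at h1
  apply Multiplicative.toAdd.injective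
  rw [toAdd_ofAdd]
  change (ψ g).toAdd = (a : ZMod p)⁻¹ * η₀ v
  rw [← h1, inv_mul_cancel_left₀ ha']

end Fermat.Agent.Cor.CFTP
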